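import Fermat.Agent.Carayol.Haupt.Series

/-!
# The modular equation of a Hauptmodul: definition
-/

set_option autoImplicit false

noncomputable section

open Polynomial

namespace FLTA.Carayol.Haupt

/-- Defining properties of the modular equation. -/
structure IsModEq (q L : ℕ) [NeZero q] [NeZero L] (Φ : ℤ[X][X]) : Prop where
  monic : Φ.Monic
  natDegree : Φ.natDegree = q + 1
  root : Φ.eval₂ (aeval (ModularCurve.qExpand ℤ q (tSeries L))).toRingHom (tSeries L) = 0
  root_swap : Φ.eval₂ (aeval (tSeries L)).toRingHom (ModularCurve.qExpand ℤ q (tSeries L)) = 0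

end FLTA.Carayol.Haupt
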