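import Fermat.Agent.Carayol.Haupt.Poly
import Fermat.Agent.Carayol.Haupt.IsModEq
import Fermat.Agent.Igusa.Theta
import Fermat.Agent.Congruence.FrobeniusField

/-!
# `ℤ[T, 1/P]` inside Laurent series, and the derivation `θ` along the modular equation
-/

set_option autoImplicit false

noncomputable section

open Polynomial ModularCurve

namespace FLTA.Carayol.Haupt

open FLTA.Igusa (theta)

variable (L : ℕ) [NeZero L]

/-- A monic polynomial evaluated at `t` is a unit. -/
theorem isUnit_aeval_tOf (R : Type*) [CommRing R] {A : ℤ[X]} (hA : A.Monic) :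
    IsUnit (aeval (tOf L R) A) := by
  set U : PowerSeries R := (tUnit L).map (Int.castRingHom R)
  set W : PowerSeries R := ∑ i ∈ Finset.range (A.natDegree + 1),
    (A.coeff i : PowerSeries R) * PowerSeries.X ^ (A.natDegree - i) * U ^ i
  have hU : PowerSeries.constantCoeff U = 1 := by
    rw [← PowerSeries.coeff_zero_eq_constantCoeff_apply, PowerSeries.coeff_map,
      PowerSeries.coeff_zero_eq_constantCoeff_apply, constantCoeff_tUnit L]
    simp
  have hW : IsUnit W := by
    refine PowerSeries.isUnit_iff_constantCoeff.mpr ?_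
    have e : PowerSeries.constantCoeff W = 1 := by
      rw [map_sum, Finset.sum_range_succ, Finset.sum_eq_zero fun i hi => by
        have := Finset.mem_range.mp hi
        rw [map_mul, map_mul, map_pow, PowerSeries.constantCoeff_X, zero_pow (by omega)]
        simp]
      simp [hA.coeff_natDegree, hU]
    rw [e]
    exact isUnit_one
  have hs : IsUnit (HahnSeries.single (-(A.natDegree : ℤ)) (1 : R)) :=
    IsUnit.of_mul_eq_one (HahnSeries.single (A.natDegree : ℤ) 1)
      (by rw [HahnSeries.single_mul_single]; simp)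
  suffices e : aeval (tOf L R) A =
      HahnSeries.single (-(A.natDegree : ℤ)) 1 * HahnSeries.ofPowerSeries ℤ R W by
    rw [e]; exact hs.mul (hW.map _)
  rw [aeval_eq_sum_range, map_sum, Finset.mul_sum]
  refine Finset.sum_congr rfl fun i hi => ?_
  have hi' := Finset.mem_range.mp hi
  rw [map_mul, map_mul, map_intCast, HahnSeries.ofPowerSeries_X_pow, Algebra.smul_def, eq_intCast,
    tOf_pow]
  have h1 : HahnSeries.single (-(A.natDegree : ℤ)) (1 : R) *
      HahnSeries.single ((A.natDegree - i : ℕ) : ℤ) (1 : R) = HahnSeries.single (-(i : ℤ)) (1 : R) := by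
    rw [HahnSeries.single_mul_single, one_mul]
    congr 2
    omega
  rw [← h1, map_pow]
  ring

/-- `T ↦ t(e)`. -/
def psiBase (R : Type*) [CommRing R] : ℤ[X] →+* LaurentSeries R :=
  (aeval (R := ℤ) (tOf L R)).toRingHom

theorem psiBase_X (R : Type*) [CommRing R] : psiBase L R X = tOf L R := aeval_X _

/-- `ℤ[T, 1/P] → R((e))`, `T ↦ t(e)`. -/
def psi (R : Type*) [CommRing R] : TRing L →+* LaurentSeries R :=
  IsLocalization.Away.lift (cuspPoly L) (g := psiBase L R)
    (isUnit_aeval_tOf L R (monic_cuspPoly L))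

theorem psi_comp_toT (R : Type*) [CommRing R] : (psi L R).comp (toT L) = psiBase L R :=
  IsLocalization.Away.lift_comp (cuspPoly L) _

theorem psi_toT (R : Type*) [CommRing R] (A : ℤ[X]) : psi L R (toT L A) = psiBase L R A :=
  RingHom.congr_fun (psi_comp_toT L R) A

theorem coeffMap_comp_psi {R S : Type*} [CommRing R] [CommRing S] (φ : R →+* S) :
    (coeffMap φ).comp (psi L R) = psi L S := by
  refine IsLocalization.ringHom_ext (Submonoid.powers (cuspPoly L)) ?_
  refine Polynomial.ringHom_ext' (RingHom.ext_int _ _) ?_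
  show coeffMap φ (psi L R (toT L X)) = psi L S (toT L X)
  rw [psi_toT, psi_toT, psiBase_X, psiBase_X, coeffMap_tOf L]

theorem psiBase_eq (R : Type*) [CommRing R] (A : ℤ[X]) :
    psiBase L R A = aeval (tOf L R) (A.map (Int.castRingHom R)) :=
  (aeval_intMap L A).symm

theorem psiBase_eq_zero_iff {R : Type*} [CommRing R] (A : ℤ[X]) :
    psiBase L R A = 0 ↔ A.map (Int.castRingHom R) = 0 := by
  rw [psiBase_eq, map_eq_zero_iff _ (aeval_tOf_injective L)]

theorem psiBase_injective (R : Type*) [CommRing R] [CharZero R] :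
    Function.Injective (psiBase L R) := by
  rw [injective_iff_map_eq_zero]
  intro A hA
  exact (Polynomial.map_eq_zero_iff (Int.castRingHom R).injective_int).mp
    ((psiBase_eq_zero_iff L A).mp hA)

omit [NeZero L] in
theorem exists_toT_eq (c : TRing L) :
    ∃ (A : ℤ[X]) (N : ℕ), c * toT L (cuspPoly L) ^ N = toT L A := by
  obtain ⟨⟨A, s, N, rfl⟩, h⟩ := IsLocalization.surj (Submonoid.powers (cuspPoly L)) c
  exact ⟨A, N, by rw [← map_pow]; exact h⟩

theorem psi_eq_zero {R : Type*} [CommRing R] {c : TRing L} (hc : psi L R c = 0) {A : ℤ[X]} {N : ℕ}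
    (h : c * toT L (cuspPoly L) ^ N = toT L A) : A.map (Int.castRingHom R) = 0 := by
  have := congrArg (psi L R) h
  rw [map_mul, hc, zero_mul, psi_toT] at this
  exact (psiBase_eq_zero_iff L A).mp this.symm

omit [NeZero L] in
theorem isUnit_toT_cuspPoly : IsUnit (toT L (cuspPoly L)) :=
  IsLocalization.map_units (M := Submonoid.powers (cuspPoly L)) (S := TRing L)
    ⟨_, Submonoid.mem_powers _⟩

theorem psi_injective (R : Type*) [CommRing R] [CharZero R] : Function.Injective (psi L R) := by
  rw [injective_iff_map_eq_zero]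
  intro c hc
  obtain ⟨A, N, h⟩ := exists_toT_eq L c
  rw [(Polynomial.map_eq_zero_iff (Int.castRingHom R).injective_int).mp (psi_eq_zero L hc h),
    map_zero] at h
  exact ((isUnit_toT_cuspPoly L).pow N).mul_left_eq_zero.mp h

/-- The kernel of `ℤ[T, 1/P] → k((e))` in characteristic `q`. -/
theorem dvd_of_psi_eq_zero (q : ℕ) (k : Type*) [CommRing k] [CharP k q] {c : TRing L}
    (hc : psi L k c = 0) : (q : TRing L) ∣ c := by
  obtain ⟨A, N, h⟩ := exists_toT_eq L c
  have hA : C (q : ℤ) ∣ A := by
    rw [C_dvd_iff_dvd_coeff]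
    intro i
    have := congrArg (fun B => B.coeff i) (psi_eq_zero L hc h)
    simp only [coeff_map, coeff_zero] at this
    exact (CharP.intCast_eq_zero_iff k q _).mp this
  obtain ⟨B, rfl⟩ := hA
  obtain ⟨u, hu⟩ := (isUnit_toT_cuspPoly L).pow N
  refine ⟨toT L B * ↑u⁻¹, ?_⟩
  rw [map_mul, ← hu] at h
  rw [show (q : TRing L) = toT L (C (q : ℤ)) by simp, ← mul_assoc]
  exact (Units.mul_inv_eq_iff_eq_mul u).mpr h.symm |>.symm

/-! ### Frobenius -/

theorem coeffMap_frobenius_intCast (q : ℕ) [NeZero q] (k : Type*) [CommRing k] [ExpChar k q]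
    (x : LaurentSeries ℤ) :
    coeffMap (Int.castRingHom k) x ^ q = qExpand k q (coeffMap (Int.castRingHom k) x) := by
  rw [← FLTA.Congruence.qExpand_coeffMap_frobenius, coeffMap_coeffMap]
  congr 1
  exact coeffMap_congr (RingHom.ext_int _ _) _

theorem exists_eq_natCast_mul (q : ℕ) [NeZero q] (x : LaurentSeries ℤ)
    (h : ∀ n, (q : ℤ) ∣ x.coeff n) : ∃ y : LaurentSeries ℤ, x = (q : LaurentSeries ℤ) * y := by
  refine ⟨x.map (⟨fun a : ℤ => a / (q : ℤ), by simp⟩ : ZeroHom ℤ ℤ), ?_⟩
  ext n
  rw [← map_natCast HahnSeries.C, HahnSeries.C_mul_eq_smul, HahnSeries.coeff_smul, smul_eq_mul]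
  exact (Int.mul_ediv_cancel' (h n)).symm

/-! ### The derivation `θ` -/

variable {R : Type*} [CommRing R]

theorem theta_pow (x : LaurentSeries R) (n : ℕ) :
    theta (x ^ n) = (n : LaurentSeries R) * x ^ (n - 1) * theta x := by
  induction n with
  | zero =>
    have := FLTA.Igusa.theta_C (1 : R)
    simpa using this
  | succ n ih =>
    rw [pow_succ, FLTA.Igusa.theta_mul, ih]
    rcases n with _ | n
    · simp
    · simp only [Nat.add_sub_cancel, pow_succ]; push_cast; ring

theorem theta_intCast (a : ℤ) : theta (a : LaurentSeries R) = 0 := by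
  rw [← map_intCast HahnSeries.C, FLTA.Igusa.theta_C]

theorem theta_aevalInt (x : LaurentSeries R) (A : ℤ[X]) :
    theta (aeval x A) = aeval x (derivative A) * theta x := by
  induction A using Polynomial.induction_on' with
  | add p q hp hq => simp only [map_add, hp, hq, add_mul]
  | monomial n a =>
    rw [derivative_monomial, aeval_monomial, aeval_monomial, FLTA.Igusa.theta_mul, theta_pow]
    simp only [eq_intCast, theta_intCast]
    push_cast
    ring

theorem innerDeriv_add {A : Type*} [CommRing A] (Φ Ψ : A[X][X]) :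
    innerDeriv (Φ + Ψ) = innerDeriv Φ + innerDeriv Ψ :=
  Polynomial.sum_add_index Φ Ψ _ (fun n => by simp) fun n a b => by simp

theorem innerDeriv_monomial {A : Type*} [CommRing A] (n : ℕ) (a : A[X]) :
    innerDeriv (monomial n a) = monomial n (derivative a) :=
  Polynomial.sum_monomial_index a _ (by simp)

/-- Chain rule for `θ` along a polynomial in two variables. -/
theorem theta_eval₂ (Φ : ℤ[X][X]) (T x : LaurentSeries R) :
    theta (Φ.eval₂ (aeval T).toRingHom x) =
      (derivative Φ).eval₂ (aeval T).toRingHom x * theta x +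
        (innerDeriv Φ).eval₂ (aeval T).toRingHom x * theta T := by
  induction Φ using Polynomial.induction_on' with
  | add p q hp hq => simp only [eval₂_add, innerDeriv_add, map_add, hp, hq]; ring
  | monomial n a =>
    simp only [derivative_monomial, innerDeriv_monomial, eval₂_monomial, map_mul, map_natCast,
      FLTA.Igusa.theta_mul, theta_pow, AlgHom.toRingHom_eq_coe, RingHom.coe_coe, theta_aevalInt]
    ring

theorem theta_twist (c : Rˣ) (x : LaurentSeries R) :
    theta (FLTA.Igusa.twist c x) = FLTA.Igusa.twist c (theta x) := by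
  ext n; simp; ring

/-- `θ t` is a unit. -/
theorem isUnit_theta_tOf : IsUnit (theta (tOf L R)) := by
  set U : PowerSeries R := (tUnit L).map (Int.castRingHom R)
  set V : PowerSeries R := PowerSeries.mk fun n => ((n : R) - 1) * PowerSeries.coeff n U
  have hV : IsUnit V := by
    refine PowerSeries.isUnit_iff_constantCoeff.mpr ?_
    rw [← PowerSeries.coeff_zero_eq_constantCoeff_apply, PowerSeries.coeff_mk,
      PowerSeries.coeff_map, PowerSeries.coeff_zero_eq_constantCoeff_apply, constantCoeff_tUnit L]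
    simp
  have hs : IsUnit (HahnSeries.single (-1 : ℤ) (1 : R)) :=
    IsUnit.of_mul_eq_one (HahnSeries.single (1 : ℤ) 1)
      (by rw [HahnSeries.single_mul_single]; simp)
  suffices e : theta (tOf L R) =
      HahnSeries.single (-1 : ℤ) 1 * HahnSeries.ofPowerSeries ℤ R V by
    rw [e]; exact hs.mul (hV.map _)
  ext n
  have h1 := tOf_pow L (R := R) 1
  rw [pow_one, pow_one] at h1
  rw [FLTA.Igusa.theta_coeff, h1, HahnSeries.coeff_single_mul, HahnSeries.coeff_single_mul,
    one_mul, one_mul]
  push_cast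
  rw [sub_neg_eq_add]
  rcases lt_or_ge (n + 1) 0 with hn | hn
  · rw [ofPowerSeries_coeff_of_neg _ hn, ofPowerSeries_coeff_of_neg _ hn, mul_zero]
  · obtain ⟨m, hm⟩ := Int.eq_ofNat_of_zero_le hn
    rw [hm, HahnSeries.ofPowerSeries_apply_coeff, HahnSeries.ofPowerSeries_apply_coeff,
      PowerSeries.coeff_mk, show n = (m : ℤ) - 1 by omega]
    push_cast
    ring

end FLTA.Carayol.Haupt
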