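import Fermat.Agent.Carayol.Haupt.RootProd
import Fermat.Agent.Carayol.Haupt.Laurent
import Mathlib.RingTheory.IntegralClosure.IntegrallyClosed
import Mathlib.RingTheory.RootsOfUnity.Complex

/-!
# Reduction modulo `1 - ζ` and Kronecker's congruence
-/

set_option autoImplicit false

noncomputable section

open Polynomial ModularCurve

namespace FLTA.Carayol.Haupt

/-- The ring of algebraic integers in `ℂ`. -/
abbrev OC : Type := integralClosure ℤ ℂ

variable (q : ℕ) [hq : Fact q.Prime]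

theorem exists_unit_primitiveRoot : ∃ ζ : OCˣ, IsPrimitiveRoot ζ q := by
  have h := Complex.isPrimitiveRoot_exp q hq.out.ne_zero
  let z : OC := ⟨_, h.isIntegral hq.out.pos⟩
  have hz : IsPrimitiveRoot z q :=
    IsPrimitiveRoot.of_map_of_injective (f := algebraMap OC ℂ) h Subtype.val_injective
  exact ⟨(hz.isUnit hq.out.ne_zero).unit, IsPrimitiveRoot.coe_units_iff.mp hz⟩

theorem exists_maximal_mem : ∃ m : Ideal OC, m.IsMaximal ∧ (q : OC) ∈ m := by
  have hnu : ¬ IsUnit (q : OC) := by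
    intro hu
    obtain ⟨y, hy⟩ := hu.exists_right_inv
    have h1 : (q : ℂ) * (y : ℂ) = 1 := by simpa using congrArg Subtype.val hy
    have hint : IsIntegral ℤ ((q : ℚ)⁻¹) := by
      refine (isIntegral_algebraMap_iff (B := ℂ) (algebraMap ℚ ℂ).injective).mp ?_
      rw [map_inv₀, map_natCast, inv_eq_of_mul_eq_one_right h1]
      exact y.2
    obtain ⟨z, hz⟩ := IsIntegrallyClosed.isIntegral_iff.mp hint
    have hq0 : (q : ℚ) ≠ 0 := by exact_mod_cast hq.out.ne_zero
    have h2 : ((z * q : ℤ) : ℚ) = ((1 : ℤ) : ℚ) := by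
      rw [eq_intCast] at hz
      push_cast
      rw [hz, inv_mul_cancel₀ hq0]
    have h3 : (q : ℤ) ∣ 1 := ⟨z, by rw [mul_comm]; exact_mod_cast h2.symm⟩
    exact hq.out.one_lt.ne' (Nat.dvd_one.mp (Int.natCast_dvd_natCast.mp h3))
  obtain ⟨m, hm, hle⟩ := Ideal.exists_le_maximal (Ideal.span {(q : OC)})
    (by rwa [ne_eq, Ideal.span_singleton_eq_top])
  exact ⟨m, hm, hle (Ideal.mem_span_singleton_self _)⟩

theorem charP_quotient {m : Ideal OC} (hm : m.IsMaximal) (hqm : (q : OC) ∈ m) :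
    CharP (OC ⧸ m) q := by
  have : Nontrivial (OC ⧸ m) := Ideal.Quotient.nontrivial_iff.mpr hm.ne_top
  refine (CharP.charP_iff_prime_eq_zero hq.out).mpr ?_
  rw [← map_natCast (Ideal.Quotient.mk m), Ideal.Quotient.eq_zero_iff_mem]
  exact hqm

theorem exists_charP_field : ∃ (k : Type) (_ : Field k) (_ : CharP k q) (φ : OC →+* k),
    ∀ ζ : OCˣ, ζ ^ q = 1 → Units.map (φ : OC →* k) ζ = 1 := by
  obtain ⟨m, hm, hqm⟩ := exists_maximal_mem q
  let _ : Field (OC ⧸ m) := Ideal.Quotient.field m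
  have := charP_quotient q hm hqm
  refine ⟨OC ⧸ m, inferInstance, this, Ideal.Quotient.mk m, fun ζ hζ => Units.ext ?_⟩
  have h : ((Units.map (Ideal.Quotient.mk m : OC →* OC ⧸ m) ζ : (OC ⧸ m)ˣ) : OC ⧸ m) ^ q = 1 := by
    rw [← Units.val_pow_eq_pow_val, ← map_pow, hζ, map_one, Units.val_one]
  refine frobenius_inj (OC ⧸ m) q ?_
  simp only [frobenius_def, Units.val_one, one_pow]
  exact h

variable (L : ℕ) [NeZero L]

theorem rootProd_one (k : Type*) [Field k] [CharP k q] :
    rootProd L k q 1 =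
      ((X ^ q - C X) * (X - C (X ^ q)) : ℤ[X][X]).map (evalTq L k q) := by
  have : ExpChar (Polynomial (LaurentSeries k)) q := by
    have : CharP (LaurentSeries k) q := charP_of_injective_algebraMap (algebraMap k _).injective q
    exact ExpChar.prime hq.out
  have hF : tOf L k ^ q = qExpand k q (tOf L k) := coeffMap_frobenius_intCast q k (tSeries L)
  have hX : evalTq L k q X = qExpand k q (tOf L k) := by simp [evalTq]
  simp only [rootProd, one_pow, FLTA.Igusa.twist_one_apply, Finset.prod_const, Finset.card_range,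
    Polynomial.map_mul, Polynomial.map_sub, Polynomial.map_pow, map_X, map_C, map_pow, hX]
  rw [sub_pow_expChar]
  simp only [← map_pow]
  rw [hF, qExpand_qExpand, mul_comm]

/-- Kronecker's congruence. -/
theorem exists_kronecker' {Φ : ℤ[X][X]} (h : IsModEq q L Φ) :
    ∃ H : ℤ[X][X], Φ = (X ^ q - C X) * (X - C (X ^ q)) + (q : ℤ[X][X]) * H := by
  obtain ⟨ζ, hζ⟩ := exists_unit_primitiveRoot q
  obtain ⟨k, _, _, φ, hφ⟩ := exists_charP_field q
  set K : ℤ[X][X] := (X ^ q - C X) * (X - C (X ^ q))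
  have e : Φ.map (evalTq L k q) = K.map (evalTq L k q) := by
    rw [← coeffMap_comp_evalTq φ, ← Polynomial.map_map, h.map_eq_rootProd q hζ, map_rootProd,
      hφ ζ hζ.pow_eq_one, rootProd_one q L k, coeffMap_comp_evalTq]
  suffices hd : C (C (q : ℤ)) ∣ Φ - K by
    obtain ⟨H, hH⟩ := hd
    refine ⟨H, eq_add_of_sub_eq' (hH.trans ?_)⟩
    simp
  rw [C_dvd_iff_dvd_coeff]
  intro i
  rw [C_dvd_iff_dvd_coeff]
  intro j
  have h1 : evalTq L k q ((Φ - K).coeff i) = 0 := by
    rw [← coeff_map, Polynomial.map_sub, e, sub_self, coeff_zero]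
  have h2 : aeval (tOf L k) (((Φ - K).coeff i).map (Int.castRingHom k)) = 0 := by
    rw [aeval_intMap]
    refine qExpand_injective q ?_
    rw [map_zero, ← h1]
    have : (qExpand k q).comp (psiBase L k) = evalTq L k q := by
      refine Polynomial.ringHom_ext' (RingHom.ext_int _ _) ?_
      simp [evalTq, psiBase]
    exact RingHom.congr_fun this _
  have h3 := congrArg (fun B => B.coeff j) ((map_eq_zero_iff _ (aeval_tOf_injective L)).mp h2)
  simp only [coeff_map, coeff_zero] at h3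
  exact (CharP.intCast_eq_zero_iff k q _).mp h3

end FLTA.Carayol.Haupt
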