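import Fermat.Agent.Carayol.Haupt.Supersingular
import Mathlib.LinearAlgebra.Charpoly.Basic

/-!
# The characteristic polynomial of `v` over every field, and the package mod `q`
-/

set_option autoImplicit false

noncomputable section

open Polynomial ModularCurve

namespace FLTA.Carayol.Haupt

variable {q L : ℕ} [hq : Fact q.Prime] [NeZero L]

omit hq in
theorem charpoly_congr {K : Type*} [Field K] {p p' : K[X]} (e : p = p') (a b : K[X])
    [Module.Free K (AdjoinRoot p)] [Module.Finite K (AdjoinRoot p)]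
    [Module.Free K (AdjoinRoot p')] [Module.Finite K (AdjoinRoot p')] :
    (LinearMap.mulLeft K (-(q : AdjoinRoot p) * AdjoinRoot.mk p a *
        Ring.inverse (AdjoinRoot.mk p b))).charpoly =
      (LinearMap.mulLeft K (-(q : AdjoinRoot p') * AdjoinRoot.mk p' a *
        Ring.inverse (AdjoinRoot.mk p' b))).charpoly := by
  subst e
  rfl

omit [NeZero L] hq in
theorem isUnit_map_cuspPoly {F : Type*} [Field F] {f : ℤ[X] →+* F} (hf : Function.Injective f) :
    IsUnit (f (cuspPoly L)) :=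
  isUnit_iff_ne_zero.mpr ((map_ne_zero_iff f hf).mpr (monic_cuspPoly L).ne_zero)

/-- Base change to any field, through a field `F` mapping to `ℂ((e))`. -/
theorem IsModEq.charpoly_vElt {Φ : ℤ[X][X]} (h : IsModEq q L Φ) {χ : (TRing L)[X]}
    (hχ : χ.map (psiQ q L ℂ) = vProd q L (zetaC q)) {F K : Type*} [Field F] [CharZero F] [Field K]
    {f₀ : ℤ[X] →+* F} (hf₀ : Function.Injective f₀) (σ : F →+* LaurentSeries ℂ)
    (hσ : σ.comp f₀ = evalTq L ℂ q) (g : F →+* K) (f : TRing L →+* K)
    (hg : g.comp f₀ = f.comp (toT L))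
    [Module.Free K (AdjoinRoot (Φ.map (f.comp (toT L))))]
    [Module.Finite K (AdjoinRoot (Φ.map (f.comp (toT L))))] :
    (LinearMap.mulLeft K (vElt q Φ (f.comp (toT L)))).charpoly = χ.map f := by
  have hζ := isPrimitiveRoot_zetaC q
  have : Module.Finite F (AdjoinRoot (Φ.map f₀)) := (h.monic.map f₀).finite_adjoinRoot
  have : Module.Finite K (AdjoinRoot ((Φ.map f₀).map g)) :=
    ((h.monic.map f₀).map g).finite_adjoinRoot
  let ι : TRing L →+* F := IsLocalization.Away.lift (cuspPoly L) (isUnit_map_cuspPoly hf₀)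
  have hι : ι.comp (toT L) = f₀ := IsLocalization.Away.lift_comp (cuspPoly L) _
  have hgι : g.comp ι = f := IsLocalization.ringHom_ext (Submonoid.powers (cuspPoly L))
    (by rw [RingHom.comp_assoc, show ι.comp (algebraMap ℤ[X] (TRing L)) = f₀ from hι, hg]; rfl)
  have hσι : σ.comp ι = psiQ q L ℂ := IsLocalization.ringHom_ext (Submonoid.powers (cuspPoly L))
    (by
      rw [RingHom.comp_assoc, show ι.comp (algebraMap ℤ[X] (TRing L)) = f₀ from hι, hσ]
      exact RingHom.ext fun A => (psiQ_toT q L ℂ A).symm)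
  have h0 : (LinearMap.mulLeft F (vElt q Φ f₀)).charpoly = χ.map ι := by
    refine Polynomial.map_injective σ σ.injective ?_
    rw [h.map_charpoly_vElt hζ f₀ hf₀ σ hσ, Polynomial.map_map, hσι, hχ]
  have hbc := charpoly_mulLeft_map (h.monic.map f₀) g (vElt q Φ f₀)
  rw [map_vElt g f₀ (h.separable_map hf₀ hζ), h0] at hbc
  have e := (charpoly_congr (q := q) (p := (Φ.map f₀).map g) (p' := Φ.map (f.comp (toT L)))
    (by rw [Polynomial.map_map, hg]) _ _).symm.trans hbc
  simp only [Polynomial.map_map, hg, hgι] at e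
  exact e

/-- The mod `q` package. -/
theorem exists_vPoly' {Φ H : ℤ[X][X]} (h : IsModEq q L Φ) (hL : IsHauptLevel L)
    (hH : Φ = (X ^ q - C X) * (X - C (X ^ q)) + (q : ℤ[X][X]) * H) :
    ∃ (χ : (TRing L)[X]) (ρ : TRing L),
      χ.Monic ∧ χ.natDegree = q + 1 ∧
      (∀ (K : Type) [Field K] [CharZero K] (f : TRing L →+* K),
        Function.Injective (f.comp (toT L)) →
          (Φ.map (f.comp (toT L))).Separable ∧
          ∀ [Module.Free K (AdjoinRoot (Φ.map (f.comp (toT L))))]
            [Module.Finite K (AdjoinRoot (Φ.map (f.comp (toT L))))],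
            (LinearMap.mulLeft K (vElt q Φ (f.comp (toT L)))).charpoly = χ.map f) ∧
      C (q : TRing L) ∣ χ - X * (X ^ q - C ρ) ∧
      ∀ (k : Type) [Field k] [CharP k q] (f : TRing L →+* k), f ρ = 0 →
        f (toT L X) ^ (q * q) = f (toT L X) ∧
        H.eval₂ (aeval (f (toT L X) ^ q)).toRingHom (f (toT L X)) ≠ 0 := by
  obtain ⟨χ, hm, hd, hχ⟩ := h.exists_chi hL
  obtain ⟨ζ₁, hζ₁, hζC⟩ := exists_zetaOC q
  have hOC : χ.map (psiQ q L OC) = vProd q L ζ₁ := by
    refine Polynomial.map_injective (coeffMap (algebraMap OC ℂ)) (fun x y hxy => ?_) ?_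
    · ext n
      exact congrArg Subtype.val (show x.coeff n = y.coeff n from Subtype.val_injective
        (by simpa using congrArg (fun z : LaurentSeries ℂ => z.coeff n) hxy))
    · rw [Polynomial.map_map, coeffMap_comp_psiQ, hχ, map_vProd, hζC]
  obtain ⟨hdvd, hρ⟩ := exists_rho q L hζ₁.pow_eq_one hOC
  refine ⟨χ, -χ.coeff 1, hm, hd, fun K _ _ f hf => ?_, hdvd, fun k _ _ f hfρ => ?_⟩
  · refine ⟨h.separable_map hf (isPrimitiveRoot_zetaC q), ?_⟩
    intro _ _
    obtain ⟨σ, hσ⟩ := exists_lift_fractionRing (evalTq L ℂ q) (evalTq_injective q L ℂ)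
    obtain ⟨g, hg⟩ := exists_lift_fractionRing (f.comp (toT L)) hf
    exact h.charpoly_vElt hχ (IsFractionRing.injective ℤ[X] (FractionRing ℤ[X])) σ hσ g f hg
  · obtain ⟨k₀, _, _, φ, hφ⟩ := exists_charP_field q
    exact h.supersingular hH (hρ k₀ φ (hφ ζ₁ hζ₁.pow_eq_one)) k f hfρ

end FLTA.Carayol.Haupt
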