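import Fermat.Agent.Carayol.Haupt.ModEqExists
import Fermat.Agent.Carayol.Haupt.Kronecker
import Fermat.Agent.Carayol.Haupt.VPoly
import Mathlib.LinearAlgebra.Charpoly.Basic

/-!
# The modular equation of a Hauptmodul and its reduction mod `q`

`Φ(X, T)`: `X` is the outer variable, `T` the inner one; the roots over `T = t(σ)` are
`t((σ + j)/q)` and `t(qσ)`. `vPoly` is the characteristic polynomial of `v = -q Φ_T/Φ_X`
(integral over `ℤ[T, 1/P]`), `rho` is the inverse of `r = (θ t)^(q-1)`: its zeros are the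
supersingular values.
-/

set_option autoImplicit false

noncomputable section

open Polynomial

namespace FLTA.Carayol.Haupt

variable (q L : ℕ) [hq : Fact q.Prime] [NeZero L]

/-- The modular equation exists. -/
theorem exists_isModEq (hL : IsHauptLevel L) (hqL : ¬ q ∣ L) :
    ∃ Φ : ℤ[X][X], IsModEq q L Φ :=
  exists_isModEq' L hL q hq.out hqL

variable {q L}

/-- Kronecker's congruence. -/
theorem IsModEq.exists_kronecker {Φ : ℤ[X][X]} (h : IsModEq q L Φ) (hL : IsHauptLevel L)
    (hqL : ¬ q ∣ L) :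
    ∃ H : ℤ[X][X], Φ = (X ^ q - C X) * (X - C (X ^ q)) + (q : ℤ[X][X]) * H :=
  exists_kronecker' q L h

/-- The mod `q` package: integrality of `v` and the supersingular values. -/
theorem IsModEq.exists_vPoly {Φ H : ℤ[X][X]} (h : IsModEq q L Φ) (hL : IsHauptLevel L)
    (hqL : ¬ q ∣ L)
    (hH : Φ = (X ^ q - C X) * (X - C (X ^ q)) + (q : ℤ[X][X]) * H) :
    ∃ (χ : (TRing L)[X]) (ρ : TRing L),
      χ.Monic ∧ χ.natDegree = q + 1 ∧
      (∀ (K : Type) [Field K] [CharZero K] (f : TRing L →+* K),
        Function.Injective (f.comp (toT L)) →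
          (Φ.map (f.comp (toT L))).Separable ∧
          ∀ [Module.Free K (AdjoinRoot (Φ.map (f.comp (toT L))))]
            [Module.Finite K (AdjoinRoot (Φ.map (f.comp (toT L))))],
            (LinearMap.mulLeft K (vElt q Φ (f.comp (toT L)))).charpoly = χ.map f) ∧
      C (q : TRing L) ∣ χ - X * (X ^ q - C ρ) ∧
      ∀ (k : Type) [Field k] [CharP k q] (f : TRing L →+* k), f ρ = 0 →
        f (toT L X) ^ (q * q) = f (toT L X) ∧
        H.eval₂ (aeval (f (toT L X) ^ q)).toRingHom (f (toT L X)) ≠ 0 :=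
  exists_vPoly' h hL hH

end FLTA.Carayol.Haupt
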