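import Fermat.Prelude.Def_ModularCurve_X0
import Mathlib.Algebra.Polynomial.Derivative
import Mathlib.RingTheory.Localization.Away.Basic
import Mathlib.RingTheory.AdjoinRoot

/-!
# The Hauptmoduln of levels 4 and 9 as integral series

`t = e⁻¹ ∏ (1-eⁿ)^k / (1-e^{Ln})^k` with `(L,k) = (4,8)` or `(9,3)`; it is finite and non-zero
at every other point, and `cuspPoly L` has as roots its values at the finite cusps.
-/

set_option autoImplicit false

noncomputable section

open Polynomial

namespace FLTA.Carayol.Haupt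

/-- The auxiliary levels with a Hauptmodul and no elliptic point. -/
def IsHauptLevel (L : ℕ) : Prop := L = 4 ∨ L = 9

theorem IsHauptLevel.neZero {L : ℕ} (h : IsHauptLevel L) : NeZero L :=
  ⟨by rcases h with rfl | rfl <;> norm_num⟩

/-- The exponent of the eta quotient. -/
def etaExp (L : ℕ) : ℕ := if L = 4 then 8 else 3

/-- The values of the Hauptmodul at the finite cusps, as roots of a polynomial. -/
def cuspPoly (L : ℕ) : ℤ[X] :=
  if L = 4 then X ^ 2 + C 16 * X else X ^ 3 + C 9 * X ^ 2 + C 27 * X

theorem monic_cuspPoly (L : ℕ) : (cuspPoly L).Monic := by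
  unfold cuspPoly
  split
  · monicity!
  · monicity!

/-- The Hauptmodul as a series. -/
def tSeries (L : ℕ) [NeZero L] : LaurentSeries ℤ :=
  HahnSeries.single (-1 : ℤ) 1 * HahnSeries.ofPowerSeries ℤ ℤ (ModularCurve.etaProd ^ etaExp L) *
    ModularCurve.qExpand ℤ L
      (HahnSeries.ofPowerSeries ℤ ℤ (PowerSeries.invOfUnit (ModularCurve.etaProd ^ etaExp L) 1))

/-- The coordinate ring of the `t`-line without the finite cusps. -/
abbrev TRing (L : ℕ) : Type := Localization.Away (cuspPoly L)

/-- The derivative with respect to the inner variable. -/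
def innerDeriv {A : Type*} [CommRing A] (Φ : A[X][X]) : A[X][X] :=
  Φ.sum fun n a => monomial n (derivative a)

/-- `Φ` with coefficients specialised in the ring `TRing L`. -/
def toT (L : ℕ) : ℤ[X] →+* TRing L := algebraMap ℤ[X] (TRing L)

/-- `v = - q Φ_T / Φ_X` in the algebra of one root over `K`. -/
def vElt {K : Type*} [Field K] (q : ℕ) (Φ : ℤ[X][X]) (f : ℤ[X] →+* K) :
    AdjoinRoot (Φ.map f) :=
  -(q : AdjoinRoot (Φ.map f)) * AdjoinRoot.mk (Φ.map f) ((innerDeriv Φ).map f) *
    Ring.inverse (AdjoinRoot.mk (Φ.map f) ((derivative Φ).map f))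

end FLTA.Carayol.Haupt
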