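import Fermat.Agent.Carayol.Haupt.Modular

/-!
# Functions whose only pole is at `∞` are polynomials in `t`

Over `ℤ` when their expansion is integral; the expansion map `ℤ[T] → R((e))` is triangular.
-/

set_option autoImplicit false

noncomputable section

open UpperHalfPlane Function CongruenceSubgroup FLTA.Bridge Filter
open scoped MatrixGroups Topology Manifold ModularForm

namespace FLTA.Carayol.Haupt

variable (L : ℕ) [NeZero L]

/-- `t` over a ring `R`. -/
def tOf (R : Type*) [CommRing R] : LaurentSeries R :=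
  ModularCurve.coeffMap (Int.castRingHom R) (tSeries L)

variable {R : Type*} [CommRing R]

theorem coeffMap_tOf {S : Type*} [CommRing S] (f : R →+* S) :
    ModularCurve.coeffMap f (tOf L R) = tOf L S := by
  rw [tOf, ModularCurve.coeffMap_coeffMap]
  exact ModularCurve.coeffMap_congr (RingHom.ext_int _ _) _

theorem tOf_pow (m : ℕ) : tOf L R ^ m = HahnSeries.single (-(m : ℤ)) (1 : R) *
    HahnSeries.ofPowerSeries ℤ R (((tUnit L).map (Int.castRingHom R)) ^ m) := by
  rw [tOf, tSeries_eq, map_mul, ModularCurve.coeffMap_single, map_one,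
    ModularCurve.coeffMap_ofPowerSeries, mul_pow, HahnSeries.single_pow, one_pow, ← map_pow]
  simp

theorem coeff_tOf_pow_self (m : ℕ) : (tOf L R ^ m).coeff (-(m : ℤ)) = 1 := by
  rw [tOf_pow, HahnSeries.coeff_single_mul, one_mul, sub_self]
  rw [show (0 : ℤ) = ((0 : ℕ) : ℤ) from rfl, HahnSeries.ofPowerSeries_apply_coeff,
    PowerSeries.coeff_zero_eq_constantCoeff, map_pow, ← PowerSeries.coeff_zero_eq_constantCoeff_apply,
    PowerSeries.coeff_map, PowerSeries.coeff_zero_eq_constantCoeff_apply, constantCoeff_tUnit L]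
  simp

theorem coeff_tOf_pow_of_lt {m : ℕ} {n : ℤ} (h : n < -(m : ℤ)) : (tOf L R ^ m).coeff n = 0 := by
  rw [tOf_pow, HahnSeries.coeff_single_mul, one_mul]
  exact ModularCurve.ofPowerSeries_coeff_of_neg _ (by omega)

theorem coeff_algebraMap_mul' (a : R) (x : LaurentSeries R) (n : ℤ) :
    (algebraMap R (LaurentSeries R) a * x).coeff n = a * x.coeff n := by
  rw [HahnSeries.algebraMap_apply', show algebraMap R (PowerSeries R) a = PowerSeries.C a by simp,
    HahnSeries.ofPowerSeries_C, HahnSeries.C_apply, HahnSeries.coeff_single_zero_mul]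

theorem coeff_aeval_tOf_natDegree (P : Polynomial R) :
    (Polynomial.aeval (tOf L R) P).coeff (-(P.natDegree : ℤ)) = P.leadingCoeff := by
  rw [Polynomial.aeval_eq_sum_range, HahnSeries.coeff_sum, Finset.sum_eq_single P.natDegree]
  · rw [Algebra.smul_def, coeff_algebraMap_mul', coeff_tOf_pow_self, mul_one,
      Polynomial.leadingCoeff]
  · intro i hi hne
    have : i < P.natDegree := by simp at hi; omega
    rw [Algebra.smul_def, coeff_algebraMap_mul', coeff_tOf_pow_of_lt L (by omega), mul_zero]
  · intro h; simp at h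

theorem aeval_tOf_injective : Function.Injective (Polynomial.aeval (R := R) (tOf L R)) := by
  rw [injective_iff_map_eq_zero]
  intro P hP
  have h := coeff_aeval_tOf_natDegree L P
  rw [hP] at h
  exact Polynomial.leadingCoeff_eq_zero.mp (by simpa using h.symm)

/-- A polynomial in `t` with coefficients in a subring has such coefficients. -/
theorem coeff_mem_of_coeff_aeval_mem {K : Type*} [CommRing K] (A : Subring K) (P : Polynomial K)
    (h : ∀ n : ℤ, (Polynomial.aeval (tOf L K) P).coeff n ∈ A) :
    ∀ i, P.coeff i ∈ A := by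
  induction hd : P.natDegree using Nat.strong_induction_on generalizing P with
  | _ d ih =>
    have hlead : P.leadingCoeff ∈ A := coeff_aeval_tOf_natDegree L P ▸ h _
    intro i
    rcases eq_or_ne d 0 with h0 | h0
    · rcases eq_or_ne i 0 with rfl | hi
      · simpa [Polynomial.leadingCoeff, hd, h0] using hlead
      · rw [Polynomial.coeff_eq_zero_of_natDegree_lt (by omega)]
        exact zero_mem A
    · have hint : ∀ n : ℤ, (Polynomial.aeval (tOf L K) P.eraseLead).coeff n ∈ A := by
        intro n
        have hP := congrArg (fun Q => (Polynomial.aeval (tOf L K) Q).coeff n)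
          P.eraseLead_add_C_mul_X_pow
        simp only [map_add, map_mul, Polynomial.aeval_C, Polynomial.aeval_X_pow,
          HahnSeries.coeff_add, coeff_algebraMap_mul'] at hP
        rw [← eq_sub_iff_add_eq] at hP
        rw [hP]
        refine sub_mem (h n) (mul_mem hlead ?_)
        have e : (tOf L K ^ P.natDegree).coeff n = (((tSeries L ^ P.natDegree).coeff n : ℤ) : K) := by
          rw [tOf, ← map_pow, ModularCurve.coeffMap_coeff, eq_intCast]
        rw [e]
        exact intCast_mem A _
      have hlt : P.eraseLead.natDegree < d := by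
        have := P.eraseLead_natDegree_le
        omega
      rcases eq_or_ne i P.natDegree with rfl | hi
      · exact hlead
      · rw [← Polynomial.eraseLead_coeff_of_ne _ hi]
        exact ih _ hlt _ hint rfl i

theorem aeval_intMap (A : Polynomial ℤ) :
    Polynomial.aeval (tOf L R) (A.map (Int.castRingHom R)) =
      Polynomial.aeval (tOf L R) A := by
  rw [Polynomial.aeval_def, Polynomial.eval₂_map, Polynomial.aeval_def]
  congr 1
  exact RingHom.ext_int _ _

theorem coeffMap_aeval_tSeries (A : Polynomial ℤ) :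
    ModularCurve.coeffMap (Int.castRingHom R) (Polynomial.aeval (tSeries L) A) =
      Polynomial.aeval (tOf L R) A := by
  rw [Polynomial.aeval_def, Polynomial.hom_eval₂, Polynomial.aeval_def, tOf]
  congr 1
  exact RingHom.ext_int _ _

/-- A member of `ModHol L` bounded away from `∞` is a polynomial in `t`. -/
theorem exists_eval_eq (hL : IsHauptLevel L) {F : ℍ → ℂ} (hF : F ∈ ModHol L)
    (hb : ∀ g : SL(2, ℤ), g ∉ Gamma0 L → IsBoundedAtImInfty (fun τ => F (g • τ))) :
    ∃ A : Polynomial ℂ, ∀ τ, F τ = A.eval (tFun L τ) := by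
  obtain ⟨n, hn⟩ := (mem_holInfty_one_of_mem_modHol L hF).2.2
  induction n generalizing F with
  | zero =>
    obtain ⟨c, hc⟩ := exists_eq_const_of_bounded L hF fun g => by
      by_cases hg : g ∈ Gamma0 L
      · simp only [hF.2.1 g hg]
        simpa using hn
      · exact hb g hg
    exact ⟨Polynomial.C c, by simpa using hc⟩
  | succ n ih =>
    have hmem := qParam_pow_mul_mem 1 (mem_holInfty_one_of_mem_modHol L hF) (n + 1)
    let H : HolInfty 1 := ⟨_, hmem⟩
    have hlim := tendsto_atImInfty_coeff_zero 1 H ((isBoundedAtImInfty_iff_order 1 H).mp hn)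
    set c := (expansion 1 H).coeff 0
    set G : ℍ → ℂ := F - c • tFun L ^ (n + 1)
    have hG : G ∈ ModHol L :=
      sub_mem hF (Subalgebra.smul_mem _ (pow_mem (tFun_mem_modHol L hL) _) c)
    have hGb : ∀ g : SL(2, ℤ), g ∉ Gamma0 L → IsBoundedAtImInfty (fun τ => G (g • τ)) := by
      intro g hg
      obtain ⟨w, hw, -⟩ := exists_tendsto_tFun_smul L hL hg
      refine Eq.subst (motive := IsBoundedAtImInfty) (funext fun τ => ?_)
        (Filter.BoundedAtFilter.add (hb g hg)
          (((hw.pow (n + 1)).const_mul (-c)).isBigO_one ℝ))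
      simp [G, sub_eq_add_neg]
    have hz : IsZeroAtImInfty (fun τ : ℍ => Periodic.qParam 1 (τ : ℂ) ^ (n + 1) * G τ) := by
      have h1 := hlim.sub (((tendsto_qFun_mul_tFun L).pow (n + 1)).const_mul c)
      simp only [one_pow, mul_one, sub_self] at h1
      refine h1.congr fun τ => ?_
      simp only [H, G, qFun, Pi.sub_apply, Pi.smul_apply, Pi.pow_apply, smul_eq_mul, mul_pow]
      ring
    have hb' : IsBoundedAtImInfty (fun τ : ℍ => Periodic.qParam 1 (τ : ℂ) ^ n * G τ) := by
      have := isBoundedAtImInfty_div_qParam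
        (qParam_pow_mul_mem 1 (mem_holInfty_one_of_mem_modHol L hG) (n + 1)) hz
      refine Eq.subst (motive := IsBoundedAtImInfty) (funext fun τ => ?_) this
      rw [pow_succ]
      field_simp [Periodic.qParam_ne_zero]
    obtain ⟨P, hP⟩ := ih hG hGb hb'
    refine ⟨P + Polynomial.C c * Polynomial.X ^ (n + 1), fun τ => ?_⟩
    have := hP τ
    simp only [G, Pi.sub_apply, Pi.smul_apply, Pi.pow_apply, smul_eq_mul] at this
    simp [← this]

theorem qexp_aeval (hL : IsHauptLevel L) (A : Polynomial ℂ) :
    qexp L (Polynomial.aeval (tMod L hL) A) = Polynomial.aeval (tOf L ℂ) A := by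
  rw [← Polynomial.aeval_algHom_apply, qexp_tMod]
  rfl

/-- With an integral expansion the polynomial has integral coefficients. -/
theorem exists_int_eval_eq (hL : IsHauptLevel L) (F : ModHol L)
    (hb : ∀ g : SL(2, ℤ), g ∉ Gamma0 L → IsBoundedAtImInfty (fun τ => (F : ℍ → ℂ) (g • τ)))
    {x : LaurentSeries ℤ} (hx : qexp L F = ModularCurve.coeffMap (Int.castRingHom ℂ) x) :
    ∃ A : Polynomial ℤ, F = Polynomial.aeval (tMod L hL) A ∧
      x = Polynomial.aeval (tSeries L) A := by
  obtain ⟨A, hA⟩ := exists_eval_eq L hL F.2 hb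
  have hF : F = Polynomial.aeval (tMod L hL) A := Subtype.ext (funext fun τ => by
    rw [hA τ, Polynomial.aeval_subalgebra_coe, Polynomial.aeval_pi_apply₂,
      Polynomial.coe_aeval_eq_eval]
    rfl)
  have hq : Polynomial.aeval (tOf L ℂ) A = ModularCurve.coeffMap (Int.castRingHom ℂ) x := by
    rw [← qexp_aeval L hL, ← hF, hx]
  obtain ⟨B, hB⟩ : ∃ B : Polynomial ℤ, B.map (Int.castRingHom ℂ) = A :=
    (Polynomial.mem_lifts A).mp ((Polynomial.lifts_iff_coeff_lifts A).mpr
      (coeff_mem_of_coeff_aeval_mem L (Int.castRingHom ℂ).range A fun n => by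
        rw [hq, ModularCurve.coeffMap_coeff]; exact ⟨_, rfl⟩))
  refine ⟨B, ?_, ?_⟩
  · rw [hF, ← hB, Polynomial.aeval_def, Polynomial.eval₂_map, Polynomial.aeval_def]
    congr 1
  · refine HahnSeries.ext (funext fun n => ?_)
    apply (Int.castRingHom ℂ).injective_int
    rw [← ModularCurve.coeffMap_coeff, ← ModularCurve.coeffMap_coeff, coeffMap_aeval_tSeries L,
      ← hq, ← hB, aeval_intMap]

end FLTA.Carayol.Haupt
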