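import Fermat.Agent.Carayol.Haupt.Modular
import Fermat.Agent.Igusa.ModPolyAlgebra

/-!
# The values of `t` at the finite cusps

Translation by `i/ℓ` normalises `Γ₀(ℓ²)`, so `ω t(τ + i/ℓ) - t(τ)`, `ω = e(i/ℓ)`, is constant.
This gives the expansion at a middle cusp in terms of the one at `0`, and the values there.
-/

set_option autoImplicit false

noncomputable section

open UpperHalfPlane Function CongruenceSubgroup FLTA.Bridge Filter
open scoped MatrixGroups Topology Manifold ModularForm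

namespace FLTA.Carayol.Haupt

variable (L : ℕ) [NeZero L]

/-- `e(i/ℓ)`. -/
def cuspRoot (ℓ : ℕ) (i : ℤ) : ℂ := Complex.exp (2 * Real.pi * Complex.I * (i / ℓ))

theorem cuspRoot_ne_zero (ℓ : ℕ) (i : ℤ) : cuspRoot ℓ i ≠ 0 := Complex.exp_ne_zero _

theorem qFun_shiftBy (ℓ : ℕ) (i : ℤ) (τ : ℍ) : qFun (shiftBy ℓ i τ) = cuspRoot ℓ i * qFun τ := by
  simp only [qFun, cuspRoot, Periodic.qParam, coe_shiftBy, Complex.ofReal_one, div_one,
    ← Complex.exp_add]
  ring_nf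

theorem cuspRoot_eq_neg_one {i : ℤ} (hi : i * i = 1) : cuspRoot 2 i = -1 := by
  have h : i = 1 ∨ i = -1 := mul_self_eq_one_iff.mp hi
  rcases h with rfl | rfl
  · rw [cuspRoot, ← Complex.exp_pi_mul_I]
    congr 1; push_cast; ring
  · have e : Complex.exp (-(Real.pi * Complex.I)) = -1 := by
      rw [Complex.exp_neg, Complex.exp_pi_mul_I]; norm_num
    rw [cuspRoot, ← e]
    congr 1; push_cast; ring

theorem cuspRoot_sq_add {i : ℤ} (hi : i * i = 1) : cuspRoot 3 i ^ 2 + cuspRoot 3 i + 1 = 0 := by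
  have hprim : IsPrimitiveRoot (cuspRoot 3 i) 3 := by
    have h3 := Complex.isPrimitiveRoot_exp 3 (by norm_num)
    rcases mul_self_eq_one_iff.mp hi with rfl | rfl
    · convert h3 using 1; rw [cuspRoot]; push_cast; ring_nf
    · have e : cuspRoot 3 (-1) = (Complex.exp (2 * Real.pi * Complex.I / (3 : ℕ)))⁻¹ := by
        rw [cuspRoot, ← Complex.exp_neg]
        push_cast; ring_nf
      rw [e]
      exact h3.inv
  have := hprim.geom_sum_eq_zero (by norm_num)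
  simp only [Finset.sum_range_succ, Finset.sum_range_zero] at this
  linear_combination this

/-- The function `ω t(τ + i/ℓ) - t(τ)`. -/
def shiftDiff (ℓ : ℕ) (i : ℤ) : ℍ → ℂ := fun τ => cuspRoot ℓ i * tFun L (shiftBy ℓ i τ) - tFun L τ

theorem shiftBy_smul_of_mem (hL : IsHauptLevel L) {ℓ : ℕ} (hℓ : L = ℓ * ℓ) (i : ℤ) {γ : SL(2, ℤ)}
    (hγ : γ ∈ Gamma0 L) :
    ∃ γ' ∈ Gamma0 L, ∀ τ, shiftBy ℓ i (γ • τ) = γ' • shiftBy ℓ i τ := by
  rw [Gamma0_mem, ZMod.intCast_zmod_eq_zero_iff_dvd] at hγ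
  obtain ⟨u, hu⟩ := hγ
  have hdet := γ.det_coe
  rw [Matrix.det_fin_two, hu] at hdet
  have hℓ' : (ℓ : ℤ) = 2 ∨ (ℓ : ℤ) = 3 := by
    rcases hL with rfl | rfl
    · left; have : ℓ = 2 := by nlinarith
      simp [this]
    · right; have : ℓ = 3 := by nlinarith
      simp [this]
  obtain ⟨m, hm⟩ : (ℓ : ℤ) ∣ γ.1 1 1 - γ.1 0 0 := by
    have hL' : (L : ℤ) = ℓ * ℓ := by exact_mod_cast hℓ
    rw [hL'] at hdet
    rcases hℓ' with h | h <;> rw [h] at hdet ⊢
    · have h2 : ((γ.1 0 0 : ℤ) : ZMod 2) * (γ.1 1 1 : ℤ) = 1 := by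
        have := congrArg (Int.cast : ℤ → ZMod 2) hdet
        push_cast at this ⊢
        rw [show (4 : ZMod 2) = 0 from rfl] at this
        linear_combination this
      refine (ZMod.intCast_zmod_eq_zero_iff_dvd _ 2).mp ?_
      push_cast
      generalize ((γ.1 0 0 : ℤ) : ZMod 2) = x at h2 ⊢
      generalize ((γ.1 1 1 : ℤ) : ZMod 2) = y at h2 ⊢
      revert h2; revert x y; decide
    · have h2 : ((γ.1 0 0 : ℤ) : ZMod 3) * (γ.1 1 1 : ℤ) = 1 := by
        have := congrArg (Int.cast : ℤ → ZMod 3) hdet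
        push_cast at this ⊢
        rw [show (9 : ZMod 3) = 0 from rfl] at this
        linear_combination this
      refine (ZMod.intCast_zmod_eq_zero_iff_dvd _ 3).mp ?_
      push_cast
      generalize ((γ.1 0 0 : ℤ) : ZMod 3) = x at h2 ⊢
      generalize ((γ.1 1 1 : ℤ) : ZMod 3) = y at h2 ⊢
      revert h2; revert x y; decide
  have hLℓ : (L : ℤ) = ℓ * ℓ := by exact_mod_cast hℓ
  let γ' : SL(2, ℤ) := ⟨!![γ.1 0 0 + i * ℓ * u, γ.1 0 1 + i * m - i * i * u;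
      L * u, γ.1 1 1 - i * ℓ * u], by
    rw [Matrix.det_fin_two_of]
    rw [hLℓ] at hdet ⊢
    linear_combination hdet + (i * ℓ * u) * hm⟩
  refine ⟨γ', by rw [Gamma0_mem]; simp [γ'], fun τ => ?_⟩
  apply UpperHalfPlane.ext
  have hne : ((γ.1 1 0 : ℂ) * τ + γ.1 1 1) ≠ 0 := by
    have := denom_ne_zero (Matrix.SpecialLinearGroup.mapGL ℝ γ) τ
    simpa [denom] using this
  have hℓ0 : (ℓ : ℂ) ≠ 0 := by
    rcases hℓ' with h | h <;> exact_mod_cast (show (ℓ : ℤ) ≠ 0 by omega)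
  have huC : (γ.1 1 0 : ℂ) = ((ℓ : ℂ) * ℓ) * u := by
    rw [hLℓ] at hu
    exact_mod_cast hu
  have hmC : (γ.1 1 1 : ℂ) - γ.1 0 0 = ℓ * m := by exact_mod_cast hm
  rw [coe_shiftBy, coe_smul_eq, coe_smul_eq, coe_shiftBy]
  simp [γ', hℓ]
  rw [huC] at hne ⊢
  have e : (ℓ : ℂ) * ℓ * u * (τ + i / ℓ) + (γ.1 1 1 - i * ℓ * u) =
      (ℓ : ℂ) * ℓ * u * τ + γ.1 1 1 := by field_simp; ring
  rw [e, div_add' _ _ _ hne]
  congr 1
  field_simp
  linear_combination (i : ℂ) * hmC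

theorem shiftBy_S_smul {ℓ : ℕ} (hℓ : L = ℓ * ℓ) {i : ℤ} (hi : i * i = 1) (z : ℍ) :
    shiftBy ℓ i (ModularGroup.S • z) =
      lowerU (ℓ * i) • divTau L ((((-(ℓ * i) : ℤ)) : ℝ) +ᵥ z) := by
  apply UpperHalfPlane.ext
  rw [coe_shiftBy, modular_S_smul, coe_smul_eq]
  show (-(z : ℂ))⁻¹ + (i : ℂ) / ℓ = _
  have hi' : (i : ℂ) * i = 1 := by exact_mod_cast hi
  have hℓ0 : (ℓ : ℂ) ≠ 0 := by
    have := NeZero.ne L
    rw [hℓ] at this
    exact_mod_cast left_ne_zero_of_mul this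
  have hi0 : (i : ℂ) ≠ 0 := left_ne_zero_of_mul_eq_one hi'
  have hz : (z : ℂ) ≠ 0 := ne_zero z
  simp only [coe_lowerU, Matrix.of_apply, Matrix.cons_val', Matrix.cons_val_zero,
    Matrix.cons_val_one, Matrix.cons_val_fin_one]
  have e : (divTau L ((((-(ℓ * i) : ℤ)) : ℝ) +ᵥ z) : ℂ) = ((z : ℂ) - ℓ * i) / ((ℓ : ℂ) * ℓ) := by
    show _ / (L : ℂ) = _
    rw [coe_vadd, hℓ]
    push_cast
    ring
  rw [e]
  push_cast
  have hd : ((ℓ : ℂ) * i) * (((z : ℂ) - ℓ * i) / ((ℓ : ℂ) * ℓ)) + 1 = i * z / ℓ := by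
    field_simp
    linear_combination (-(ℓ : ℂ)) * hi'
  rw [hd]
  field_simp
  linear_combination z * hi'

theorem shiftBy_mid_smul {ℓ : ℕ} (hℓ : L = ℓ * ℓ) {i : ℤ} (hi : i * i = 1) (τ : ℍ) :
    shiftBy ℓ i (lowerU (ℓ * -i) • τ) = ModularGroup.S • scaleTau L (shiftBy ℓ (-i) τ) := by
  apply UpperHalfPlane.ext
  rw [coe_shiftBy, modular_S_smul, coe_smul_eq]
  show _ = (-((scaleTau L (shiftBy ℓ (-i) τ) : ℍ) : ℂ))⁻¹
  rw [coe_scaleTau, coe_shiftBy, hℓ]
  have hi' : (i : ℂ) * i = 1 := by exact_mod_cast hi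
  have hℓ0 : (ℓ : ℂ) ≠ 0 := by
    have := NeZero.ne L
    rw [hℓ] at this
    exact_mod_cast left_ne_zero_of_mul this
  have hden := denom_ne_zero (Matrix.SpecialLinearGroup.mapGL ℝ (lowerU (ℓ * -i))) τ
  simp [denom] at hden
  simp
  have h2 : (τ : ℂ) + -i / ℓ = -(i / ℓ) * (-((ℓ : ℂ) * i * τ) + 1) := by
    field_simp
    linear_combination (-((ℓ : ℂ) * τ)) * hi'
  rw [h2]
  have hi0 : (i : ℂ) ≠ 0 := left_ne_zero_of_mul_eq_one hi'
  generalize hD : -((ℓ : ℂ) * i * τ) + 1 = D at hden ⊢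
  field_simp
  linear_combination (1 - (ℓ : ℂ) * i * τ) * hi' - (i : ℂ) ^ 2 * hD

theorem shiftBy_vadd (ℓ : ℕ) (i : ℤ) (x : ℝ) (τ : ℍ) :
    shiftBy ℓ i (x +ᵥ τ) = x +ᵥ shiftBy ℓ i τ := by
  simp only [shiftBy, vadd_vadd, add_comm]

theorem isBounded_tFun_shift (hL : IsHauptLevel L) {ℓ : ℕ} (hℓ : L = ℓ * ℓ) {i : ℤ} (hi : i * i = 1)
    {r : SL(2, ℤ)}
    (hr : r = ModularGroup.S ∨ ∃ i' : ℤ, i' * i' = 1 ∧ r = lowerU (ℓ * i')) :
    IsBoundedAtImInfty (fun τ => tFun L (shiftBy ℓ i (r • τ))) := by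
  have hneg : IsBoundedAtImInfty (fun τ => tFun L (shiftBy ℓ i (lowerU (ℓ * -i) • τ))) := by
    have h := ((tendsto_tFun_inv L).comp (tendsto_vadd_atImInfty (((-i : ℤ) : ℝ) / ℓ))).const_mul
      (frickeConst L)
    refine (h.congr fun τ => ?_).isBigO_one ℝ
    rw [shiftBy_mid_smul L hℓ hi, ← tFun_fricke L hL (shiftBy ℓ (-i) τ)]
    exact mul_inv_cancel_right₀ (tFun_ne_zero L _) _
  rcases hr with rfl | ⟨i', hi', rfl⟩
  · have h := (tendsto_tFun_mid L hL hℓ hi).comp ((tendsto_divTau L).comp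
      (tendsto_vadd_atImInfty (((-(ℓ * i) : ℤ)) : ℝ)))
    exact (h.congr fun τ => by rw [shiftBy_S_smul L hℓ hi]; rfl).isBigO_one ℝ
  rcases (show -i = i' ∨ i = i' by
    rcases mul_self_eq_one_iff.mp hi with rfl | rfl <;>
      rcases mul_self_eq_one_iff.mp hi' with rfl | rfl <;> simp) with rfl | rfl
  · exact hneg
  rcases hL with rfl | rfl
  · obtain rfl : ℓ = 2 := by nlinarith
    have hmem : lowerU (4 * i) ∈ Gamma0 4 := by
      rw [Gamma0_mem]; simp [show (4 : ZMod 4) = 0 from rfl]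
    have he : lowerU (2 * i) = lowerU (4 * i) * lowerU (2 * -i) := by
      ext a b; fin_cases a <;> fin_cases b <;>
        simp [Matrix.mul_apply, Fin.sum_univ_two] <;> ring
    obtain ⟨γ', hγ', hs⟩ := shiftBy_smul_of_mem 4 (Or.inl rfl) hℓ i hmem
    simpa only [Nat.cast_ofNat, he, mul_smul, hs, tFun_smul 4 (Or.inl rfl) hγ'] using hneg
  · obtain rfl : ℓ = 3 := by nlinarith
    let h : SL(2, ℤ) := ⟨!![2, i; 3 * i, 2], by rw [Matrix.det_fin_two_of]; linear_combination -3 * hi⟩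
    have hh : h ∉ Gamma0 9 := by
      rw [Gamma0_mem]
      rcases mul_self_eq_one_iff.mp hi with rfl | rfl <;> simp [h] <;> decide
    have hb := (exists_tendsto_tFun_smul 9 (Or.inr rfl) hh).choose_spec.1.comp
      (tendsto_vadd_atImInfty (((-i : ℤ) : ℝ) / 3))
    refine (hb.congr fun τ => congrArg (tFun 9) ?_).isBigO_one ℝ
    apply UpperHalfPlane.ext
    have hi2 : (i : ℂ) * i = 1 := by exact_mod_cast hi
    have hden := denom_ne_zero (Matrix.SpecialLinearGroup.mapGL ℝ (lowerU (3 * i))) τ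
    simp [denom] at hden
    rw [coe_shiftBy, coe_smul_eq, coe_smul_eq, coe_vadd]
    simp [h]
    have e : 3 * (i : ℂ) * (-(i : ℂ) / 3 + τ) + 2 = 3 * i * τ + 1 := by
      linear_combination -hi2
    rw [e, div_add' _ _ _ hden]
    congr 1
    linear_combination (-(τ : ℂ)) * hi2

theorem mdifferentiable_shiftDiff (ℓ : ℕ) (i : ℤ) : shiftDiff L ℓ i ∈ Hol := by
  have h := mdifferentiable_tFun L
  refine sub_mem (Subalgebra.smul_mem Hol ?_ (cuspRoot ℓ i)) h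
  rw [mem_hol_iff_differentiableOn] at h ⊢
  refine (h.comp (f := fun z : ℂ => z + (i : ℂ) / ℓ) (by fun_prop)
    fun z hz => by simpa [Complex.div_natCast_im] using hz).congr fun z hz => ?_
  simp only [comp_apply, ofComplex_apply_of_im_pos hz]
  rw [← coe_shiftBy ℓ i ⟨z, hz⟩, ofComplex_apply]

theorem shiftDiff_smul_of_mem (hL : IsHauptLevel L) {ℓ : ℕ} (hℓ : L = ℓ * ℓ) (i : ℤ)
    {γ : SL(2, ℤ)} (hγ : γ ∈ Gamma0 L) (τ : ℍ) :
    shiftDiff L ℓ i (γ • τ) = shiftDiff L ℓ i τ := by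
  obtain ⟨γ', hγ', hs⟩ := shiftBy_smul_of_mem L hL hℓ i hγ
  simp only [shiftDiff, hs, tFun_smul L hL hγ, tFun_smul L hL hγ']

theorem isBounded_shiftDiff_smul (hL : IsHauptLevel L) {ℓ : ℕ} (hℓ : L = ℓ * ℓ) {i : ℤ}
    (hi : i * i = 1) {g : SL(2, ℤ)} (hg : g ∉ Gamma0 L) :
    IsBoundedAtImInfty (fun τ => shiftDiff L ℓ i (g • τ)) := by
  obtain ⟨p, hpp, hp, hpL⟩ := hL.exists_sq
  obtain rfl : p = ℓ := Nat.mul_self_inj.mp (hpL.symm.trans hℓ)
  have hb : ∀ r : SL(2, ℤ), (r = ModularGroup.S ∨ ∃ i' : ℤ, i' * i' = 1 ∧ r = lowerU (p * i')) →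
      IsBoundedAtImInfty (fun τ => tFun L (r • τ)) →
      IsBoundedAtImInfty (fun τ => shiftDiff L p i (r • τ)) := by
    intro r hr h2
    have h1 := (Filter.const_boundedAtFilter atImInfty (cuspRoot p i)).mul
      (isBounded_tFun_shift L hL hℓ hi hr)
    refine Eq.subst (motive := IsBoundedAtImInfty) (funext fun τ => ?_)
      (Filter.BoundedAtFilter.add h1 h2.neg_left)
    simp [shiftDiff, sub_eq_add_neg]
  rcases exists_rep L hpp hp hℓ g with h | ⟨γ, hγ, j, rfl⟩ | ⟨γ, hγ, i', hi', rfl⟩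
  · exact absurd h hg
  · simp only [mul_smul, shiftDiff_smul_of_mem L hL hℓ i hγ]
    exact (hb _ (Or.inl rfl) ((tendsto_tFun_S L hL).isBigO_one ℝ)).comp_tendsto
      (T_zpow_smul_tendsto j)
  · simp only [mul_smul, shiftDiff_smul_of_mem L hL hℓ i hγ]
    exact hb _ (Or.inr ⟨i', hi', rfl⟩) ((tendsto_tFun_mid L hL hℓ hi').isBigO_one ℝ)

theorem shiftDiff_mem_modHol (hL : IsHauptLevel L) {ℓ : ℕ} (hℓ : L = ℓ * ℓ) {i : ℤ}
    (hi : i * i = 1) : shiftDiff L ℓ i ∈ ModHol L := by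
  refine ⟨mdifferentiable_shiftDiff L ℓ i, fun _ hγ => shiftDiff_smul_of_mem L hL hℓ i hγ,
    fun g => ?_⟩
  by_cases hg : g ∈ Gamma0 L
  · refine ⟨1, ?_⟩
    simp only [shiftDiff_smul_of_mem L hL hℓ i hg, pow_one]
    have h := ((tendsto_qFun_mul_tFun L).comp (tendsto_vadd_atImInfty ((i : ℝ) / ℓ))).sub
      (tendsto_qFun_mul_tFun L)
    refine (h.congr fun τ => ?_).isBigO_one ℝ
    simp only [comp_apply, shiftDiff]
    rw [show ((i : ℝ) / ℓ) +ᵥ τ = shiftBy ℓ i τ from rfl, qFun_shiftBy,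
      show Periodic.qParam 1 (τ : ℂ) = qFun τ from rfl]
    ring
  · exact ⟨0, by simpa using isBounded_shiftDiff_smul L hL hℓ hi hg⟩

theorem shiftDiff_eq (hL : IsHauptLevel L) {ℓ : ℕ} (hℓ : L = ℓ * ℓ) {i : ℤ}
    (hi : i * i = 1) :
    ∀ τ, shiftDiff L ℓ i τ = (etaExp L : ℂ) * (1 - cuspRoot ℓ i) := by
  have hF := shiftDiff_mem_modHol L hL hℓ hi
  let F : HolInfty 1 := ⟨_, mem_holInfty_one_of_mem_modHol L hF⟩
  have hcoef : ∀ m : ℤ, (expansion 1 F).coeff m =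
      (cuspRoot ℓ i * Complex.exp (2 * Real.pi * Complex.I * m * (i / ℓ)) - 1) *
        ((tSeries L).coeff m : ℂ) := by
    intro m
    have ht := mem_holInfty_one_of_mem_modHol L (tFun_mem_modHol L hL)
    have hts : (fun τ => tFun L (shiftBy ℓ i τ)) ∈ HolInfty 1 := by
      have e : (fun τ => tFun L (shiftBy ℓ i τ)) =
          (cuspRoot ℓ i)⁻¹ • (shiftDiff L ℓ i + tFun L) := by
        funext τ
        simp [shiftDiff, cuspRoot_ne_zero]
      rw [e]
      exact Subalgebra.smul_mem _ (add_mem F.2 ht) _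
    have e : F = cuspRoot ℓ i • (⟨_, hts⟩ : HolInfty 1) - ⟨_, ht⟩ := Subtype.ext rfl
    have hq : expansion 1 ⟨_, ht⟩ = ModularCurve.coeffMap (Int.castRingHom ℂ) (tSeries L) :=
      qexp_tMod L hL
    rw [e, Algebra.smul_def, map_sub, map_mul, AlgHom.commutes, HahnSeries.coeff_sub,
      FLTA.Igusa.coeff_algebraMap_mul, hq]
    show _ * (expansionFun 1 (fun τ => tFun L (shiftBy ℓ i τ))).coeff m - _ = _
    have := coeff_expansion_translate 1 ht ((i : ℝ) / ℓ) m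
    simp only [shiftBy]
    rw [this, show expansionFun 1 (tFun L) =
      ModularCurve.coeffMap (Int.castRingHom ℂ) (tSeries L) from hq]
    simp
    ring
  have hneg : ∀ m < 0, (expansion 1 F).coeff m = 0 := by
    intro m hm
    rw [hcoef]
    rcases (show m < -1 ∨ m = -1 by omega) with h | rfl
    · simp [coeff_tSeries_of_lt L h]
    · rw [cuspRoot, ← Complex.exp_add]
      simp
  have ho := order_nonneg_of_forall_coeff hneg
  have hb := (isBoundedAtImInfty_iff_order 1 F).mpr ho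
  obtain ⟨c, hc⟩ := exists_eq_const_of_bounded L hF (fun g => by
    by_cases hg : g ∈ Gamma0 L
    · simpa only [hF.2.1 g hg] using hb
    · exact isBounded_shiftDiff_smul L hL hℓ hi hg)
  intro τ
  have hlim := tendsto_atImInfty_coeff_zero 1 F ho
  have h0 : (expansion 1 F).coeff 0 = c := tendsto_nhds_unique hlim
    (tendsto_const_nhds.congr fun z => (hc z).symm)
  rw [hc, ← h0, hcoef, coeff_tSeries_zero L hL]
  simp
  ring

/-- The value at a middle cusp. -/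
theorem midConst_eq (hL : IsHauptLevel L) {ℓ : ℕ} (hℓ : L = ℓ * ℓ) {i : ℤ} (hi : i * i = 1) :
    midConst L ℓ i = (etaExp L : ℂ) * ((cuspRoot ℓ i)⁻¹ - 1) := by
  have h1 := ((tendsto_tFun_mid L hL hℓ hi).comp ((tendsto_divTau L).comp
      (tendsto_vadd_atImInfty (((-(ℓ * i) : ℤ)) : ℝ)))).const_mul (cuspRoot ℓ i)
  have h2 := (tendsto_tFun_S L hL).add
    (tendsto_const_nhds (x := (etaExp L : ℂ) * (1 - cuspRoot ℓ i)))
  have h := tendsto_nhds_unique h1 (h2.congr fun z => by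
    have := shiftDiff_eq L hL hℓ hi (ModularGroup.S • z)
    rw [shiftDiff, shiftBy_S_smul L hℓ hi] at this
    simp only [comp_apply]
    linear_combination -this)
  rw [zero_add] at h
  have := cuspRoot_ne_zero ℓ i
  field_simp
  linear_combination h

/-- The expansion at a middle cusp through the one at `0`. -/
theorem tFun_mid_eq (hL : IsHauptLevel L) {ℓ : ℕ} (hℓ : L = ℓ * ℓ) {i : ℤ} (hi : i * i = 1)
    (σ : ℍ) :
    tFun L (lowerU (ℓ * i) • σ) =
      midConst L ℓ i + (cuspRoot ℓ i)⁻¹ * frickeConst L * (tFun L (shiftBy ℓ i σ))⁻¹ := by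
  set z : ℍ := (((ℓ * i : ℤ)) : ℝ) +ᵥ scaleTau L σ with hz
  have hσ : divTau L ((((-(ℓ * i) : ℤ)) : ℝ) +ᵥ z) = σ := by
    apply UpperHalfPlane.ext
    show _ / (L : ℂ) = _
    have : (L : ℂ) ≠ 0 := by exact_mod_cast NeZero.ne L
    rw [hz, coe_vadd, coe_vadd, coe_scaleTau]
    push_cast
    field_simp
    ring
  have hd : divTau L z = shiftBy ℓ i σ := by
    apply UpperHalfPlane.ext
    show _ / (L : ℂ) = _
    have : (ℓ : ℂ) ≠ 0 := by
      have := NeZero.ne L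
      rw [hℓ] at this
      exact_mod_cast left_ne_zero_of_mul this
    rw [hz, coe_vadd, coe_scaleTau, coe_shiftBy, hℓ]
    push_cast
    field_simp
    ring
  have h := shiftDiff_eq L hL hℓ hi (ModularGroup.S • z)
  rw [shiftDiff, shiftBy_S_smul L hℓ hi, hσ, tFun_S_smul L hL, hd] at h
  rw [midConst_eq L hL hℓ hi]
  have := cuspRoot_ne_zero ℓ i
  field_simp at h ⊢
  linear_combination h

theorem eval_cuspPoly_midConst (hL : IsHauptLevel L) {ℓ : ℕ} (hℓ : L = ℓ * ℓ) {i : ℤ}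
    (hi : i * i = 1) :
    ((cuspPoly L).map (Int.castRingHom ℂ)).eval (midConst L ℓ i) = 0 ∧ midConst L ℓ i ≠ 0 := by
  have hω := cuspRoot_ne_zero ℓ i
  rw [midConst_eq L hL hℓ hi]
  rcases hL with rfl | rfl
  · obtain rfl : ℓ = 2 := by nlinarith
    norm_num [cuspPoly, etaExp, cuspRoot_eq_neg_one hi]
  · obtain rfl : ℓ = 3 := by nlinarith
    have h := cuspRoot_sq_add hi
    simp only [cuspPoly, etaExp, show ¬ (9 : ℕ) = 4 by norm_num, if_false]
    constructor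
    · simp
      field_simp
      linear_combination (27 * (1 - cuspRoot 3 i)) * h
    · refine mul_ne_zero (by norm_num) (sub_ne_zero.mpr fun h1 => ?_)
      rw [inv_eq_one] at h1
      norm_num [h1] at h

/-- The limit away from `∞` is a root of `cuspPoly`. -/
theorem exists_tendsto_cuspPoly (hL : IsHauptLevel L) {g : SL(2, ℤ)} (hg : g ∉ Gamma0 L) :
    ∃ c, Tendsto (fun τ => tFun L (g • τ)) atImInfty (𝓝 c) ∧
      ((cuspPoly L).map (Int.castRingHom ℂ)).eval c = 0 := by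
  obtain ⟨c, hc, h0 | ⟨ℓ, i, hℓ, hi, rfl⟩⟩ := exists_tendsto_tFun_smul L hL hg
  · refine ⟨c, hc, ?_⟩
    subst h0
    rcases hL with rfl | rfl <;> simp [cuspPoly]
  · exact ⟨_, hc, (eval_cuspPoly_midConst L hL hℓ hi).1⟩

/-! ### The Fricke constant -/

theorem conj_tFun_of_re (τ : ℍ) (hτ : τ.re = 0) : (starRingEnd ℂ) (tFun L τ) = tFun L τ := by
  have hq : ∀ σ : ℍ, σ.re = 0 → (starRingEnd ℂ) (qFun σ) = qFun σ := fun σ hσ => by
    simp only [qFun, Periodic.qParam, ← Complex.exp_conj]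
    congr 1
    apply Complex.ext <;> simp [hσ]
  have he : ∀ σ : ℍ, σ.re = 0 → (starRingEnd ℂ) (eulerFun σ) = eulerFun σ := fun σ hσ => by
    have hm := ModularForm.multipliable_one_sub_pow (Periodic.norm_qParam_lt_one one_pos σ.im_pos)
    have hσ' : (starRingEnd ℂ) (Periodic.qParam 1 (σ : ℂ)) = Periodic.qParam 1 (σ : ℂ) := hq σ hσ
    rw [eulerFun, eulerProd, hm.map_tprod (starRingEnd ℂ) Complex.continuous_conj]
    simp [hσ']
  have hs : (scaleTau L τ).re = 0 := by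
    show (scaleTau L τ : ℂ).re = 0
    simp [coe_scaleTau, hτ]
  simp [tFun, hq τ hτ, he τ hτ, he _ hs]

theorem frickeConst_eq (hL : IsHauptLevel L) :
    frickeConst L = if L = 4 then 256 else 27 := by
  obtain ⟨ℓ, hℓp, -, hℓ⟩ := hL.exists_sq
  have hℓ0 : (0 : ℝ) < ℓ := by exact_mod_cast hℓp.pos
  let τ : ℍ := ⟨Complex.I / ℓ, by rw [Complex.div_natCast_im]; simp [hℓ0]⟩
  have hS : ModularGroup.S • scaleTau L τ = τ := by
    apply UpperHalfPlane.ext
    rw [modular_S_smul]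
    show (-((scaleTau L τ : ℍ) : ℂ))⁻¹ = Complex.I / ℓ
    rw [coe_scaleTau]
    show (-((L : ℂ) * (Complex.I / ℓ)))⁻¹ = _
    have : (ℓ : ℂ) ≠ 0 := by exact_mod_cast hℓp.ne_zero
    rw [hℓ]
    push_cast
    field_simp
    linear_combination -Complex.I_sq
  have hre : τ.re = 0 := by
    show (Complex.I / (ℓ : ℂ)).re = 0
    simp [Complex.div_natCast_re]
  obtain ⟨x, hx⟩ := Complex.conj_eq_iff_real.mp (conj_tFun_of_re L τ hre)
  have hx0 : x ≠ 0 := fun h => tFun_ne_zero L τ (by simp [hx, h])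
  have hC : frickeConst L = ((x * x : ℝ) : ℂ) := by
    have := tFun_fricke L hL τ
    rw [hS, hx] at this
    rw [← this]; push_cast; ring
  have hpow : (x * x) ^ (L - 1) = (L : ℝ) ^ 12 := by
    have := tFun_fricke_pow L hL τ
    rw [tFun_fricke L hL, hC] at this
    exact_mod_cast this
  have hpos : 0 ≤ x * x := mul_self_nonneg x
  rw [hC]
  rcases hL with rfl | rfl
  · rw [if_pos rfl, show x * x = 256 from
      (pow_left_inj₀ hpos (by norm_num) (by norm_num : (3 : ℕ) ≠ 0)).mp (hpow.trans (by norm_num))]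
    norm_num
  · rw [if_neg (by norm_num), show x * x = 27 from
      (pow_left_inj₀ hpos (by norm_num) (by norm_num : (8 : ℕ) ≠ 0)).mp (hpow.trans (by norm_num))]
    norm_num

end FLTA.Carayol.Haupt
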