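import Fermat.Agent.Carayol.Haupt.Poly
import Fermat.Agent.Carayol.Haupt.CuspValues
import Fermat.Agent.Bridge.Cosets
import Fermat.Agent.Bridge.JOrder

/-!
# `t : ℍ → ℂ` off the cusp values is surjective and has no critical point

For `T₀` not a cusp value the norm `∏_c (T₀ - t(c⁻¹ τ))` is a polynomial in `j` of degree one.
-/

set_option autoImplicit false

noncomputable section

open UpperHalfPlane Function CongruenceSubgroup FLTA.Bridge Filter
open scoped MatrixGroups Topology Manifold ModularForm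

namespace FLTA.Carayol.Haupt

theorem trace_sq_lt_of_fixed {g : SL(2, ℤ)} {τ : ℍ} (hfix : g • τ = τ) (h1 : g ≠ 1)
    (h2 : g ≠ -1) : (g : Matrix (Fin 2) (Fin 2) ℤ).trace ^ 2 < 4 := by
  have hdet := g.det_coe
  rw [Matrix.det_fin_two] at hdet
  have hne : ((g.1 1 0 : ℂ) * τ + g.1 1 1) ≠ 0 := by
    have := denom_ne_zero (Matrix.SpecialLinearGroup.mapGL ℝ g) τ
    simpa [denom] using this
  have h := congrArg (fun z : ℍ => (z : ℂ)) hfix
  simp only [coe_smul_eq] at h
  rw [div_eq_iff hne] at h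
  have him := congrArg Complex.im h
  have hre := congrArg Complex.re h
  simp [Complex.mul_im, Complex.mul_re] at him hre
  have hy : 0 < τ.im := τ.im_pos
  by_cases hc : g.1 1 0 = 0
  · exfalso
    rw [hc] at hdet him hre
    simp at him hre
    have had : g.1 0 0 = g.1 1 1 := by
      have : (g.1 0 0 : ℝ) * τ.im = (g.1 1 1 : ℝ) * τ.im := by linarith
      exact_mod_cast mul_right_cancel₀ hy.ne' this
    have hb : g.1 0 1 = 0 := by
      rw [had] at hre
      exact_mod_cast (show (g.1 0 1 : ℝ) = 0 by linarith)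
    rw [had] at hdet
    rcases mul_self_eq_one_iff.mp (show g.1 1 1 * g.1 1 1 = 1 by linarith) with h' | h'
    · refine h1 (Subtype.ext ?_)
      ext i j; fin_cases i <;> fin_cases j <;> simp [had, hb, hc, h']
    · refine h2 (Subtype.ext ?_)
      ext i j; fin_cases i <;> fin_cases j <;> simp [had, hb, hc, h']
  · rw [Matrix.trace_fin_two]
    have hc' : (g.1 1 0 : ℝ) ≠ 0 := by exact_mod_cast hc
    have hx : (g.1 0 0 : ℝ) - g.1 1 1 = 2 * g.1 1 0 * τ.re := by
      refine mul_right_cancel₀ hy.ne' ?_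
      linarith
    have hdetR : (g.1 0 0 : ℝ) * g.1 1 1 - g.1 0 1 * g.1 1 0 = 1 := by exact_mod_cast hdet
    have key : ((g.1 0 0 : ℝ) + g.1 1 1) ^ 2 - 4 = -4 * ((g.1 1 0 : ℝ) * τ.im) ^ 2 := by
      have hd : (g.1 0 1 : ℝ) = g.1 1 0 * (τ.re ^ 2 - τ.im ^ 2) + g.1 1 1 * τ.re
          - g.1 0 0 * τ.re := by linarith
      rw [hd] at hdetR
      linear_combination 4 * hdetR +
        ((g.1 0 0 : ℝ) - g.1 1 1 - 2 * g.1 1 0 * τ.re) * hx
    have : (((g.1 0 0 + g.1 1 1) ^ 2 : ℤ) : ℝ) < ((4 : ℤ) : ℝ) := by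
      push_cast
      nlinarith [mul_self_pos.mpr (mul_ne_zero hc' hy.ne')]
    exact_mod_cast this

variable (L : ℕ) [NeZero L]

/-- The norm `∏_c (T₀ - t (c⁻¹ τ))`. -/
def normFun (T₀ : ℂ) (τ : ℍ) : ℂ :=
  ∏ᶠ c : SL(2, ℤ) ⧸ Gamma0 L, (T₀ - tFun L (c.out⁻¹ • τ))

omit [NeZero L] in
theorem out_inv_not_mem {c : SL(2, ℤ) ⧸ Gamma0 L} (hc : c ≠ QuotientGroup.mk 1) :
    c.out⁻¹ ∉ Gamma0 L := by
  intro h
  refine hc ?_
  conv_lhs => rw [← QuotientGroup.out_eq' c]
  rw [QuotientGroup.eq, mul_one]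
  exact h

theorem exists_poly_normFun (hL : IsHauptLevel L) (T₀ : ℂ) :
    ∃ Q : Polynomial ℂ, ∀ τ, normFun L T₀ τ = Q.eval (jInv τ) := by
  have : Fintype (SL(2, ℤ) ⧸ Gamma0 L) := Fintype.ofFinite _
  obtain ⟨P, -, -, hP⟩ := exists_monic_eval_eq_prod L (tFun_mem_modHol L hL)
  refine ⟨P.eval (Polynomial.C T₀), fun τ => ?_⟩
  have h := congrArg (Polynomial.eval T₀) (hP τ)
  rw [finprod_eq_prod_of_fintype, Polynomial.eval_prod] at h
  simp only [Polynomial.eval_sub, Polynomial.eval_X, Polynomial.eval_C] at h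
  rw [normFun, finprod_eq_prod_of_fintype, ← h, Polynomial.eval_map]
  rw [show Polynomial.eval (jInv τ) (P.eval (Polynomial.C T₀)) =
    Polynomial.evalRingHom (jInv τ) (P.eval (Polynomial.C T₀)) from rfl, Polynomial.eval,
    Polynomial.hom_eval₂]
  simp

/-- Growth at `∞`: exactly one factor has a pole, and it is simple. -/
theorem tendsto_normFun (hL : IsHauptLevel L) {T₀ : ℂ}
    (hT₀ : ((cuspPoly L).map (Int.castRingHom ℂ)).eval T₀ ≠ 0) :
    ∃ w : ℂ, w ≠ 0 ∧ Tendsto (fun τ => qFun τ * normFun L T₀ τ) atImInfty (𝓝 w) := by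
  classical
  have : Fintype (SL(2, ℤ) ⧸ Gamma0 L) := Fintype.ofFinite _
  set c₀ : SL(2, ℤ) ⧸ Gamma0 L := QuotientGroup.mk 1
  have hc : ∀ c : SL(2, ℤ) ⧸ Gamma0 L, c ≠ c₀ → ∃ v : ℂ, T₀ - v ≠ 0 ∧
      Tendsto (fun τ => T₀ - tFun L (c.out⁻¹ • τ)) atImInfty (𝓝 (T₀ - v)) := fun c hc => by
    obtain ⟨v, hv, hroot⟩ := exists_tendsto_cuspPoly L hL (out_inv_not_mem L hc)
    exact ⟨v, sub_ne_zero.mpr fun h => hT₀ (by rwa [h]), tendsto_const_nhds.sub hv⟩
  choose v hv0 hv using hc
  have h0 : ∀ τ, tFun L (c₀.out⁻¹ • τ) = tFun L τ :=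
    conjFun_one L (tFun_mem_modHol L hL)
  have hfirst : Tendsto (fun τ => qFun τ * (T₀ - tFun L (c₀.out⁻¹ • τ))) atImInfty
      (𝓝 (T₀ * 0 - 1)) := by
    refine ((tendsto_qFun.const_mul T₀).sub (tendsto_qFun_mul_tFun L)).congr fun τ => ?_
    rw [h0]; ring
  have hrest := tendsto_finsetProd (f := fun c τ => T₀ - tFun L (c.out⁻¹ • τ))
    (a := fun c => if h : c = c₀ then 0 else T₀ - v c h) (Finset.univ.erase c₀) fun c hc => by
      rw [dif_neg (Finset.ne_of_mem_erase hc)]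
      exact hv c _
  refine ⟨_, ?_, (hfirst.mul hrest).congr fun τ => ?_⟩
  · refine mul_ne_zero (by simp) (Finset.prod_ne_zero_iff.mpr fun c hc => ?_)
    rw [dif_neg (Finset.ne_of_mem_erase hc)]
    exact hv0 c _
  · rw [normFun, finprod_eq_prod_of_fintype, mul_assoc,
      Finset.mul_prod_erase _ (fun c => T₀ - tFun L (c.out⁻¹ • τ)) (Finset.mem_univ c₀)]

theorem exists_linear_normFun (hL : IsHauptLevel L) {T₀ : ℂ}
    (hT₀ : ((cuspPoly L).map (Int.castRingHom ℂ)).eval T₀ ≠ 0) :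
    ∃ a b : ℂ, a ≠ 0 ∧ ∀ τ, normFun L T₀ τ = a * jInv τ + b := by
  obtain ⟨Q, hQ⟩ := exists_poly_normFun L hL T₀
  obtain ⟨w, hw, hlim⟩ := tendsto_normFun L hL hT₀
  have hj : Tendsto (fun τ => qFun τ * jInv τ) atImInfty (𝓝 1) := tendsto_qMulJ_atImInfty
  have hQ0 : Q ≠ 0 := by
    rintro rfl
    simp only [hQ, Polynomial.eval_zero, mul_zero] at hlim
    exact hw (tendsto_nhds_unique hlim tendsto_const_nhds)
  have hd : Q.natDegree = 1 := by
    -- `qⁿ Q(j)` tends to the leading coefficient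
    have hn : Tendsto (fun τ => qFun τ ^ Q.natDegree * Q.eval (jInv τ)) atImInfty
        (𝓝 Q.leadingCoeff) := by
      have h := tendsto_finsetSum (f := fun k τ =>
        Q.coeff k * (qFun τ * jInv τ) ^ k * qFun τ ^ (Q.natDegree - k))
        (a := fun k => Q.coeff k * 1 ^ k * (0 : ℂ) ^ (Q.natDegree - k))
        (Finset.range (Q.natDegree + 1))
        fun k _ => (((hj.pow k).const_mul _).mul (tendsto_qFun.pow _))
      have e : (∑ k ∈ Finset.range (Q.natDegree + 1),
          Q.coeff k * 1 ^ k * (0 : ℂ) ^ (Q.natDegree - k)) = Q.leadingCoeff := by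
        rw [Finset.sum_range_succ, Finset.sum_eq_zero fun k hk => by
          have := Finset.mem_range.mp hk
          rw [zero_pow (by omega), mul_zero]]
        simp
      rw [e] at h
      refine h.congr fun τ => ?_
      rw [Polynomial.eval_eq_sum_range, Finset.mul_sum]
      refine Finset.sum_congr rfl fun k hk => ?_
      have := Finset.mem_range.mp hk
      calc _ = Q.coeff k * jInv τ ^ k * (qFun τ ^ k * qFun τ ^ (Q.natDegree - k)) := by ring
        _ = _ := by rw [← pow_add, show k + (Q.natDegree - k) = Q.natDegree by omega]; ring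
    have hlc : Q.leadingCoeff ≠ 0 := Polynomial.leadingCoeff_ne_zero.mpr hQ0
    rcases Nat.lt_trichotomy Q.natDegree 1 with h | h | h
    · rw [show Q.natDegree = 0 by omega] at hn
      simp only [pow_zero, one_mul, ← hQ] at hn
      have h2 := tendsto_qFun.mul hn
      rw [zero_mul] at h2
      exact absurd (tendsto_nhds_unique hlim h2) hw
    · exact h
    · obtain ⟨m, hm⟩ : ∃ m, Q.natDegree = m + 2 := ⟨Q.natDegree - 2, by omega⟩
      have h2 := (tendsto_qFun.pow (m + 1)).mul hlim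
      rw [zero_pow (by omega), zero_mul] at h2
      refine absurd (tendsto_nhds_unique hn (h2.congr fun τ => ?_)) hlc
      rw [hQ, hm]; ring
  refine ⟨Q.coeff 1, Q.coeff 0, ?_, fun τ => ?_⟩
  · rw [← hd]; exact Polynomial.leadingCoeff_ne_zero.mpr hQ0
  · rw [hQ]
    conv_lhs => rw [Polynomial.eq_X_add_C_of_natDegree_le_one hd.le]
    simp

/-- `t` takes every value which is not a cusp value. -/
theorem exists_tFun_eq (hL : IsHauptLevel L) {T₀ : ℂ}
    (hT₀ : ((cuspPoly L).map (Int.castRingHom ℂ)).eval T₀ ≠ 0) : ∃ τ, tFun L τ = T₀ := by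
  have : Fintype (SL(2, ℤ) ⧸ Gamma0 L) := Fintype.ofFinite _
  obtain ⟨a, b, ha, hab⟩ := exists_linear_normFun L hL hT₀
  obtain ⟨τ, hτ⟩ := jInv_surjective (-b / a)
  have h := hab τ
  rw [hτ, mul_div_cancel₀ _ ha, neg_add_cancel, normFun, finprod_eq_prod_of_fintype,
    Finset.prod_eq_zero_iff] at h
  obtain ⟨c, -, hc⟩ := h
  exact ⟨_, (sub_eq_zero.mp hc).symm⟩

theorem card_orbit_stabilizer (hL : IsHauptLevel L) (τ : ℍ) :
    2 * Nat.card (MulAction.orbit (MulAction.stabilizer SL(2, ℤ) τ)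
        (QuotientGroup.mk 1 : SL(2, ℤ) ⧸ Gamma0 L)) =
      Nat.card (MulAction.stabilizer SL(2, ℤ) τ) := by
  set S := MulAction.stabilizer SL(2, ℤ) τ
  have : Finite S := finite_stabilizer τ
  set c₀ : SL(2, ℤ) ⧸ Gamma0 L := QuotientGroup.mk 1
  have hneg : (-1 : SL(2, ℤ)) ∈ S := by
    show (-1 : SL(2, ℤ)) • τ = τ
    rw [ModularGroup.SL_neg_smul, one_smul]
  have hstab : Nat.card (MulAction.stabilizer S c₀) = 2 := by
    have key : ∀ x : S, x • c₀ = c₀ ↔ (x : SL(2, ℤ)) ∈ Gamma0 L := fun x => by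
      show QuotientGroup.mk ((x : SL(2, ℤ)) * 1) = c₀ ↔ _
      rw [QuotientGroup.eq]
      simp
    have h : (MulAction.stabilizer S c₀ : Set S) = {1, ⟨-1, hneg⟩} := by
      ext ⟨g, hg⟩
      simp only [SetLike.mem_coe, MulAction.mem_stabilizer_iff, Set.mem_insert_iff,
        Set.mem_singleton_iff, Subtype.ext_iff, Subgroup.coe_one, key]
      constructor
      · intro hmem
        by_contra hcon
        push Not at hcon
        exact sq_sub_not_mem L hL hmem (trace_sq_lt_of_fixed hg hcon.1 hcon.2)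
      · rintro (rfl | rfl)
        · exact one_mem _
        · rw [Gamma0_mem]; simp
    rw [show Nat.card (MulAction.stabilizer S c₀) =
      Nat.card ((MulAction.stabilizer S c₀ : Set S)) from rfl, h, Nat.card_coe_set_eq,
      Set.ncard_pair]
    intro h'
    have := congrArg (fun g : S => (g.1 : Matrix (Fin 2) (Fin 2) ℤ) 0 0) h'
    simp at this
  rw [Subgroup.card_eq_card_quotient_mul_card_subgroup (MulAction.stabilizer S c₀),
    ← Nat.card_congr (MulAction.orbitEquivQuotientStabilizer S c₀), hstab, mul_comm]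

/-- Off the cusp values `t` has no critical point. -/
theorem deriv_tFun_ne_zero (hL : IsHauptLevel L) (τ : ℍ)
    (hτ : ((cuspPoly L).map (Int.castRingHom ℂ)).eval (tFun L τ) ≠ 0) :
    deriv (tFun L ∘ ofComplex) (τ : ℂ) ≠ 0 := by
  classical
  intro hD
  have : Fintype (SL(2, ℤ) ⧸ Gamma0 L) := Fintype.ofFinite _
  set T₀ := tFun L τ with hT₀
  set S := MulAction.stabilizer SL(2, ℤ) τ
  set c₀ : SL(2, ℤ) ⧸ Gamma0 L := QuotientGroup.mk 1 with hc₀
  let f : (SL(2, ℤ) ⧸ Gamma0 L) → ℂ → ℂ :=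
    fun c z => T₀ - tFun L (c.out⁻¹ • ofComplex z)
  have hmem : ∀ c : SL(2, ℤ) ⧸ Gamma0 L, (fun z : ℍ => T₀ - tFun L (c.out⁻¹ • z)) ∈ Hol := fun c =>
    sub_mem (Subalgebra.algebraMap_mem Hol T₀) (smul_mem_hol (mdifferentiable_tFun L) _)
  have han : ∀ c, AnalyticAt ℂ (f c) (τ : ℂ) := fun c => analyticAt_of_mem_hol (hmem c) τ
  -- the factors indexed by the orbit of `mk 1` vanish at `τ`
  let Z : Finset (SL(2, ℤ) ⧸ Gamma0 L) := (MulAction.orbit S c₀).toFinset
  have hzero : ∀ c ∈ Z, f c (τ : ℂ) = 0 := by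
    intro c hc
    obtain ⟨⟨g, hg⟩, rfl⟩ := Set.mem_toFinset.mp hc
    simp only [f, ofComplex_apply]
    show T₀ - tFun L ((g • c₀).out⁻¹ • τ) = 0
    obtain ⟨γ, hγ⟩ := QuotientGroup.mk_out_eq_mul (Gamma0 L) g
    rw [show g • c₀ = QuotientGroup.mk g by simp [hc₀], hγ, mul_inv_rev, mul_smul,
      tFun_smul L hL (inv_mem γ.2), show g⁻¹ • τ = τ from (inv_smul_eq_iff).mpr hg.symm, hT₀,
      sub_self]
  have hfirst : f c₀ = fun z => T₀ - (tFun L ∘ ofComplex) z :=
    funext fun z => congrArg (T₀ - ·) (conjFun_one L (tFun_mem_modHol L hL) _)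
  have htwo : (2 : ℕ∞) ≤ analyticOrderAt (f c₀) (τ : ℂ) := by
    refine (natCast_le_analyticOrderAt_iff_iteratedDeriv_eq_zero (han c₀)).mpr fun i hi => ?_
    interval_cases i
    · simp [hfirst, ofComplex_apply, hT₀]
    · rw [iteratedDeriv_one, hfirst, deriv_const_sub, hD, neg_zero]
  have hc₀Z : c₀ ∈ Z := Set.mem_toFinset.mpr (MulAction.mem_orbit_self c₀)
  have hlow : ∀ s : Finset (SL(2, ℤ) ⧸ Gamma0 L),
      AnalyticAt ℂ (∏ c ∈ s, f c) (τ : ℂ) ∧
      ((s ∩ Z).card : ℕ∞) + (if c₀ ∈ s then 1 else 0) ≤ analyticOrderAt (∏ c ∈ s, f c) (τ : ℂ) := by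
    intro s
    induction s using Finset.induction_on with
    | empty => exact ⟨by simpa using! analyticAt_const, by simp⟩
    | insert a s has ih =>
      rw [Finset.prod_insert has]
      refine ⟨(han a).mul ih.1, ?_⟩
      rw [analyticOrderAt_mul (han a) ih.1]
      by_cases hZ : a ∈ Z
      · rw [Finset.insert_inter_of_mem hZ,
          Finset.card_insert_of_notMem fun h => has (Finset.mem_inter.mp h).1]
        by_cases ha0 : a = c₀
        · subst ha0
          rw [if_pos (Finset.mem_insert_self _ _)]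
          rw [if_neg has, add_zero] at ih
          refine le_trans ?_ (add_le_add htwo ih.2)
          push_cast
          rw [add_assoc, add_comm]
          norm_num
        · have h1 : (1 : ℕ∞) ≤ analyticOrderAt (f a) (τ : ℂ) :=
            Order.one_le_iff_ne_zero.mpr ((han a).analyticOrderAt_ne_zero.mpr (hzero a hZ))
          refine le_trans ?_ (add_le_add h1 ih.2)
          simp only [Finset.mem_insert, Ne.symm ha0, false_or]
          push_cast
          rw [add_comm (1 : ℕ∞), add_assoc, add_comm (1 : ℕ∞), ← add_assoc]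
      · rw [Finset.insert_inter_of_notMem hZ]
        have ha0 : c₀ ≠ a := fun h => hZ (h ▸ hc₀Z)
        simp only [Finset.mem_insert, ha0, false_or]
        exact le_add_left ih.2
  obtain ⟨a, b, ha, hab⟩ := exists_linear_normFun L hL hτ
  have heq : (∏ c, f c) =ᶠ[𝓝 (τ : ℂ)] fun z => a * (jFun z - jInv τ) := by
    have h0 : normFun L T₀ τ = 0 := by
      rw [normFun, finprod_eq_prod_of_fintype, Finset.prod_eq_zero_iff]
      exact ⟨c₀, Finset.mem_univ _, by simpa [f] using hzero c₀ hc₀Z⟩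
    rw [hab] at h0
    filter_upwards [isOpen_upperHalfPlaneSet.mem_nhds τ.im_pos] with z hz
    rw [Finset.prod_apply]
    have h1 := hab (ofComplex z)
    rw [normFun, finprod_eq_prod_of_fintype] at h1
    rw [show ∏ c, f c z = _ from h1]
    simp only [jFun, comp_apply]
    linear_combination h0
  have hup : analyticOrderAt (∏ c, f c) (τ : ℂ) =
      ((Nat.card S / 2 : ℕ) : ℕ∞) := by
    rw [analyticOrderAt_congr heq, show (fun z => a * (jFun z - jInv τ)) =
      (fun _ : ℂ => a) * fun z => jFun z - jInv τ from rfl,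
      analyticOrderAt_mul analyticAt_const (show AnalyticAt ℂ (fun z => jFun z - jInv τ) (τ : ℂ) from
        (analyticOnNhd_jFun _ τ.im_pos).sub analyticAt_const),
      analyticOrderAt_eq_zero.mpr (Or.inr ha), zero_add, analyticOrderAt_jFun_sub]
  have h := (hlow Finset.univ).2
  rw [Finset.univ_inter, if_pos (Finset.mem_univ _), hup, Set.toFinset_card,
    ← Nat.card_eq_fintype_card] at h
  have hcard : 2 * Nat.card (MulAction.orbit S c₀) = Nat.card S := card_orbit_stabilizer L hL τ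
  norm_cast at h
  omega

end FLTA.Carayol.Haupt
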