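import Fermat.Agent.Carayol.Haupt.Poly
import Fermat.Agent.Carayol.Haupt.Covering
import Fermat.Agent.Igusa.Ramanujan
import Fermat.Agent.Igusa.Theta

/-!
# The derivative `Dt = (2πi)⁻¹ dt/dτ` and substitutions in periodic functions
-/

set_option autoImplicit false

noncomputable section

open UpperHalfPlane Function FLTA.Bridge Filter Derivative
open scoped MatrixGroups Topology Manifold ModularForm

namespace FLTA.Carayol.Haupt

/-! ### Substitutions in `HolInfty 1` -/

theorem qFun_mem_holInfty : qFun ∈ HolInfty 1 := by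
  have := qParam_pow_mem_holInfty 1 1
  simp only [pow_one] at this
  exact this

theorem periodic_of_vadd {G : ℍ → ℂ} (h : ∀ τ : ℍ, G ((1 : ℝ) +ᵥ τ) = G τ) :
    Periodic (G ∘ ofComplex) ((1 : ℕ) : ℂ) := by
  rw [Nat.cast_one]
  intro z
  by_cases hz : 0 < z.im
  · have hz' : 0 < (z + 1).im := by simpa using hz
    simp only [comp_apply, ofComplex_apply_of_im_pos hz, ofComplex_apply_of_im_pos hz']
    refine (congrArg G (UpperHalfPlane.ext ?_)).trans (h ⟨z, hz⟩)
    simp [add_comm]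
  · have hz' : (z + 1).im ≤ 0 := by simpa using not_lt.mp hz
    simp only [comp_apply, ofComplex_apply_of_im_nonpos hz',
      ofComplex_apply_of_im_nonpos (not_lt.mp hz)]

theorem apply_vadd_one {F : ℍ → ℂ} (hF : F ∈ HolInfty 1) (τ : ℍ) : F ((1 : ℝ) +ᵥ τ) = F τ := by
  have h := hF.2.1 (τ : ℂ)
  have hz : 0 < ((τ : ℂ) + ((1 : ℕ) : ℂ)).im := by simpa using τ.im_pos
  simp only [comp_apply, ofComplex_apply_of_im_pos hz, ofComplex_apply] at h
  rw [← h]
  congr 1
  apply UpperHalfPlane.ext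
  simp [add_comm]

theorem apply_vadd_nat {F : ℍ → ℂ} (hF : F ∈ HolInfty 1) (n : ℕ) (τ : ℍ) :
    F ((n : ℝ) +ᵥ τ) = F τ := by
  induction n with
  | zero => simp
  | succ n ih =>
    rw [show (((n + 1 : ℕ) : ℝ)) = 1 + (n : ℝ) by push_cast; ring, ← vadd_vadd,
      apply_vadd_one hF, ih]

theorem comp_scaleTau_mem_holInfty (ℓ : ℕ) [NeZero ℓ] {F : ℍ → ℂ} (hF : F ∈ HolInfty 1) :
    (fun τ => F (scaleTau ℓ τ)) ∈ HolInfty 1 := by
  refine ⟨?_, periodic_of_vadd fun τ => ?_, ?_⟩
  · rw [mem_hol_iff_differentiableOn]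
    refine ((mem_hol_iff_differentiableOn.mp hF.1).comp
      (f := fun z : ℂ => (ℓ : ℂ) * z) (by fun_prop) fun z hz => ?_).congr fun z hz => ?_
    · simpa using mul_pos (Nat.cast_pos.mpr (Nat.pos_of_ne_zero (NeZero.ne ℓ))) hz
    · simp only [comp_apply, ofComplex_apply_of_im_pos hz]
      rw [show (ℓ : ℂ) * z = ((scaleTau ℓ ⟨z, hz⟩ : ℍ) : ℂ) from rfl, ofComplex_apply]
  · refine (congrArg F ?_).trans (apply_vadd_nat hF ℓ (scaleTau ℓ τ))
    apply UpperHalfPlane.ext
    simp [coe_scaleTau, mul_add]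
  · obtain ⟨n, hn⟩ := hF.2.2
    refine ⟨ℓ * n, ?_⟩
    have h2 : IsBoundedAtImInfty
        ((fun τ : ℍ => Periodic.qParam 1 (τ : ℂ) ^ n * F τ) ∘ scaleTau ℓ) :=
      hn.comp_tendsto (tendsto_scaleTau ℓ)
    refine Eq.subst (motive := IsBoundedAtImInfty) (funext fun τ => ?_) h2
    simp only [comp_apply, pow_mul, qParam_scaleTau]

theorem comp_vadd_mem_holInfty (x : ℝ) {F : ℍ → ℂ} (hF : F ∈ HolInfty 1) :
    (fun τ : ℍ => F (x +ᵥ τ)) ∈ HolInfty 1 := by
  refine ⟨?_, periodic_of_vadd fun τ => ?_, ?_⟩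
  · rw [mem_hol_iff_differentiableOn]
    refine ((mem_hol_iff_differentiableOn.mp hF.1).comp
      (f := fun z : ℂ => (x : ℂ) + z) (by fun_prop) fun z hz => by simpa using hz).congr
      fun z hz => ?_
    simp only [comp_apply, ofComplex_apply_of_im_pos hz]
    rw [← coe_vadd x ⟨z, hz⟩, ofComplex_apply]
  · rw [vadd_vadd, add_comm, ← vadd_vadd, apply_vadd_one hF]
  · obtain ⟨n, hn⟩ := hF.2.2
    refine ⟨n, ?_⟩
    rw [isBoundedAtImInfty_iff] at hn ⊢
    obtain ⟨M, A, hMA⟩ := hn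
    refine ⟨M, A, fun σ hσ => ?_⟩
    have := hMA (x +ᵥ σ) (by simpa using hσ)
    simpa [Periodic.norm_qParam] using this

/-- `exp (2 π i x)`. -/
def expUnit (x : ℝ) : ℂˣ := Units.mk0 (Complex.exp (2 * Real.pi * Complex.I * x)) (Complex.exp_ne_zero _)

theorem expansionFun_comp_vadd (x : ℝ) {F : ℍ → ℂ} (hF : F ∈ HolInfty 1) :
    expansionFun 1 (fun τ : ℍ => F (x +ᵥ τ)) =
      FLTA.Igusa.twist (expUnit x) (expansionFun 1 F) := by
  ext m
  rw [coeff_expansion_translate 1 hF x m, FLTA.Igusa.twist_coeff, Units.val_zpow_eq_zpow_val,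
    expUnit, Units.val_mk0, ← Complex.exp_int_mul]
  congr 2
  push_cast
  ring

variable (L : ℕ) [NeZero L]

theorem tFun_mem_holInfty (hL : IsHauptLevel L) : tFun L ∈ HolInfty 1 :=
  mem_holInfty_one_of_mem_modHol L (tFun_mem_modHol L hL)

theorem expansionFun_tFun (hL : IsHauptLevel L) : expansionFun 1 (tFun L) = tOf L ℂ :=
  qexp_tMod L hL

/-- `(2πi)⁻¹ dt/dτ`. -/
def dtFun : ℍ → ℂ := normalizedDerivOfComplex (tFun L)

theorem dtFun_ne_zero (hL : IsHauptLevel L) (τ : ℍ)
    (hτ : ((cuspPoly L).map (Int.castRingHom ℂ)).eval (tFun L τ) ≠ 0) : dtFun L τ ≠ 0 := by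
  rw [dtFun, normalizedDerivOfComplex]
  exact mul_ne_zero (inv_ne_zero (by simp [Real.pi_ne_zero])) (deriv_tFun_ne_zero L hL τ hτ)

theorem single_mul_thetaPS_sub :
    FLTA.Igusa.theta (tOf L ℂ) = HahnSeries.single (-1 : ℤ) 1 * HahnSeries.ofPowerSeries ℤ ℂ
      (FLTA.Igusa.thetaPS ((tUnit L).map (Int.castRingHom ℂ)) -
        (tUnit L).map (Int.castRingHom ℂ)) := by
  ext n
  have h1 := tOf_pow L (R := ℂ) 1
  rw [pow_one, pow_one] at h1
  rw [FLTA.Igusa.theta_coeff, h1, HahnSeries.coeff_single_mul, HahnSeries.coeff_single_mul,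
    one_mul, one_mul]
  push_cast
  rw [sub_neg_eq_add, HahnSeries.coeff_sub]
  rcases lt_or_ge (n + 1) 0 with hn | hn
  · rw [ModularCurve.ofPowerSeries_coeff_of_neg _ hn, ModularCurve.ofPowerSeries_coeff_of_neg _ hn,
      mul_zero, sub_zero]
  · obtain ⟨m, hm⟩ := Int.eq_ofNat_of_zero_le hn
    simp only [hm, HahnSeries.ofPowerSeries_apply_coeff]
    rw [ show n = (m : ℤ) - 1 by omega, FLTA.Igusa.thetaPS,
      PowerSeries.coeff_mk]
    push_cast
    ring

theorem dtFun_mem_holInfty_and_expansion (hL : IsHauptLevel L) :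
    dtFun L ∈ HolInfty 1 ∧ expansionFun 1 (dtFun L) = FLTA.Igusa.theta (tOf L ℂ) := by
  have ht := tFun_mem_holInfty L hL
  set G : ℍ → ℂ := qFun * tFun L with hG
  have hGm : G ∈ HolInfty 1 := mul_mem qFun_mem_holInfty ht
  have hGb : IsBoundedAtImInfty G := (tendsto_qFun_mul_tFun L).isBigO_one ℝ
  set U := (tUnit L).map (Int.castRingHom ℂ) with hU
  have hGq : qExpansion 1 G = U := by
    have h := expansionFun_mul 1 qFun_mem_holInfty ht
    have h1 := tOf_pow L (R := ℂ) 1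
    rw [pow_one, pow_one] at h1
    rw [← hG, expansionFun_of_bounded 1 hGm hGb, expansionFun_qFun, expansionFun_tFun L hL, h1,
      ← mul_assoc, HahnSeries.single_mul_single] at h
    simp at h
    exact HahnSeries.ofPowerSeries_injective h
  set Gc := cuspFunction 1 G with hGc
  have hper : Periodic (G ∘ ofComplex) ((1 : ℝ) : ℂ) := by simpa using hGm.2.1
  have hGd : DifferentiableOn ℂ Gc (Metric.ball 0 1) :=
    differentiableOn_cuspFunction_ball one_pos hper hGm.1 hGb
  have hGa : AnalyticAt ℂ Gc 0 := analyticAt_cuspFunction_zero one_pos hper hGm.1 hGb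
  have heq : ∀ τ : ℍ, G τ = Gc (Periodic.qParam 1 (τ : ℂ)) := fun τ =>
    (eq_cuspFunction τ one_ne_zero hper).symm
  have hD := FLTA.Igusa.normalizedDeriv_comp_qParam hGd heq
  have hDm : normalizedDerivOfComplex G ∈ HolInfty 1 := by
    refine ⟨Derivative.normalizedDerivOfComplex_mdifferentiable hGm.1,
      periodic_of_vadd fun τ => ?_, 0, ?_⟩
    · rw [hD, hD, show Periodic.qParam 1 (((1 : ℝ) +ᵥ τ : ℍ) : ℂ) = Periodic.qParam 1 (τ : ℂ) from
        by simpa [qFun] using qFun_vadd_int 1 τ]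
    · simp only [pow_zero, one_mul]
      have := ((analyticAt_id.mul hGa.deriv).continuousAt.tendsto.comp tendsto_qFun).isBigO_one ℝ
      exact this.congr (fun τ => (hD τ).symm) fun _ => rfl
  have hDb : IsBoundedAtImInfty (normalizedDerivOfComplex G) := by
    have := ((analyticAt_id.mul hGa.deriv).continuousAt.tendsto.comp tendsto_qFun).isBigO_one ℝ
    exact this.congr (fun τ => (hD τ).symm) fun _ => rfl
  have hDq : qExpansion 1 (normalizedDerivOfComplex G) = FLTA.Igusa.thetaPS U :=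
    FLTA.Igusa.qExpansion_of_eq_id_mul_deriv hGa hD _ fun m => by
      rw [← hGq, qExpansion_coeff]
  have hprod : ∀ τ, qFun τ * dtFun L τ = normalizedDerivOfComplex G τ - G τ := by
    intro τ
    have h := congrFun (Derivative.normalizedDerivOfComplex_mul qFun (tFun L) qFun_mem_holInfty.1
      ht.1) τ
    have hq := FLTA.Igusa.normalizedDeriv_qParam τ
    rw [hG, h]
    simp only [Pi.add_apply, Pi.mul_apply, dtFun] at hq ⊢
    rw [show qFun = fun σ : ℍ => Periodic.qParam 1 (σ : ℂ) from rfl, hq]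
    ring
  have hmem : dtFun L ∈ HolInfty 1 := by
    refine ⟨Derivative.normalizedDerivOfComplex_mdifferentiable ht.1,
      periodic_of_vadd fun τ => ?_, 1, ?_⟩
    · refine mul_left_cancel₀ (qFun_ne_zero τ) ?_
      have e := hprod ((1 : ℝ) +ᵥ τ)
      rw [show qFun ((1 : ℝ) +ᵥ τ) = qFun τ by simpa using qFun_vadd_int 1 τ,
        apply_vadd_one hDm, apply_vadd_one hGm] at e
      rw [e, hprod]
    · refine Eq.subst (motive := IsBoundedAtImInfty) (funext fun τ => ?_)
        (Filter.BoundedAtFilter.add hDb hGb.neg_left)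
      simp only [pow_one]
      rw [show Periodic.qParam 1 (τ : ℂ) = qFun τ from rfl, hprod]
      simp [sub_eq_add_neg]
  refine ⟨hmem, ?_⟩
  have h := expansionFun_mul 1 qFun_mem_holInfty hmem
  rw [show qFun * dtFun L = normalizedDerivOfComplex G + -G from funext fun τ => by
      simpa [sub_eq_add_neg] using hprod τ,
    expansionFun_add 1 hDm (neg_mem hGm), expansionFun_of_bounded 1 hDm hDb,
    expansionFun_of_bounded 1 (neg_mem hGm) hGb.neg_left, expansionFun_qFun] at h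
  simp only [Nat.cast_one] at h
  rw [hDq, qExpansion_neg (analyticAt_cuspFunction_zero one_pos hper hGm.1 hGb), hGq, ← map_add,
    ← sub_eq_add_neg] at h
  rw [single_mul_thetaPS_sub L, ← hU, h, ← mul_assoc, HahnSeries.single_mul_single]
  simp

end FLTA.Carayol.Haupt
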