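import Fermat.Agent.Carayol.Haupt.Poly
import Fermat.Agent.Igusa.PowerSums

/-!
# The Hecke transform of a power of `t`

`∑_j F((τ + j)/q) + F(qτ)` for `F = tᵐ` lies in `ModHol L` and is bounded away from `∞`, so it is
a polynomial in `t`; its expansion is `uOp q (tᵐ) + (tᵐ)(e^q)`.
-/

set_option autoImplicit false

noncomputable section

open UpperHalfPlane Function CongruenceSubgroup FLTA.Bridge Filter
open scoped MatrixGroups Topology Manifold ModularForm

namespace FLTA.Carayol.Haupt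

theorem tendsto_affine {α δ : ℝ} (hα : 0 < α) (hδ : 0 < δ) {f : ℍ → ℍ}
    (hf : ∀ τ, (f τ).im = α * τ.im / δ) : Tendsto f atImInfty atImInfty := by
  simp only [atImInfty, tendsto_comap_iff]
  refine Tendsto.congr (fun τ => (hf τ).symm) ?_
  exact (tendsto_comap.const_mul_atTop hα).atTop_div_const hδ

/-- `(A B; 0 D) g = h U` with `U` upper triangular, with control of the lower left entry of `h`. -/
theorem exists_upper_decomp (A D : ℕ) (B : ℤ) (hA : 0 < A) (hD : 0 < D) (g : SL(2, ℤ)) :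
    ∃ (h : SL(2, ℤ)) (α : ℕ) (δ : ℕ) (β : ℤ), 0 < α ∧ 0 < δ ∧
      h.1 1 0 * (α : ℤ) = (D : ℤ) * g.1 1 0 ∧
      ∀ τ σ z : ℍ, (σ : ℂ) = ((α : ℂ) * τ + β) / δ →
        (z : ℂ) = ((A : ℂ) * (g • τ : ℍ) + B) / D → z = h • σ := by
  set a := g.1 0 0
  set b := g.1 0 1
  set c := g.1 1 0
  set e := g.1 1 1
  have hdet : a * e - b * c = 1 := by
    have := g.2
    rw [Matrix.det_fin_two] at this
    linarith [this]
  set P := (A : ℤ) * a + B * c
  set R := (A : ℤ) * b + B * e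
  have hPR : P * ((D : ℤ) * e) - R * ((D : ℤ) * c) = (A : ℤ) * D := by
    simp only [P, R]; linear_combination (A : ℤ) * D * hdet
  set α := Int.gcd P ((D : ℤ) * c)
  have hα : 0 < α := by
    rcases Nat.eq_zero_or_pos α with h0 | h0
    · obtain ⟨h1, h2⟩ := Int.gcd_eq_zero_iff.mp h0
      rw [h1, h2] at hPR
      simp at hPR
      rcases hPR with h3 | h3 <;> omega
    · exact h0
  obtain ⟨u, hu⟩ : (α : ℤ) ∣ P := Int.gcd_dvd_left _ _
  obtain ⟨v, hv⟩ : (α : ℤ) ∣ (D : ℤ) * c := Int.gcd_dvd_right _ _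
  have hbez := Int.gcd_eq_gcd_ab P ((D : ℤ) * c)
  set x := Int.gcdA P ((D : ℤ) * c)
  set y := Int.gcdB P ((D : ℤ) * c)
  have hxy : u * x + v * y = 1 := by
    have h1 : (α : ℤ) = (α : ℤ) * (u * x + v * y) := by
      rw [mul_add, ← mul_assoc, ← mul_assoc, ← hu, ← hv]
      exact hbez
    exact (mul_right_eq_self₀.mp h1.symm).resolve_right (by omega)
  set β := x * R + y * ((D : ℤ) * e)
  set δ' := -v * R + u * ((D : ℤ) * e)
  have hαδ : (α : ℤ) * δ' = (A : ℤ) * D := by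
    rw [← hPR]
    linear_combination (norm := (simp only [δ']; ring)) R * hv - ((D : ℤ) * e) * hu
  have hδ : 0 < δ' := by
    have : (0 : ℤ) < (α : ℤ) * δ' := by rw [hαδ]; positivity
    exact pos_of_mul_pos_right this (by positivity)
  obtain ⟨h, hh⟩ : ∃ h : SL(2, ℤ), h.1 = !![u, -y; v, x] :=
    ⟨⟨!![u, -y; v, x], by rw [Matrix.det_fin_two_of]; linarith [hxy]⟩, rfl⟩
  refine ⟨h, α, δ'.toNat, β, hα, by omega, by simp [hh]; linarith [hv], fun τ σ z hσ hz => ?_⟩
  have hne : ((c : ℂ) * τ + e) ≠ 0 := by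
    have h := UpperHalfPlane.denom_ne_zero (Matrix.SpecialLinearGroup.mapGL ℝ g) τ
    simpa [UpperHalfPlane.denom, c, e] using h
  have hδC : (δ' : ℂ) ≠ 0 := by exact_mod_cast hδ.ne'
  have hσ' : (σ : ℂ) = ((α : ℂ) * τ + β) / (δ' : ℂ) := by
    rw [hσ]
    congr 1
    exact_mod_cast Int.toNat_of_nonneg hδ.le
  have hDC : (D : ℂ) ≠ 0 := by exact_mod_cast hD.ne'
  apply UpperHalfPlane.ext
  rw [hz, coe_smul_eq g τ, coe_smul_eq h σ, hσ', hh]
  simp only [Matrix.of_apply, Matrix.cons_val', Matrix.cons_val_zero, Matrix.cons_val_one,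
    Matrix.cons_val_fin_one, Matrix.empty_val']
  have e1 : (u : ℂ) * β + -(y : ℂ) * δ' = R := by
    have : u * β + -y * δ' = R * (u * x + v * y) := by simp only [β, δ']; ring
    rw [hxy, mul_one] at this
    exact_mod_cast this
  have e2 : (v : ℂ) * β + (x : ℂ) * δ' = (D : ℂ) * e := by
    have : v * β + x * δ' = (D : ℤ) * e * (u * x + v * y) := by simp only [β, δ']; ring
    rw [hxy, mul_one] at this
    exact_mod_cast this
  have e3 : (u : ℂ) * α = P := by rw [mul_comm]; exact_mod_cast hu.symm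
  have e4 : (v : ℂ) * α = (D : ℂ) * c := by rw [mul_comm]; exact_mod_cast hv.symm
  have l1 : (u : ℂ) * (((α : ℂ) * τ + β) / δ') + ((-y : ℤ) : ℂ) =
      ((P : ℂ) * τ + R) / δ' := by
    field_simp
    push_cast
    linear_combination (τ : ℂ) * e3 + e1
  have l2 : (v : ℂ) * (((α : ℂ) * τ + β) / δ') + (x : ℂ) =
      (D : ℂ) * ((c : ℂ) * τ + e) / δ' := by
    field_simp
    linear_combination (τ : ℂ) * e4 + e2
  rw [l1, l2]
  simp only [P, R, a, b, c, e] at hne ⊢
  push_cast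
  generalize hd : ((g.1 1 0 : ℂ) * τ + g.1 1 1) = d at hne ⊢
  field_simp
  linear_combination -(B : ℂ) * hd

variable (L : ℕ) [NeZero L]

/-- Boundedness of `t` composed with an integral upper triangular matrix, away from `∞`. -/
theorem isBoundedAtImInfty_tFun_upper (hL : IsHauptLevel L) {A D : ℕ} (B : ℤ) (hA : 0 < A)
    (hD : 0 < D) (hDL : Nat.Coprime D L) {g : SL(2, ℤ)} (hg : g ∉ Gamma0 L) {M : ℍ → ℍ}
    (hM : ∀ z : ℍ, (M z : ℂ) = ((A : ℂ) * z + B) / D) :
    IsBoundedAtImInfty (fun τ => tFun L (M (g • τ))) := by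
  obtain ⟨h, α, δ, β, hα, hδ, hv, he⟩ := exists_upper_decomp A D B hA hD g
  have hh : h ∉ Gamma0 L := by
    intro hmem
    refine hg ?_
    rw [Gamma0_mem, ZMod.intCast_zmod_eq_zero_iff_dvd] at hmem ⊢
    exact ((Int.natCast_dvd_natCast.mpr dvd_rfl).trans
      (Int.dvd_of_dvd_mul_right_of_gcd_one (hv ▸ hmem.mul_right _)
        (by rw [Int.gcd_natCast_natCast]; exact hDL.symm)))
  have hδR : (0 : ℝ) < δ := by exact_mod_cast hδ
  have hαR : (0 : ℝ) < α := by exact_mod_cast hα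
  let σ : ℍ → ℍ := fun τ => ⟨((α : ℂ) * τ + β) / δ, by
    have := τ.im_pos
    simp [Complex.div_natCast_im]
    positivity⟩
  have hσ : Tendsto σ atImInfty atImInfty := tendsto_affine hαR hδR fun τ => by
    show (((α : ℂ) * τ + β) / δ).im = _
    simp [Complex.div_natCast_im]
  exact ((isBoundedAtImInfty_tFun_smul L hL hh).comp_tendsto hσ).congr
    (fun τ => congrArg (tFun L) (he τ (σ τ) _ rfl (hM _)).symm) (fun _ => rfl)

/-! ### Laurent expansions -/

theorem hasLaurentQ_expansion {F : ℍ → ℂ} (hF : F ∈ HolInfty 1) :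
    FLTA.Igusa.HasLaurentQ F (expansionFun 1 F) := by
  have hn := isBounded_poleBound hF.2.2
  rw [expansionFun_eq 1 hF hn, mul_one]
  refine FLTA.Igusa.HasLaurentQ.of_shift fun τ => ?_
  have := hasSum_qExpansion' 1 (qParam_pow_mul_mem 1 hF _) hn τ
  simpa using this

/-- A convergent Laurent expansion gives the growth and is the expansion. -/
theorem expansionFun_eq_of_hasLaurentQ {F : ℍ → ℂ} {c : LaurentSeries ℂ}
    (hc : FLTA.Igusa.HasLaurentQ F c) :
    GrowthInfty F ∧ (F ∈ HolInfty 1 → expansionFun 1 F = c) := by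
  obtain ⟨n, hn⟩ : ∃ n : ℕ, ∀ i < -(n : ℤ), c.coeff i = 0 :=
    ⟨(-c.order).toNat, fun i hi => HahnSeries.coeff_eq_zero_of_lt_order (by omega)⟩
  have hs : ∀ τ : ℍ, HasSum (fun m : ℕ => c.coeff ((m : ℤ) - n) * Periodic.qParam 1 (τ : ℂ) ^ m)
      (Periodic.qParam 1 (τ : ℂ) ^ n * F τ) := by
    intro τ
    have hq0 : Periodic.qParam 1 (τ : ℂ) ≠ 0 := Periodic.qParam_ne_zero _
    have hinj : Function.Injective (fun m : ℕ => (m : ℤ) - n) := fun a b hab => by simpa using hab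
    refine ((hinj.hasSum_iff ?_).mpr ((hc τ).mul_left (Periodic.qParam 1 (τ : ℂ) ^ n))).congr_fun
      fun m => ?_
    · intro k hk
      rw [hn k (by by_contra h; exact hk ⟨(k + n).toNat, by simp; omega⟩), zero_mul, mul_zero]
    · simp only [comp_apply]
      rw [zpow_sub₀ hq0, zpow_natCast, zpow_natCast]
      field_simp
  have hb : IsBoundedAtImInfty (fun τ : ℍ => Periodic.qParam 1 (τ : ℂ) ^ n * F τ) :=
    isBoundedAtImInfty_of_hasSum_qExpansion one_pos
      (c := fun m : ℕ => c.coeff ((m : ℤ) - n)) fun τ => by simpa using hs τ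
  refine ⟨⟨n, hb⟩, fun hF => ?_⟩
  rw [expansionFun_eq 1 hF hb, qExpansion_eq_of_hasSum 1 (qParam_pow_mul_mem 1 hF n) hb
    (P := PowerSeries.mk fun m => c.coeff ((m : ℤ) - n)) fun τ => by simpa using hs τ, mul_one]
  ext k
  rw [HahnSeries.coeff_single_mul, one_mul, sub_neg_eq_add]
  rcases lt_or_ge (k + (n : ℤ)) 0 with hk | hk
  · rw [ModularCurve.ofPowerSeries_coeff_of_neg _ hk, hn k (by omega)]
  · obtain ⟨m, hm⟩ := Int.eq_ofNat_of_zero_le hk
    rw [hm, HahnSeries.ofPowerSeries_apply_coeff, PowerSeries.coeff_mk]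
    congr 1
    omega

theorem hasLaurentQ_tFun_pow (hL : IsHauptLevel L) (m : ℕ) :
    FLTA.Igusa.HasLaurentQ (fun τ => tFun L τ ^ m) (tOf L ℂ ^ m) := by
  have h := hasLaurentQ_expansion
    (mem_holInfty_one_of_mem_modHol L (pow_mem (tFun_mem_modHol L hL) m))
  have e : expansionFun 1 (tFun L ^ m) = tOf L ℂ ^ m := by
    have h1 : qexp L (tMod L hL ^ m) = tOf L ℂ ^ m := by rw [map_pow, qexp_tMod]; rfl
    exact h1
  rw [e] at h
  exact h

theorem uOp_add_qExpand_tOf_mem_range (hL : IsHauptLevel L) (q : ℕ) [NeZero q] (hq : q.Prime)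
    (hqL : ¬ q ∣ L) (m : ℕ) :
    FLTA.Igusa.uOp q (tOf L ℂ ^ m) + ModularCurve.qExpand ℂ q (tOf L ℂ ^ m) ∈
      (Polynomial.aeval (R := ℂ) (tOf L ℂ)).range := by
  set c := FLTA.Igusa.uOp q (tOf L ℂ ^ m) + ModularCurve.qExpand ℂ q (tOf L ℂ ^ m)
  set F : ℍ → ℂ := fun τ => tFun L τ ^ m
  set G : ℍ → ℂ := fun τ => (q : ℂ) * ModularForm.heckeT 0 q F τ with hG
  have hqC : (q : ℂ) ≠ 0 := by exact_mod_cast NeZero.ne q
  have hGeq : ∀ τ, G τ = ∑ i ∈ Finset.range q, F (ModularForm.heckeMatrix q i • τ) +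
      F (ModularForm.heckeDiagMatrix q • τ) := fun τ => by
    simp only [hG, ModularForm.heckeT_apply 0 (NeZero.ne q), zero_sub, zpow_neg_one, mul_add,
      ← mul_assoc, mul_inv_cancel₀ hqC, one_mul]
  have hlaurent : FLTA.Igusa.HasLaurentQ G c := by
    have h := (FLTA.Igusa.hasLaurentQ_sum_heckeMatrix (hasLaurentQ_tFun_pow L hL m) q).add
      (FLTA.Igusa.hasLaurentQ_diag (hasLaurentQ_tFun_pow L hL m) q)
    rw [show G = (fun τ => ∑ i ∈ Finset.range q, F (ModularForm.heckeMatrix q i • τ)) +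
      fun τ => F (ModularForm.heckeDiagMatrix q • τ) from funext hGeq]
    exact h
  have hFmem : F ∈ ModHol L := pow_mem (tFun_mem_modHol L hL) m
  have hFinv : ∀ γ ∈ (CongruenceSubgroup.Gamma0 L : Subgroup (GL (Fin 2) ℝ)),
      SlashAction.map (0 : ℤ) γ F = F := by
    rintro _ ⟨γ, hγ, rfl⟩
    ext τ
    show (F ∣[(0 : ℤ)] γ) τ = F τ
    rw [ModularForm.SL_slash_apply, neg_zero, zpow_zero, mul_one]
    exact hFmem.2.1 γ hγ τ
  have hGinv : ∀ γ ∈ Gamma0 L, ∀ τ : ℍ, G (γ • τ) = G τ := fun γ hγ τ => by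
    have := congrFun (ModularForm.heckeT_slash_eq_self_of_mem_Gamma0 (N := L) 0 hq hqL hFinv
      (γ : GL (Fin 2) ℝ) ⟨γ, hγ, rfl⟩) τ
    change (ModularForm.heckeT 0 q F ∣[(0 : ℤ)] γ) τ = _ at this
    rw [ModularForm.SL_slash_apply, neg_zero, zpow_zero, mul_one] at this
    simp only [hG]
    rw [this]
  have hGb : ∀ g : SL(2, ℤ), g ∉ Gamma0 L → IsBoundedAtImInfty (fun τ => G (g • τ)) := by
    intro g hg
    simp only [hGeq]
    refine Filter.BoundedAtFilter.add ?_ ?_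
    · have : ∀ i ∈ Finset.range q, Filter.BoundedAtFilter atImInfty
          (fun τ : ℍ => F (ModularForm.heckeMatrix q i • g • τ)) := fun i _ => by
        have hb := isBoundedAtImInfty_tFun_upper L hL (A := 1) (D := q) (i : ℤ) one_pos hq.pos
          (hq.coprime_iff_not_dvd.mpr hqL) hg (M := fun z => ModularForm.heckeMatrix q i • z)
          fun z => by rw [ModularForm.coe_heckeMatrix_smul (NeZero.ne q)]; simp
        exact (hb.pow m).congr_right fun _ => by simp
      have h2 := Asymptotics.IsBigO.fun_sum this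
      exact h2
    · have hb := isBoundedAtImInfty_tFun_upper L hL (A := q) (D := 1) 0 hq.pos one_pos
        (Nat.coprime_one_left L) hg (M := fun z => ModularForm.heckeDiagMatrix q • z)
        fun z => by rw [ModularForm.coe_heckeDiagMatrix_smul (NeZero.ne q)]; simp
      exact (hb.pow m).congr_right fun _ => by simp
  obtain ⟨hgrowth, hexp⟩ := expansionFun_eq_of_hasLaurentQ hlaurent
  have hGmem : G ∈ ModHol L := by
    refine ⟨(mdifferentiable_const.mul (ModularForm.mdifferentiable_heckeT hFmem.1 0 q) :), hGinv,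
      fun g => ?_⟩
    by_cases hg : g ∈ Gamma0 L
    · simp only [hGinv g hg]
      exact hgrowth
    · exact ⟨0, by simpa using hGb g hg⟩
  obtain ⟨A, hA⟩ := exists_eval_eq L hL hGmem hGb
  refine ⟨A, ?_⟩
  have h1 : qexp L ⟨G, hGmem⟩ = c := hexp (mem_holInfty_one_of_mem_modHol L hGmem)
  have h2 : (⟨G, hGmem⟩ : ModHol L) = Polynomial.aeval (tMod L hL) A :=
    Subtype.ext (funext fun τ => by
      show G τ = _
      rw [hA τ, Polynomial.aeval_subalgebra_coe, Polynomial.aeval_pi_apply₂,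
        Polynomial.coe_aeval_eq_eval]
      rfl)
  rw [← h1, h2, qexp_aeval]
  rfl

end FLTA.Carayol.Haupt
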