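import Fermat.Agent.Carayol.Haupt.CuspSeries
import Fermat.Agent.Carayol.Haupt.CuspValues
import Fermat.Agent.Carayol.Haupt.Hecke
import Fermat.Agent.Carayol.Haupt.Deriv

/-!
# The modular equation near the finite cusps

`t (τ + j/ℓ) = η t τ + k (η - 1)` with `η = ω⁻ʲ`.  Translating `Φ (t τ, t (qτ)) = 0` by `j/ℓ` and
then applying the Fricke involution gives the relation between the series at the finite cusps.
-/

set_option autoImplicit false

noncomputable section

open UpperHalfPlane Function FLTA.Bridge Filter Polynomial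
open scoped MatrixGroups Topology Manifold ModularForm

namespace FLTA.Carayol.Haupt

variable (L : ℕ) [NeZero L]

/-- `1/t` as a function. -/
def invTFun : ℍ → ℂ := fun τ => (tFun L τ)⁻¹

theorem invTFun_mem_holInfty (hL : IsHauptLevel L) : invTFun L ∈ HolInfty 1 := by
  have ht := mem_holInfty_one_of_mem_modHol L (tFun_mem_modHol L hL)
  refine ⟨?_, fun z => ?_, 0, by
    simp only [pow_zero, one_mul]; exact (tendsto_tFun_inv L).isBigO_one ℝ⟩
  · rw [mem_hol_iff_differentiableOn]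
    exact ((mem_hol_iff_differentiableOn.mp (mdifferentiable_tFun L)).inv
      fun z _ => tFun_ne_zero L _).congr fun z _ => rfl
  · exact congrArg (·⁻¹) (ht.2.1 z)

theorem expansion_invTFun (hL : IsHauptLevel L) :
    expansion 1 ⟨invTFun L, invTFun_mem_holInfty L hL⟩ =
      HahnSeries.ofPowerSeries ℤ ℂ ((tInv L).map (Int.castRingHom ℂ)) := by
  have ht := mem_holInfty_one_of_mem_modHol L (tFun_mem_modHol L hL)
  have h1 : expansion 1 ⟨invTFun L, invTFun_mem_holInfty L hL⟩ * tOf L ℂ = 1 := by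
    have hq : expansion 1 ⟨_, ht⟩ = tOf L ℂ := qexp_tMod L hL
    rw [← hq, ← map_mul]
    convert map_one (expansion 1) using 2
    refine Subtype.ext (funext fun τ => ?_)
    exact inv_mul_cancel₀ (tFun_ne_zero L τ)
  have h2 : HahnSeries.ofPowerSeries ℤ ℂ ((tInv L).map (Int.castRingHom ℂ)) * tOf L ℂ = 1 := by
    rw [← ModularCurve.coeffMap_ofPowerSeries, tOf, ← map_mul, ofPowerSeries_tInv_mul_tSeries,
      map_one]
  exact mul_right_cancel₀ (right_ne_zero_of_mul_eq_one h1) (h1.trans h2.symm)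

/-- `ω⁻¹` for `ω = e(1/ℓ)`. -/
def cuspEta (ℓ : ℕ) : ℂ := (cuspRoot ℓ 1)⁻¹

theorem isPrimitiveRoot_cuspEta {ℓ : ℕ} (hℓ : ℓ ≠ 0) : IsPrimitiveRoot (cuspEta ℓ) ℓ := by
  have e : cuspRoot ℓ 1 = Complex.exp (2 * Real.pi * Complex.I / ℓ) := by
    show Complex.exp _ = _
    congr 1
    push_cast
    ring
  rw [cuspEta, e]
  exact (Complex.isPrimitiveRoot_exp ℓ hℓ).inv

/-- Translation by `j/ℓ`. -/
theorem tFun_translate (hL : IsHauptLevel L) {ℓ : ℕ} (hℓ : L = ℓ * ℓ) (j : ℕ) (τ : ℍ) :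
    tFun L (((j : ℝ) / ℓ) +ᵥ τ) =
      cuspEta ℓ ^ j * tFun L τ + (etaExp L : ℂ) * (cuspEta ℓ ^ j - 1) := by
  induction j with
  | zero => simp
  | succ j ih =>
    have h := shiftDiff_eq L hL hℓ (i := 1) (by norm_num) (((j : ℝ) / ℓ) +ᵥ τ)
    rw [shiftDiff, shiftBy, vadd_vadd, ← add_div] at h
    have e : (((1 : ℤ) : ℝ) + (j : ℝ)) / ℓ = (((j + 1 : ℕ) : ℝ)) / ℓ := by push_cast; ring
    rw [e, ih] at h
    have hω := cuspRoot_ne_zero ℓ 1
    rw [pow_succ]
    simp only [cuspEta] at h ⊢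
    field_simp at h ⊢
    linear_combination h

variable {L} {q : ℕ} [hq : Fact q.Prime]

/-- The two relations as functions. -/
theorem IsModEq.eval_tFun {Φ : ℤ[X][X]} (hΦ : IsModEq q L Φ) (hL : IsHauptLevel L) (τ : ℍ) :
    Φ.eval₂ (aeval (tFun L (scaleTau q τ))).toRingHom (tFun L τ) = 0 ∧
      Φ.eval₂ (aeval (tFun L τ)).toRingHom (tFun L (scaleTau q τ)) = 0 := by
  have ht := mem_holInfty_one_of_mem_modHol L (tFun_mem_modHol L hL)
  let F : HolInfty 1 := ⟨tFun L, ht⟩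
  let G : HolInfty 1 := ⟨_, comp_scaleTau_mem_holInfty q ht⟩
  have hF : expansion 1 F = tOf L ℂ := qexp_tMod L hL
  have hG : expansion 1 G = ModularCurve.qExpand ℂ q (tOf L ℂ) :=
    (expansionFun_comp_scaleTau q ht (comp_scaleTau_mem_holInfty q ht)).trans
      (congrArg (ModularCurve.qExpand ℂ q) hF)
  let ev : HolInfty 1 →+* ℂ := (Pi.evalRingHom (fun _ : ℍ => ℂ) τ).comp (HolInfty 1).subtype
  have key : ∀ (U V : HolInfty 1) (x y : LaurentSeries ℤ),
      expansion 1 U = ModularCurve.coeffMap (Int.castRingHom ℂ) x →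
      expansion 1 V = ModularCurve.coeffMap (Int.castRingHom ℂ) y →
      Φ.eval₂ (aeval y).toRingHom x = 0 → Φ.eval₂ (aeval (ev V)).toRingHom (ev U) = 0 := by
    intro U V x y hU hV h0
    have h1 : Φ.eval₂ (aeval V).toRingHom U = 0 := by
      apply expansion_injective 1
      rw [map_zero, ← AlgHom.coe_toRingHom, hom_eval₂, AlgHom.coe_toRingHom, hU,
        show (((expansion 1) : HolInfty 1 →+* LaurentSeries ℂ).comp (aeval V).toRingHom) =
          (ModularCurve.coeffMap (Int.castRingHom ℂ)).comp (aeval y).toRingHom from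
          Polynomial.ringHom_ext' (RingHom.ext_int _ _) (by simp [hV]), ← hom_eval₂, h0, map_zero]
    have h2 := congrArg ev h1
    rwa [map_zero, hom_eval₂, show ev.comp (aeval V).toRingHom = (aeval (ev V)).toRingHom from
      Polynomial.ringHom_ext' (RingHom.ext_int _ _) (by simp)] at h2
  have hG' : expansion 1 G =
      ModularCurve.coeffMap (Int.castRingHom ℂ) (ModularCurve.qExpand ℤ q (tSeries L)) := by
    rw [hG, ModularCurve.coeffMap_qExpand]; rfl
  exact ⟨key F G _ _ hF hG' hΦ.root, key G F _ _ hG' hF hΦ.root_swap⟩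

/-- The two relations at the cusp attached to an `ℓ`-th root of unity, over `ℂ`. -/
theorem IsModEq.cuspRel_complex {Φ : ℤ[X][X]} (hΦ : IsModEq q L Φ) (hL : IsHauptLevel L) {ℓ : ℕ}
    (hℓ : L = ℓ * ℓ) (hq2 : q * q % ℓ = 1) {z₀ : ℂ} (hz₀ : z₀ ^ ℓ = 1) :
    cuspRel L q Φ z₀ = 0 ∧ cuspRelSwap L q Φ z₀ = 0 := by
  have hℓ0 : ℓ ≠ 0 := by
    have := NeZero.ne L
    rw [hℓ] at this
    exact left_ne_zero_of_mul this
  have : NeZero ℓ := ⟨hℓ0⟩
  obtain ⟨j, -, rfl⟩ := (isPrimitiveRoot_cuspEta hℓ0).eq_pow_of_pow_eq_one hz₀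
  have hinv := invTFun_mem_holInfty L hL
  let P : HolInfty 1 := ⟨invTFun L, hinv⟩
  let Q : HolInfty 1 := ⟨_, comp_scaleTau_mem_holInfty q hinv⟩
  have hC : frickeConst L = (frickeNat L : ℂ) := by
    rw [frickeConst_eq L hL, frickeNat]
    split <;> norm_num
  let aff : ℂ → HolInfty 1 → HolInfty 1 := fun z U =>
    algebraMap ℂ _ ((etaExp L : ℂ) * (z - 1)) + algebraMap ℂ _ (z * (frickeNat L : ℂ)) * U
  set ι : PowerSeries ℂ →+* LaurentSeries ℂ := HahnSeries.ofPowerSeries ℤ ℂ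
  have hP : ∀ z, expansion 1 (aff z P) = ι (cuspSer L z) := fun z => by
    simp only [aff, map_add, map_mul, AlgHom.commutes, P, expansion_invTFun L hL, cuspSer, ι,
      HahnSeries.ofPowerSeries_C, ModularCurve.algebraMap_laurentSeries_eq_single,
      HahnSeries.C_apply, ← HahnSeries.single_mul_single]
  have hQ : ∀ z, expansion 1 (aff z Q) =
      ι (PowerSeries.expand q hq.out.ne_zero (cuspSer L z)) := fun z => by
    have h1 : expansion 1 Q = ι (PowerSeries.expand q hq.out.ne_zero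
        ((tInv L).map (Int.castRingHom ℂ))) := by
      refine (expansionFun_comp_scaleTau q hinv (comp_scaleTau_mem_holInfty q hinv)).trans ?_
      rw [show expansionFun 1 (invTFun L) = _ from expansion_invTFun L hL,
        FLTA.Congruence.qExpand_ofPowerSeries]
    simp only [aff, map_add, map_mul, AlgHom.commutes, h1, cuspSer, ι, PowerSeries.expand_C,
      HahnSeries.ofPowerSeries_C, ModularCurve.algebraMap_laurentSeries_eq_single,
      HahnSeries.C_apply, ← HahnSeries.single_mul_single]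
  have key : ∀ (U V : HolInfty 1) (x y : PowerSeries ℂ),
      expansion 1 U = ι x → expansion 1 V = ι y →
      (∀ τ : ℍ, Φ.eval₂ (aeval ((V : ℍ → ℂ) τ)).toRingHom ((U : ℍ → ℂ) τ) = 0) →
      Φ.eval₂ (aeval y).toRingHom x = 0 := by
    intro U V x y hU hV h0
    have h1 : Φ.eval₂ (aeval V).toRingHom U = 0 := by
      refine Subtype.ext (funext fun τ => ?_)
      let ev : HolInfty 1 →+* ℂ := (Pi.evalRingHom (fun _ : ℍ => ℂ) τ).comp (HolInfty 1).subtype
      show ev _ = ev 0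
      rw [map_zero, hom_eval₂, show ev.comp (aeval V).toRingHom = (aeval (ev V)).toRingHom from
        Polynomial.ringHom_ext' (RingHom.ext_int _ _) (by simp)]
      exact h0 τ
    apply (HahnSeries.ofPowerSeries_injective : Function.Injective ι)
    rw [map_zero, hom_eval₂, ← hU, show ι.comp (aeval y).toRingHom =
        ((expansion 1) : HolInfty 1 →+* LaurentSeries ℂ).comp (aeval V).toRingHom from
        Polynomial.ringHom_ext' (RingHom.ext_int _ _) (by simp [hV]),
      ← AlgHom.coe_toRingHom, ← hom_eval₂, h1, map_zero]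
  -- translate, then apply the Fricke involution
  have hwit : ∀ (i : ℕ) (w : ℍ),
      tFun L (((i : ℝ) / ℓ) +ᵥ ModularGroup.S • scaleTau L (scaleTau q w)) =
        (aff (cuspEta ℓ ^ i) Q : ℍ → ℂ) w ∧
      tFun L (scaleTau q (((i : ℝ) / ℓ) +ᵥ ModularGroup.S • scaleTau L (scaleTau q w))) =
        (aff ((cuspEta ℓ ^ i) ^ q) P : ℍ → ℂ) w := by
    intro i w
    have hfr : ∀ v, tFun L (ModularGroup.S • scaleTau L v) =
        (frickeNat L : ℂ) * (tFun L v)⁻¹ := fun v => by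
      rw [← hC, ← tFun_fricke L hL v, mul_inv_cancel_right₀ (tFun_ne_zero L v)]
    have hsc : scaleTau q (((i : ℝ) / ℓ) +ᵥ ModularGroup.S • scaleTau L (scaleTau q w)) =
        (((i * q : ℕ) : ℝ) / ℓ) +ᵥ ModularGroup.S • scaleTau L w := by
      apply UpperHalfPlane.ext
      have hw : (w : ℂ) ≠ 0 := ne_zero w
      have hL0 : (L : ℂ) ≠ 0 := by exact_mod_cast NeZero.ne L
      have hqC : (q : ℂ) ≠ 0 := by exact_mod_cast hq.out.ne_zero
      simp only [coe_scaleTau, coe_vadd, modular_S_smul]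
      push_cast
      field_simp
    refine ⟨?_, ?_⟩
    · rw [tFun_translate L hL hℓ, hfr]
      show _ = (etaExp L : ℂ) * (cuspEta ℓ ^ i - 1) +
        cuspEta ℓ ^ i * (frickeNat L : ℂ) * invTFun L (scaleTau q w)
      rw [invTFun]
      ring
    · rw [hsc, tFun_translate L hL hℓ, hfr, pow_mul]
      show _ = (etaExp L : ℂ) * ((cuspEta ℓ ^ i) ^ q - 1) +
        (cuspEta ℓ ^ i) ^ q * (frickeNat L : ℂ) * invTFun L w
      rw [invTFun]
      ring
  refine ⟨key _ _ _ _ (hP _) (hQ _) fun w => ?_, key _ _ _ _ (hQ _) (hP _) fun w => ?_⟩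
  · have h := (hΦ.eval_tFun hL (((j : ℝ) / ℓ) +ᵥ ModularGroup.S • scaleTau L (scaleTau q w))).2
    rwa [(hwit j w).1, (hwit j w).2] at h
  · have h := (hΦ.eval_tFun hL
      ((((j * q : ℕ) : ℝ) / ℓ) +ᵥ ModularGroup.S • scaleTau L (scaleTau q w))).1
    have e : ((cuspEta ℓ ^ j) ^ q) ^ q = cuspEta ℓ ^ j := by
      rw [← pow_mul, pow_eq_pow_mod (q * q) hz₀, hq2, pow_one]
    rwa [(hwit (j * q) w).1, (hwit (j * q) w).2, pow_mul, e] at h

/-- The relations at the cusps, over any ring. -/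
theorem IsModEq.cuspRel_eq_zero {Φ : ℤ[X][X]} (hΦ : IsModEq q L Φ) (hL : IsHauptLevel L) {ℓ : ℕ}
    (hℓ : L = ℓ * ℓ) (hq2 : q * q % ℓ = 1) {A : Type*} [CommRing A] {z₀ : A} (hz₀ : z₀ ^ ℓ = 1) :
    cuspRel L q Φ z₀ = 0 ∧ cuspRelSwap L q Φ z₀ = 0 :=
  cuspRel_eq_zero_of_complex Φ (Nat.pos_of_ne_zero fun h => NeZero.ne L (by rw [hℓ, h, mul_zero]))
    (fun _ hz => hΦ.cuspRel_complex hL hℓ hq2 hz) hz₀

end FLTA.Carayol.Haupt
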