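import Fermat.Agent.Carayol.Haupt.ModEq
import Fermat.Agent.Carayol.Haupt.CuspRelation
import Mathlib.RingTheory.PowerSeries.Expand

/-!
# The modular equation at the cusps of the `t`-line

At a finite cusp value `t₀` there are series `g`, `g'` with unit linear terms such that, with
`T = g (r^q)`, the roots of `Φ(·, T)` are `X = g' (ζ r)` and `X = g' (r^{q²})`.  At infinity the
coordinates are `1/T`, `1/X` and both series are `tInv`.
-/

set_option autoImplicit false

noncomputable section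

open Polynomial

namespace FLTA.Carayol.Haupt

variable {q L : ℕ} [hq : Fact q.Prime] [NeZero L]

/-- Expansions at a finite cusp. -/
theorem IsModEq.exists_cuspSeries {Φ : ℤ[X][X]} (h : IsModEq q L Φ) (hL : IsHauptLevel L)
    (hqL : ¬ q ∣ L) {W : Type} [CommRing W] [IsDomain W] [CharZero W] (hLW : IsUnit (L : W))
    (t₀ : W) (ht₀ : ((cuspPoly L).map (Int.castRingHom W)).eval t₀ = 0) :
    ∃ g g' : PowerSeries W,
      PowerSeries.constantCoeff g = t₀ ∧ IsUnit (PowerSeries.coeff 1 g) ∧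
      ((cuspPoly L).map (Int.castRingHom W)).eval (PowerSeries.constantCoeff g') = 0 ∧
      IsUnit (PowerSeries.coeff 1 g') ∧
      Φ.eval₂ (aeval (PowerSeries.expand q (NeZero.ne q) g)).toRingHom g' = 0 ∧
      Φ.eval₂ (aeval g).toRingHom (PowerSeries.expand q (NeZero.ne q) g') = 0 := by
  obtain ⟨ℓ, hℓp, hℓ, hℓL⟩ := hL.exists_sq
  have hqℓ : ¬ q ∣ ℓ := fun hd => hqL (hℓL ▸ hd.mul_right ℓ)
  have hq2 : q * q % ℓ = 1 := by
    have h1 : q % ℓ ≠ 0 := fun h0 => hqℓ
      (((Nat.prime_dvd_prime_iff_eq hℓp hq.out).1 (Nat.dvd_of_mod_eq_zero h0)) ▸ dvd_rfl)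
    rw [Nat.mul_mod]
    rcases hℓ with rfl | rfl
    · rw [show q % 2 = 1 by omega]
    · rcases (show q % 3 = 1 ∨ q % 3 = 2 by omega) with h2 | h2 <;> rw [h2]
  -- the root of unity of the cusp
  have hdata : ∃ (k : W) (u : W), (etaExp L : W) = k ∧ u * k = 1 ∧ IsUnit (frickeNat L : W) ∧
      (1 + u * t₀) ^ ℓ = 1 ∧ ∀ z : W, z ^ ℓ = 1 →
        ((cuspPoly L).map (Int.castRingHom W)).eval (k * (z - 1)) = 0 := by
    obtain ⟨v, hv⟩ := hLW.exists_left_inv
    rcases hL with rfl | rfl
    · obtain rfl : ℓ = 2 := by nlinarith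
      simp [cuspPoly] at ht₀ hv hLW
      refine ⟨8, 2 * v * v, by simp [etaExp], ?_, ?_, ?_, fun z hz => ?_⟩
      · linear_combination (4 * v + 1) * hv
      · have h := hLW.pow 4
        norm_num [frickeNat] at h ⊢
        exact h
      · linear_combination (4 * v ^ 4) * ht₀ - (4 * v * v * t₀ * (4 * v + 1)) * hv
      · simp [cuspPoly]
        linear_combination 64 * hz
    · obtain rfl : ℓ = 3 := by nlinarith
      simp [cuspPoly] at ht₀ hv hLW
      refine ⟨3, 3 * v, by simp [etaExp], ?_, ?_, ?_, fun z hz => ?_⟩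
      · linear_combination hv
      · have h3 : IsUnit (3 : W) := IsUnit.of_mul_eq_one (3 * v) (by linear_combination hv)
        have h := h3.pow 3
        norm_num [frickeNat] at h ⊢
        exact h
      · linear_combination (27 * v ^ 3) * ht₀ -
          (27 * v ^ 2 * t₀ ^ 2 + 9 * v * t₀ * (9 * v + 1)) * hv
      · simp [cuspPoly]
        linear_combination 27 * hz
  obtain ⟨k, u, hk, huk, hC, hpow, hval⟩ := hdata
  set η : W := 1 + u * t₀
  have hηu : IsUnit η := (IsUnit.of_pow_eq_one hpow hℓp.ne_zero)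
  obtain ⟨hA, hB⟩ := h.cuspRel_eq_zero hL hℓL hq2 hpow
  refine ⟨cuspSer L η, cuspSer L (η ^ q), ?_, ?_, ?_, ?_, hA, hB⟩
  · rw [constantCoeff_cuspSer, hk, show η - 1 = u * t₀ by ring]
    linear_combination t₀ * huk
  · rw [coeff_one_cuspSer]
    exact hηu.mul hC
  · rw [constantCoeff_cuspSer, hk]
    exact hval _ (by rw [← pow_mul, mul_comm, pow_mul, hpow, one_pow])
  · rw [coeff_one_cuspSer]
    exact (hηu.pow q).mul hC

end FLTA.Carayol.Haupt
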