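import Fermat.Agent.Carayol.Haupt.SeriesLemmas
import Fermat.Agent.Carayol.Haupt.IsModEq
import Mathlib.RingTheory.PowerSeries.Expand
import Mathlib.Algebra.Polynomial.Div

/-!
# The series at the cusps

`tInv = 1/t`, and the series `k (η - 1) + η C tInv` of `t` at the cusp attached to an `ℓ`-th root
of unity `η`, `L = ℓ²`, over any ring.
-/

set_option autoImplicit false

noncomputable section

open Polynomial

namespace FLTA.Carayol.Haupt

/-- The series `1/t`, with zero constant term and linear term one. -/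
def tInv (L : ℕ) [NeZero L] : PowerSeries ℤ :=
  PowerSeries.X * PowerSeries.invOfUnit (ModularCurve.etaProd ^ etaExp L) 1 *
    PowerSeries.expand L (NeZero.ne L) (ModularCurve.etaProd ^ etaExp L)

/-- `tInv` is the inverse of `t`. -/
theorem ofPowerSeries_tInv_mul_tSeries (L : ℕ) [NeZero L] :
    HahnSeries.ofPowerSeries ℤ ℤ (tInv L) * tSeries L = 1 := by
  set E := ModularCurve.etaProd ^ etaExp L
  have hE : E * PowerSeries.invOfUnit E 1 = 1 := etaPow_mul_inv L
  have h1 : tInv L * tUnit L = PowerSeries.X := by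
    calc tInv L * tUnit L = PowerSeries.X * (E * PowerSeries.invOfUnit E 1) *
        PowerSeries.expand L (NeZero.ne L) (E * PowerSeries.invOfUnit E 1) := by
          rw [tInv, tUnit, map_mul]; ring
      _ = PowerSeries.X := by rw [hE, map_one, mul_one, mul_one]
  rw [tSeries_eq, mul_left_comm, ← map_mul, h1, HahnSeries.ofPowerSeries_X,
    HahnSeries.single_mul_single]
  simp

theorem constantCoeff_tInv (L : ℕ) [NeZero L] : PowerSeries.constantCoeff (tInv L) = 0 := by
  simp [tInv]

theorem coeff_one_tInv (L : ℕ) [NeZero L] : PowerSeries.coeff 1 (tInv L) = 1 := by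
  rw [tInv, mul_assoc, show (1 : ℕ) = 0 + 1 from rfl, PowerSeries.coeff_succ_X_mul,
    PowerSeries.coeff_zero_eq_constantCoeff_apply, map_mul, PowerSeries.constantCoeff_expand,
    PowerSeries.constantCoeff_invOfUnit, map_pow, ModularCurve.constantCoeff_etaProd]
  simp

/-- The product of `t` with its Fricke transform. -/
def frickeNat (L : ℕ) : ℕ := if L = 4 then 256 else 27

variable (L : ℕ) [NeZero L] {A B : Type*} [CommRing A] [CommRing B]

/-- `t` at the cusp attached to `η`. -/
def cuspSer (η : A) : PowerSeries A :=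
  PowerSeries.C ((etaExp L : A) * (η - 1)) +
    PowerSeries.C (η * (frickeNat L : A)) * PowerSeries.map (Int.castRingHom A) (tInv L)

theorem map_cuspSer (f : A →+* B) (η : A) :
    PowerSeries.map f (cuspSer L η) = cuspSer L (f η) := by
  have h : ∀ s : PowerSeries ℤ, PowerSeries.map f (PowerSeries.map (Int.castRingHom A) s) =
      PowerSeries.map (Int.castRingHom B) s := fun s => by ext m; simp
  simp [cuspSer, h]

theorem constantCoeff_cuspSer (η : A) :
    PowerSeries.constantCoeff (cuspSer L η) = (etaExp L : A) * (η - 1) := by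
  rw [cuspSer, map_add, PowerSeries.constantCoeff_C, map_mul, PowerSeries.constantCoeff_C,
    ← PowerSeries.coeff_zero_eq_constantCoeff_apply, PowerSeries.coeff_map,
    PowerSeries.coeff_zero_eq_constantCoeff_apply, constantCoeff_tInv, map_zero, mul_zero,
    add_zero]

theorem coeff_one_cuspSer (η : A) :
    PowerSeries.coeff 1 (cuspSer L η) = η * (frickeNat L : A) := by
  rw [cuspSer, map_add, PowerSeries.coeff_C_mul, PowerSeries.coeff_map, coeff_one_tInv, map_one,
    mul_one, PowerSeries.coeff_C, if_neg one_ne_zero, zero_add]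

variable {L} {q : ℕ} [hq : Fact q.Prime]

/-- The left side of the relation at the cusp attached to `η`, `X` at `s`, `T` at `s ^ q`. -/
def cuspRel (L : ℕ) [NeZero L] (q : ℕ) [hq : Fact q.Prime] (Φ : ℤ[X][X]) (η : A) : PowerSeries A :=
  Φ.eval₂ (aeval (PowerSeries.expand q hq.out.ne_zero (cuspSer L η))).toRingHom
    (cuspSer L (η ^ q))

/-- The same with `X` at `s ^ q`, `T` at `s`. -/
def cuspRelSwap (L : ℕ) [NeZero L] (q : ℕ) [hq : Fact q.Prime] (Φ : ℤ[X][X]) (η : A) :
    PowerSeries A :=
  Φ.eval₂ (aeval (cuspSer L η)).toRingHom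
    (PowerSeries.expand q hq.out.ne_zero (cuspSer L (η ^ q)))

theorem map_cuspRel (Φ : ℤ[X][X]) (f : A →+* B) (η : A) :
    PowerSeries.map f (cuspRel L q Φ η) = cuspRel L q Φ (f η) := by
  rw [cuspRel, cuspRel, hom_eval₂, map_cuspSer, map_pow]
  congr 1
  refine Polynomial.ringHom_ext' (RingHom.ext_int _ _) ?_
  simp [PowerSeries.map_expand, map_cuspSer]

theorem map_cuspRelSwap (Φ : ℤ[X][X]) (f : A →+* B) (η : A) :
    PowerSeries.map f (cuspRelSwap L q Φ η) = cuspRelSwap L q Φ (f η) := by
  rw [cuspRelSwap, cuspRelSwap, hom_eval₂, PowerSeries.map_expand, map_cuspSer, map_pow]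
  congr 1
  refine Polynomial.ringHom_ext' (RingHom.ext_int _ _) ?_
  simp [map_cuspSer]

/-- An integral polynomial vanishing at all complex `ℓ`-th roots of unity vanishes at every
`ℓ`-th root of unity. -/
theorem aeval_eq_zero_of_roots_of_unity {ℓ : ℕ} (hℓ : 0 < ℓ) (p : ℤ[X])
    (hp : ∀ z : ℂ, z ^ ℓ = 1 → aeval z p = 0) {R : Type*} [CommRing R] {η : R} (hη : η ^ ℓ = 1) :
    aeval η p = 0 := by
  classical
  have hm : (X ^ ℓ - C (1 : ℤ)).Monic := monic_X_pow_sub_C _ hℓ.ne'
  set r := p %ₘ (X ^ ℓ - C (1 : ℤ)) with hr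
  have hpr : ∀ {S : Type} [CommRing S] (z : S), z ^ ℓ = 1 → aeval z r = aeval z p := fun z hz => by
    rw [hr, modByMonic_eq_sub_mul_div, map_sub, map_mul]
    simp [hz]
  suffices r = 0 by
    have h := congrArg (aeval η) (modByMonic_add_div p (X ^ ℓ - C (1 : ℤ)))
    rw [← hr, this, zero_add, map_mul] at h
    rw [← h]
    simp [hη]
  by_contra hr0
  have hdeg : r.natDegree < ℓ := by
    have := natDegree_modByMonic_lt p hm fun h1 => by
      have := congrArg natDegree h1
      rw [natDegree_X_pow_sub_C, natDegree_one] at this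
      omega
    rwa [natDegree_X_pow_sub_C] at this
  have hprim := Complex.isPrimitiveRoot_exp ℓ hℓ.ne'
  have hsub : (Polynomial.nthRootsFinset ℓ (1 : ℂ)) ⊆ (r.map (Int.castRingHom ℂ)).roots.toFinset := by
    intro z hz
    rw [Polynomial.mem_nthRootsFinset hℓ] at hz
    rw [Multiset.mem_toFinset, mem_roots (by
      rwa [Ne, Polynomial.map_eq_zero_iff (Int.castRingHom ℂ).injective_int]), IsRoot, eval_map,
      show Int.castRingHom ℂ = algebraMap ℤ ℂ from RingHom.ext_int _ _]
    show aeval z r = 0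
    rw [hpr z hz, hp z hz]
  have h1 := Finset.card_le_card hsub
  rw [hprim.card_nthRootsFinset] at h1
  have h2 := h1.trans ((Multiset.toFinset_card_le _).trans (Polynomial.card_roots' _))
  have h3 : (r.map (Int.castRingHom ℂ)).natDegree ≤ r.natDegree := natDegree_map_le
  omega

/-- From `ℂ` to every ring. -/
theorem cuspRel_eq_zero_of_complex (Φ : ℤ[X][X]) {ℓ : ℕ} (hℓ : 0 < ℓ)
    (h : ∀ z : ℂ, z ^ ℓ = 1 → cuspRel L q Φ z = 0 ∧ cuspRelSwap L q Φ z = 0) {η : A}
    (hη : η ^ ℓ = 1) : cuspRel L q Φ η = 0 ∧ cuspRelSwap L q Φ η = 0 := by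
  constructor
  · rw [show η = (aeval η : ℤ[X] →ₐ[ℤ] A).toRingHom X from (aeval_X η).symm, ← map_cuspRel]
    ext m
    rw [PowerSeries.coeff_map, map_zero]
    refine aeval_eq_zero_of_roots_of_unity hℓ _ (fun z hz => ?_) hη
    have h1 := congrArg (PowerSeries.coeff m) (h z hz).1
    rw [map_zero, show z = (aeval z : ℤ[X] →ₐ[ℤ] ℂ).toRingHom X from (aeval_X z).symm,
      ← map_cuspRel, PowerSeries.coeff_map] at h1
    simpa using h1
  · rw [show η = (aeval η : ℤ[X] →ₐ[ℤ] A).toRingHom X from (aeval_X η).symm, ← map_cuspRelSwap]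
    ext m
    rw [PowerSeries.coeff_map, map_zero]
    refine aeval_eq_zero_of_roots_of_unity hℓ _ (fun z hz => ?_) hη
    have h1 := congrArg (PowerSeries.coeff m) (h z hz).2
    rw [map_zero, show z = (aeval z : ℤ[X] →ₐ[ℤ] ℂ).toRingHom X from (aeval_X z).symm,
      ← map_cuspRelSwap, PowerSeries.coeff_map] at h1
    simpa using h1

end FLTA.Carayol.Haupt
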