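import Fermat.Agent.Carayol.Haupt.Series
import Fermat.Agent.Bridge.JExpansion
import Fermat.Agent.Bridge.ModHol
import Fermat.Agent.Gamma0.Complex.Main
import Mathlib.Analysis.Convex.Contractible
import Mathlib.Topology.Separation.Connected

/-!
# The eta quotient `t` as a function on the upper half plane

`tFun L τ = e(-τ) (∏ (1 - qⁿ) / ∏ (1 - q^{Ln}))^k`.  Its `(L-1)`-st power is `Δ(τ)/Δ(Lτ)`; along
each of the three types of representatives of `Γ₀(L) \ SL(2,ℤ)` it is explicit and periodic, so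
the character by which `Γ₀(L)` acts is parabolic, hence trivial as the genus is zero.
-/

set_option autoImplicit false

noncomputable section

open UpperHalfPlane Function CongruenceSubgroup FLTA.Bridge
open scoped MatrixGroups Topology Manifold ModularForm

namespace FLTA.Carayol.Haupt

theorem isEtaLevel_mul {L : ℕ} (hL : IsHauptLevel L) : etaExp L * (L - 1) = 24 := by
  rcases hL with rfl | rfl <;> rfl

theorem IsHauptLevel.exists_sq {L : ℕ} (hL : IsHauptLevel L) :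
    ∃ ℓ : ℕ, ℓ.Prime ∧ (ℓ = 2 ∨ ℓ = 3) ∧ L = ℓ * ℓ := by
  rcases hL with rfl | rfl
  · exact ⟨2, Nat.prime_two, Or.inl rfl, rfl⟩
  · exact ⟨3, Nat.prime_three, Or.inr rfl, rfl⟩

variable (L : ℕ) [NeZero L]

/-- The Hauptmodul as a function. -/
def tFun (τ : ℍ) : ℂ :=
  (qFun τ)⁻¹ * (eulerFun τ ^ etaExp L / eulerFun (scaleTau L τ) ^ etaExp L)

theorem tFun_ne_zero (τ : ℍ) : tFun L τ ≠ 0 := by
  simp [tFun, qFun_ne_zero, eulerFun_ne_zero]

theorem qFun_scaleTau (τ : ℍ) : qFun (scaleTau L τ) = qFun τ ^ L :=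
  qParam_scaleTau L τ

theorem tFun_pow (hL : IsHauptLevel L) (τ : ℍ) :
    tFun L τ ^ (L - 1) =
      ModularForm.discriminant τ / ModularForm.discriminant (scaleTau L τ) := by
  rw [discriminant_eq_qFun_mul, discriminant_eq_qFun_mul, qFun_scaleTau, tFun, mul_pow, div_pow,
    ← pow_mul, ← pow_mul, isEtaLevel_mul hL]
  obtain ⟨l, hl⟩ : ∃ l, L = l + 1 := ⟨L - 1, by have := NeZero.pos L; omega⟩
  have hq := qFun_ne_zero τ
  have h2 := eulerFun_ne_zero (scaleTau L τ)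
  rw [show L - 1 = l by omega, inv_pow,
    show qFun τ ^ L = qFun τ ^ l * qFun τ from (congrArg (qFun τ ^ ·) hl).trans (pow_succ _ _)]
  field_simp

/-- A continuous nowhere vanishing function with constant power is constant. -/
theorem eq_of_pow_const {f : ℍ → ℂ} (hf : Continuous f) {m : ℕ} (hm : 0 < m) {c : ℂ}
    (h : ∀ τ, f τ ^ m = c) (τ σ : ℍ) : f τ = f σ := by
  have hfin : (Set.range f).Finite := by
    refine (Polynomial.nthRootsFinset m c).finite_toSet.subset ?_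
    rintro _ ⟨z, rfl⟩
    rw [Finset.mem_coe, Polynomial.mem_nthRootsFinset hm]
    exact h z
  by_contra hne
  exact IsPreconnected.infinite_of_nontrivial (isPreconnected_range hf)
    ⟨_, ⟨τ, rfl⟩, _, ⟨σ, rfl⟩, hne⟩ hfin

theorem continuous_scaleTau : Continuous (scaleTau L) := by
  rw [isEmbedding_coe.continuous_iff]
  show Continuous fun τ : ℍ => (L : ℂ) * (τ : ℂ)
  exact continuous_const.mul continuous_coe

theorem continuous_qFun : Continuous qFun := by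
  show Continuous fun τ : ℍ => Function.Periodic.qParam 1 (τ : ℂ)
  exact (Function.Periodic.differentiable_qParam.continuous).comp continuous_coe

theorem continuous_eulerFun : Continuous eulerFun :=
  differentiableOn_eulerProd.continuousOn.comp_continuous continuous_qFun qParam_mem_ball

theorem continuous_tFun : Continuous (tFun L) := by
  refine (continuous_qFun.inv₀ qFun_ne_zero).mul ?_
  exact (continuous_eulerFun.pow _).div
    ((continuous_eulerFun.comp (continuous_scaleTau L)).pow _)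
    fun τ => pow_ne_zero _ (eulerFun_ne_zero _)

theorem discriminant_smul (g : SL(2, ℤ)) (τ : ℍ) :
    ModularForm.discriminant (g • τ) =
      ((g.1 1 0 : ℂ) * τ + g.1 1 1) ^ (12 : ℕ) * ModularForm.discriminant τ := by
  have hne := denom_ne_zero (Matrix.SpecialLinearGroup.mapGL ℝ g) τ
  have h := congrFun (SlashInvariantFormClass.slash_action_eq CuspForm.discriminant _
    (⟨g, rfl⟩ : _ ∈ 𝒮ℒ)) τ
  change (ModularForm.discriminant ∣[(12 : ℤ)] g) τ = ModularForm.discriminant τ at h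
  rw [ModularForm.SL_slash_apply] at h
  rw [← h]
  simp [denom] at hne ⊢
  field_simp

/-! ### The Fricke involution -/

theorem scaleTau_S_smul (τ : ℍ) :
    scaleTau L (ModularGroup.S • scaleTau L τ) = ModularGroup.S • τ := by
  apply UpperHalfPlane.ext
  rw [coe_scaleTau, modular_S_smul, modular_S_smul]
  show (L : ℂ) * (-((L : ℂ) * (τ : ℂ)))⁻¹ = (-(τ : ℂ))⁻¹
  have h1 : (τ : ℂ) ≠ 0 := ne_zero τ
  have h2 : (L : ℂ) ≠ 0 := by exact_mod_cast NeZero.ne L
  field_simp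

theorem tFun_fricke_pow (hL : IsHauptLevel L) (τ : ℍ) :
    (tFun L (ModularGroup.S • scaleTau L τ) * tFun L τ) ^ (L - 1) = (L : ℂ) ^ 12 := by
  rw [mul_pow, tFun_pow L hL, tFun_pow L hL, scaleTau_S_smul, discriminant_smul, discriminant_smul]
  have h1 := ModularForm.discriminant_ne_zero τ
  have h2 := ModularForm.discriminant_ne_zero (scaleTau L τ)
  have h3 : (τ : ℂ) ≠ 0 := ne_zero τ
  simp [ModularGroup.coe_S, coe_scaleTau]
  field_simp

/-- The constant of the Fricke involution. -/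
def frickeConst : ℂ :=
  tFun L (ModularGroup.S • scaleTau L UpperHalfPlane.I) * tFun L UpperHalfPlane.I

theorem frickeConst_ne_zero : frickeConst L ≠ 0 :=
  mul_ne_zero (tFun_ne_zero L _) (tFun_ne_zero L _)

theorem tFun_fricke (hL : IsHauptLevel L) (τ : ℍ) :
    tFun L (ModularGroup.S • scaleTau L τ) * tFun L τ = frickeConst L := by
  refine eq_of_pow_const (f := fun z => tFun L (ModularGroup.S • scaleTau L z) * tFun L z)
    (((continuous_tFun L).comp ((continuous_smul_SL2Z _).comp (continuous_scaleTau L))).mul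
      (continuous_tFun L)) (by rcases hL with rfl | rfl <;> norm_num) (tFun_fricke_pow L hL) τ _

/-! ### The middle cusps -/

/-- `(1 0; a 1)`. -/
def lowerU (a : ℤ) : SL(2, ℤ) := ⟨!![1, 0; a, 1], by simp [Matrix.det_fin_two_of]⟩

@[simp] theorem coe_lowerU (a : ℤ) : (lowerU a).1 = !![1, 0; a, 1] := rfl

/-- Translation by `i/ℓ`. -/
def shiftBy (ℓ : ℕ) (i : ℤ) (τ : ℍ) : ℍ := ((i : ℝ) / ℓ) +ᵥ τ

theorem coe_shiftBy (ℓ : ℕ) (i : ℤ) (τ : ℍ) :
    (shiftBy ℓ i τ : ℂ) = (τ : ℂ) + (i : ℂ) / ℓ := by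
  rw [shiftBy, coe_vadd]; push_cast; ring

theorem continuous_shiftBy (ℓ : ℕ) (i : ℤ) : Continuous (shiftBy ℓ i) := by
  rw [isEmbedding_coe.continuous_iff]
  show Continuous fun τ : ℍ => (shiftBy ℓ i τ : ℂ)
  simp only [coe_shiftBy]
  exact continuous_coe.add continuous_const

theorem tFun_mid_pow (hL : IsHauptLevel L) {ℓ : ℕ} (hℓ : L = ℓ * ℓ) {i : ℤ} (hi : i * i = 1)
    (τ : ℍ) :
    (tFun L (lowerU (ℓ * i) • τ) * eulerFun (shiftBy ℓ i τ) ^ etaExp L / eulerFun τ ^ etaExp L)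
        ^ (L - 1) = (ℓ : ℂ) ^ 12 * (qFun τ / qFun (shiftBy ℓ i τ)) := by
  set σ := shiftBy ℓ i τ with hσ
  let h : SL(2, ℤ) := ⟨!![(ℓ : ℤ), -i; i, 0], by rw [Matrix.det_fin_two_of]; linarith⟩
  have hℓ0 : (ℓ : ℂ) ≠ 0 := by
    have := NeZero.ne L
    rw [hℓ] at this
    exact_mod_cast left_ne_zero_of_mul this
  have hden : ((ℓ : ℂ) * i) * τ + 1 ≠ 0 := by
    have := denom_ne_zero (Matrix.SpecialLinearGroup.mapGL ℝ (lowerU (ℓ * i))) τ
    simpa [denom] using this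
  have hi' : (i : ℂ) * i = 1 := by exact_mod_cast hi
  have hiσ : (i : ℂ) * σ = (((ℓ : ℂ) * i) * τ + 1) / ℓ := by
    rw [hσ, coe_shiftBy]
    field_simp
    linear_combination hi'
  have hscale : scaleTau L (lowerU (ℓ * i) • τ) = h • σ := by
    apply UpperHalfPlane.ext
    rw [coe_scaleTau, coe_smul_eq, coe_smul_eq]
    simp [h, hℓ]
    rw [hiσ, hσ, coe_shiftBy]
    field_simp
    ring
  rw [mul_div_assoc, mul_pow, tFun_pow L hL, hscale, discriminant_smul, discriminant_smul, div_pow,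
    ← pow_mul, ← pow_mul, isEtaLevel_mul hL, discriminant_eq_qFun_mul, discriminant_eq_qFun_mul]
  have h1 := eulerFun_ne_zero τ
  have h2 := eulerFun_ne_zero σ
  have h3 := qFun_ne_zero σ
  simp [h]
  rw [hiσ]
  field_simp

/-- The constant at the middle cusps. -/
def midConst (ℓ : ℕ) (i : ℤ) : ℂ :=
  tFun L (lowerU (ℓ * i) • UpperHalfPlane.I) * eulerFun (shiftBy ℓ i UpperHalfPlane.I) ^ etaExp L
    / eulerFun UpperHalfPlane.I ^ etaExp L

theorem tFun_mid (hL : IsHauptLevel L) {ℓ : ℕ} (hℓ : L = ℓ * ℓ) {i : ℤ} (hi : i * i = 1)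
    (τ : ℍ) :
    tFun L (lowerU (ℓ * i) • τ) =
      midConst L ℓ i * eulerFun τ ^ etaExp L / eulerFun (shiftBy ℓ i τ) ^ etaExp L := by
  have hc : ∀ z : ℍ, qFun z / qFun (shiftBy ℓ i z) = Complex.exp (-(2 * Real.pi * Complex.I * (i / ℓ))) := by
    intro z
    simp only [qFun, Periodic.qParam, coe_shiftBy, Complex.ofReal_one, div_one]
    rw [← Complex.exp_sub]
    ring_nf
  have key := eq_of_pow_const
    (f := fun z => tFun L (lowerU (ℓ * i) • z) * eulerFun (shiftBy ℓ i z) ^ etaExp L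
      / eulerFun z ^ etaExp L)
    ((((continuous_tFun L).comp (continuous_smul_SL2Z _)).mul
      ((continuous_eulerFun.comp (continuous_shiftBy ℓ i)).pow _)).div
      (continuous_eulerFun.pow _) fun z => pow_ne_zero _ (eulerFun_ne_zero z))
    (by rcases hL with rfl | rfl <;> norm_num)
    (fun z => (tFun_mid_pow L hL hℓ hi z).trans (by rw [hc z])) τ UpperHalfPlane.I
  rw [midConst, ← key]
  have h1 := eulerFun_ne_zero τ
  have h2 := eulerFun_ne_zero (shiftBy ℓ i τ)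
  field_simp

/-! ### Periodicity -/

theorem qFun_vadd_int (n : ℤ) (τ : ℍ) : qFun ((n : ℝ) +ᵥ τ) = qFun τ := by
  simp only [qFun, coe_vadd, Periodic.qParam, Complex.ofReal_one, div_one, mul_add, Complex.exp_add,
    Complex.ofReal_intCast]
  rw [mul_comm (2 * (Real.pi : ℂ) * Complex.I) (n : ℂ), Complex.exp_int_mul_two_pi_mul_I, one_mul]

theorem eulerFun_vadd_int (n : ℤ) (τ : ℍ) : eulerFun ((n : ℝ) +ᵥ τ) = eulerFun τ :=
  congrArg eulerProd (qFun_vadd_int n τ)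

theorem scaleTau_vadd (n : ℤ) (τ : ℍ) :
    scaleTau L ((n : ℝ) +ᵥ τ) = (((L * n : ℤ)) : ℝ) +ᵥ scaleTau L τ := by
  apply UpperHalfPlane.ext
  simp only [coe_scaleTau, coe_vadd]
  push_cast
  ring

theorem tFun_vadd_int (n : ℤ) (τ : ℍ) : tFun L ((n : ℝ) +ᵥ τ) = tFun L τ := by
  rw [tFun, tFun, qFun_vadd_int, eulerFun_vadd_int, scaleTau_vadd, eulerFun_vadd_int]

/-! ### Representatives -/

omit [NeZero L] in
/-- Decomposition along the cusps. -/
theorem exists_rep {ℓ : ℕ} (hℓp : ℓ.Prime) (hℓ : ℓ = 2 ∨ ℓ = 3) (hL : L = ℓ * ℓ) (g : SL(2, ℤ)) :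
    g ∈ Gamma0 L ∨ (∃ γ ∈ Gamma0 L, ∃ j : ℤ, g = γ * (ModularGroup.S * ModularGroup.T ^ j)) ∨
      ∃ γ ∈ Gamma0 L, ∃ i : ℤ, i * i = 1 ∧ g = γ * lowerU (ℓ * i) := by
  have hdet := g.det_coe
  rw [Matrix.det_fin_two] at hdet
  have key : ∀ r : SL(2, ℤ), (g * r⁻¹) ∈ Gamma0 L → ∃ γ ∈ Gamma0 L, g = γ * r := fun r hr =>
    ⟨_, hr, by group⟩
  by_cases hc : (ℓ : ℤ) ∣ g.1 1 0
  · obtain ⟨c, hc⟩ := hc
    by_cases hc2 : (ℓ : ℤ) ∣ c
    · left
      rw [Gamma0_mem, ZMod.intCast_zmod_eq_zero_iff_dvd, hc, hL]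
      push_cast
      exact mul_dvd_mul_left _ hc2
    · have hd : ¬ (ℓ : ℤ) ∣ g.1 1 1 := by
        intro h
        have : (ℓ : ℤ) ∣ g.1 0 0 * g.1 1 1 - g.1 0 1 * g.1 1 0 :=
          dvd_sub (h.mul_left _) ((Dvd.intro _ hc.symm).mul_left _)
        rw [hdet] at this
        have h1 := Int.le_of_dvd one_pos this
        rcases hℓ with rfl | rfl <;> omega
      obtain ⟨i, hi, hdvd⟩ : ∃ i : ℤ, i * i = 1 ∧ (ℓ : ℤ) ∣ c - i * g.1 1 1 := by
        rcases hℓ with rfl | rfl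
        · exact ⟨1, by norm_num, by omega⟩
        ·
          have h1 : c % 3 = 1 ∨ c % 3 = 2 := by push_cast at hc2; omega
          have h2 : g.1 1 1 % 3 = 1 ∨ g.1 1 1 % 3 = 2 := by push_cast at hd; omega
          rcases (show ((3 : ℤ) ∣ c - g.1 1 1) ∨ (3 : ℤ) ∣ c + g.1 1 1 by
            rcases h1 with h1 | h1 <;> rcases h2 with h2 | h2 <;> omega) with h | h
          · exact ⟨1, by norm_num, by simpa using h⟩
          · exact ⟨-1, by norm_num, by simpa using h⟩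
      right; right
      have hm : g * (lowerU (ℓ * i))⁻¹ ∈ Gamma0 L := by
        rw [Gamma0_mem, ZMod.intCast_zmod_eq_zero_iff_dvd]
        simp [Matrix.mul_apply, Fin.sum_univ_two, Matrix.adjugate_fin_two, hc, hL]
        obtain ⟨u, hu⟩ := hdvd
        exact ⟨u, by linear_combination (ℓ : ℤ) * hu⟩
      obtain ⟨γ, hγ, e⟩ := key _ hm
      exact ⟨γ, hγ, i, hi, e⟩
  · right; left
    have hcop : IsCoprime (g.1 1 0) (L : ℤ) := by
      have h1 : IsCoprime (g.1 1 0) (ℓ : ℤ) :=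
        ((Nat.prime_iff_prime_int.mp hℓp).coprime_iff_not_dvd.2 hc).symm
      rw [hL]; push_cast
      exact h1.mul_right h1
    obtain ⟨u, v, huv⟩ := hcop
    have hm : g * (ModularGroup.S * ModularGroup.T ^ (u * g.1 1 1))⁻¹ ∈ Gamma0 L := by
      rw [Gamma0_mem, ZMod.intCast_zmod_eq_zero_iff_dvd]
      have hT : (ModularGroup.T ^ (u * g.1 1 1))⁻¹ = ModularGroup.T ^ (-(u * g.1 1 1)) :=
        (zpow_neg _ _).symm
      rw [mul_inv_rev, hT]
      simp [Matrix.mul_apply, Fin.sum_univ_two, Matrix.adjugate_fin_two, ModularGroup.coe_S,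
        ModularGroup.coe_T_zpow]
      exact ⟨-(v * g.1 1 1), by linear_combination (g.1 1 1) * huv⟩
    obtain ⟨γ, hγ, e⟩ := key _ hm
    exact ⟨γ, hγ, _, e⟩

/-! ### Invariance -/

theorem tFun_smul_pow (hL : IsHauptLevel L) {γ : SL(2, ℤ)} (hγ : γ ∈ Gamma0 L) (τ : ℍ) :
    (tFun L (γ • τ) / tFun L τ) ^ (L - 1) = 1 := by
  rw [Gamma0_mem, ZMod.intCast_zmod_eq_zero_iff_dvd] at hγ
  obtain ⟨u, hu⟩ := hγ
  have hdet := γ.det_coe
  rw [Matrix.det_fin_two] at hdet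
  let γ' : SL(2, ℤ) := ⟨!![γ.1 0 0, L * γ.1 0 1; u, γ.1 1 1], by
    rw [Matrix.det_fin_two_of]; linear_combination hdet + γ.1 0 1 * hu⟩
  have huC : (γ.1 1 0 : ℂ) = (L : ℂ) * u := by exact_mod_cast hu
  have hsc : scaleTau L (γ • τ) = γ' • scaleTau L τ := by
    apply UpperHalfPlane.ext
    rw [coe_scaleTau, coe_smul_eq, coe_smul_eq, coe_scaleTau]
    simp [γ', huC]
    ring
  have hne : ((γ.1 1 0 : ℂ) * τ + γ.1 1 1) ≠ 0 := by
    have := denom_ne_zero (Matrix.SpecialLinearGroup.mapGL ℝ γ) τ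
    simpa [denom] using this
  have hJ : ((γ'.1 1 0 : ℂ) * (scaleTau L τ : ℂ) + γ'.1 1 1) = (γ.1 1 0 : ℂ) * τ + γ.1 1 1 := by
    simp [γ', huC, coe_scaleTau]
    ring
  rw [div_pow, tFun_pow L hL, tFun_pow L hL, hsc, discriminant_smul, discriminant_smul, hJ]
  have h1 := ModularForm.discriminant_ne_zero τ
  have h2 := ModularForm.discriminant_ne_zero (scaleTau L τ)
  field_simp

/-- The multiplier of `γ`. -/
def mult (γ : Gamma0 L) : ℂ := tFun L ((γ : SL(2, ℤ)) • UpperHalfPlane.I) / tFun L UpperHalfPlane.I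

theorem mult_ne_zero (γ : Gamma0 L) : mult L γ ≠ 0 :=
  div_ne_zero (tFun_ne_zero L _) (tFun_ne_zero L _)

theorem tFun_smul_eq_mult (hL : IsHauptLevel L) (γ : Gamma0 L) (τ : ℍ) :
    tFun L ((γ : SL(2, ℤ)) • τ) = mult L γ * tFun L τ := by
  have h := eq_of_pow_const (f := fun z => tFun L ((γ : SL(2, ℤ)) • z) / tFun L z)
    (((continuous_tFun L).comp (continuous_smul_SL2Z _)).div (continuous_tFun L) (tFun_ne_zero L))
    (by rcases hL with rfl | rfl <;> norm_num) (fun z => tFun_smul_pow L hL γ.2 z) τ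
    UpperHalfPlane.I
  rw [mult, ← h, div_mul_cancel₀ _ (tFun_ne_zero L _)]

/-- The character by which `Γ₀(L)` acts on `t`. -/
def multHom (hL : IsHauptLevel L) : Additive (Gamma0 L) →+ Additive ℂˣ :=
  AddMonoidHom.mk' (fun γ => Additive.ofMul (Units.mk0 (mult L γ.toMul) (mult_ne_zero L _)))
    fun γ δ => by
      refine congrArg Additive.ofMul (Units.ext ?_)
      show mult L (γ.toMul * δ.toMul) = mult L γ.toMul * mult L δ.toMul
      have h1 := tFun_smul_eq_mult L hL (γ.toMul * δ.toMul) UpperHalfPlane.I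
      rw [Subgroup.coe_mul, mul_smul, tFun_smul_eq_mult L hL γ.toMul,
        tFun_smul_eq_mult L hL δ.toMul, ← mul_assoc] at h1
      exact (mul_right_cancel₀ (tFun_ne_zero L _) h1).symm

theorem T_zpow_smul_eq (n : ℤ) (τ : ℍ) : ModularGroup.T ^ n • τ = (n : ℝ) +ᵥ τ :=
  modular_T_zpow_smul τ n

/-- Powers of the conjugates of `T` fixing a representative of a cusp. -/
theorem tFun_conj_T {L : ℕ} [NeZero L] (hL : IsHauptLevel L) {r : SL(2, ℤ)} {n : ℤ}
    (hr : r = 1 ∨ (r = ModularGroup.S ∧ (L : ℤ) ∣ n) ∨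
      ∃ ℓ : ℕ, ∃ i : ℤ, L = ℓ * ℓ ∧ i * i = 1 ∧ r = lowerU (ℓ * i))
    (τ : ℍ) : tFun L (r • ((n : ℝ) +ᵥ τ)) = tFun L (r • τ) := by
  rcases hr with rfl | ⟨rfl, k, rfl⟩ | ⟨ℓ, i, hℓ, hi, rfl⟩
  · simp [tFun_vadd_int]
  · have hL0 : (L : ℂ) ≠ 0 := by exact_mod_cast NeZero.ne L
    have hsurj : ∀ z : ℍ, ∃ w : ℍ, scaleTau L w = z := fun z => by
      have hpos : (0 : ℝ) < L := by exact_mod_cast Nat.pos_of_ne_zero (NeZero.ne L)
      refine ⟨⟨(z : ℂ) / L, by rw [Complex.div_natCast_im]; exact div_pos z.im_pos hpos⟩, ?_⟩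
      apply UpperHalfPlane.ext
      rw [coe_scaleTau]
      field_simp
    obtain ⟨w, hw⟩ := hsurj τ
    have e : (((L : ℤ) * k : ℤ) : ℝ) +ᵥ τ = scaleTau L ((k : ℝ) +ᵥ w) := by
      rw [← hw, scaleTau_vadd]
    have h1 := tFun_fricke L hL ((k : ℝ) +ᵥ w)
    have h2 := tFun_fricke L hL w
    rw [← e, tFun_vadd_int] at h1
    rw [hw] at h2
    exact mul_right_cancel₀ (tFun_ne_zero L w) (h1.trans h2.symm)
  · have e : shiftBy ℓ i ((n : ℝ) +ᵥ τ) = (n : ℝ) +ᵥ shiftBy ℓ i τ := by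
      simp only [shiftBy, vadd_vadd, add_comm]
    rw [tFun_mid L hL hℓ hi, tFun_mid L hL hℓ hi, e, eulerFun_vadd_int, eulerFun_vadd_int]

theorem sq_sub_not_mem {γ : SL(2, ℤ)} (hL : IsHauptLevel L) (hγ : γ ∈ Gamma0 L) :
    ¬ (γ : Matrix (Fin 2) (Fin 2) ℤ).trace ^ 2 < 4 := by
  intro h
  rw [Gamma0_mem, ZMod.intCast_zmod_eq_zero_iff_dvd] at hγ
  obtain ⟨u, hu⟩ := hγ
  have hdet := γ.det_coe
  rw [Matrix.det_fin_two, hu] at hdet
  rw [Matrix.trace_fin_two] at h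
  obtain ⟨t, ht, ht1, ht2⟩ : ∃ t : ℤ, γ.1 1 1 = t - γ.1 0 0 ∧ -1 ≤ t ∧ t ≤ 1 :=
    ⟨γ.1 0 0 + γ.1 1 1, by ring, by nlinarith, by nlinarith⟩
  rw [ht] at hdet
  rcases hL with rfl | rfl
  · have h4 : ((γ.1 0 0 : ℤ) : ZMod 4) * (t - γ.1 0 0 : ℤ) = 1 := by
      have := congrArg (Int.cast : ℤ → ZMod 4) hdet
      push_cast at this ⊢
      rw [show (4 : ZMod 4) = 0 from rfl] at this
      linear_combination this
    revert h4
    interval_cases t <;> push_cast <;> generalize ((γ.1 0 0 : ℤ) : ZMod 4) = x <;> revert x <;> decide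
  · have h9 : ((γ.1 0 0 : ℤ) : ZMod 9) * (t - γ.1 0 0 : ℤ) = 1 := by
      have := congrArg (Int.cast : ℤ → ZMod 9) hdet
      push_cast at this ⊢
      rw [show (9 : ZMod 9) = 0 from rfl] at this
      linear_combination this
    revert h9
    interval_cases t <;> push_cast <;> generalize ((γ.1 0 0 : ℤ) : ZMod 9) = x <;> revert x <;> decide

theorem multHom_isParHom0 (hL : IsHauptLevel L) :
    FLTA.Gamma0.IsParHom0 (Gamma0 L) (multHom L hL) := by
  intro γ hγ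
  suffices H : ∃ τ : ℍ, tFun L ((γ : SL(2, ℤ)) • τ) = tFun L τ by
    obtain ⟨τ, hτ⟩ := H
    rw [tFun_smul_eq_mult L hL] at hτ
    refine congrArg Additive.ofMul (Units.ext ?_)
    exact (mul_eq_right₀ (tFun_ne_zero L τ)).mp hτ
  have ht : (γ : SL(2, ℤ)).1.trace ^ 2 = 4 :=
    le_antisymm hγ (not_lt.1 (sq_sub_not_mem L hL γ.2))
  obtain ⟨δ, n, hδ⟩ := FLTA.Gamma0.ConjClass.exists_conj_eq_T_zpow _ ht
  obtain ⟨ℓ, hℓp, hℓ, hℓL⟩ := hL.exists_sq
  -- write the conjugator through a representative of a cusp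
  obtain ⟨e₀, he₀, r, j, hrep, hr⟩ : ∃ e₀ ∈ Gamma0 L, ∃ r : SL(2, ℤ), ∃ j : ℤ,
      δ⁻¹ = e₀ * r * ModularGroup.T ^ j ∧
      (r = 1 ∨ r = ModularGroup.S ∨ ∃ i : ℤ, i * i = 1 ∧ r = lowerU (ℓ * i)) := by
    rcases exists_rep L hℓp hℓ hℓL δ⁻¹ with h | ⟨e₀, he₀, j, h⟩ | ⟨e₀, he₀, i, hi, h⟩
    · exact ⟨δ⁻¹, h, 1, 0, by simp, Or.inl rfl⟩
    · exact ⟨e₀, he₀, _, j, by rw [h, mul_assoc], Or.inr (Or.inl rfl)⟩
    · exact ⟨e₀, he₀, _, 0, by rw [h, zpow_zero, mul_one], Or.inr (Or.inr ⟨i, hi, rfl⟩)⟩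
  set g := e₀⁻¹ * (γ : SL(2, ℤ)) * e₀ with hg
  have hgmem : g ∈ Gamma0 L := mul_mem (mul_mem (inv_mem he₀) γ.2) he₀
  have hgr : g = r * ModularGroup.T ^ n * r⁻¹ ∨ g = -(r * ModularGroup.T ^ n * r⁻¹) := by
    have hd : δ = (e₀ * r * ModularGroup.T ^ j)⁻¹ := by rw [← hrep, inv_inv]
    rcases hδ with h | h
    · left
      have : (γ : SL(2, ℤ)) = δ⁻¹ * ModularGroup.T ^ n * δ := by rw [← h]; group
      rw [hg, this, hd]
      group
    · right
      have : (γ : SL(2, ℤ)) = δ⁻¹ * -ModularGroup.T ^ n * δ := by rw [← h]; group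
      rw [hg, this, hd]
      simp only [mul_neg, neg_mul]
      congr 1
      group
  have hfix : tFun L (g • r • UpperHalfPlane.I) = tFun L (r • UpperHalfPlane.I) := by
    have e : g • r • UpperHalfPlane.I = r • ((n : ℝ) +ᵥ UpperHalfPlane.I) := by
      rcases hgr with h | h <;> rw [h]
      · rw [mul_smul, mul_smul, inv_smul_smul, T_zpow_smul_eq]
      · rw [ModularGroup.SL_neg_smul, mul_smul, mul_smul, inv_smul_smul, T_zpow_smul_eq]
    rw [e]
    refine tFun_conj_T hL ?_ _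
    rcases hr with rfl | rfl | ⟨i, hi, rfl⟩
    · exact Or.inl rfl
    · refine Or.inr (Or.inl ⟨rfl, ?_⟩)
      have hg0 := hgmem
      rw [Gamma0_mem, ZMod.intCast_zmod_eq_zero_iff_dvd] at hg0
      rcases hgr with h | h <;> rw [h] at hg0 <;>
        simpa [Matrix.mul_apply, Fin.sum_univ_two, Matrix.adjugate_fin_two, ModularGroup.coe_S,
          ModularGroup.coe_T_zpow] using hg0
    · exact Or.inr (Or.inr ⟨ℓ, i, hℓL, hi, rfl⟩)
  refine ⟨e₀ • r • UpperHalfPlane.I, ?_⟩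
  have e : (γ : SL(2, ℤ)) • e₀ • r • UpperHalfPlane.I = e₀ • g • r • UpperHalfPlane.I := by
    rw [hg, smul_smul, smul_smul e₀]
    congr 1
    group
  rw [e, tFun_smul_eq_mult L hL ⟨e₀, he₀⟩, tFun_smul_eq_mult L hL ⟨e₀, he₀⟩, hfix]

theorem parRank_eq_zero (hL : IsHauptLevel L) : FLTA.Gamma0.homRank L = 0 := by
  have h0 : ModularCurve.genusFormula L = 0 := by
    rcases hL with rfl | rfl
    · have h1 : ModularCurve.dedekindPsi 4 = 6 := by decide +kernel
      have h2 : ModularCurve.nuTwo 4 = 0 := by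
        rw [ModularCurve.nuTwo, Nat.card_eq_zero]
        exact Or.inl ⟨fun ⟨x, hx⟩ => absurd hx (by revert x; decide)⟩
      have h3 : ModularCurve.nuThree 4 = 0 := by
        rw [ModularCurve.nuThree, Nat.card_eq_zero]
        exact Or.inl ⟨fun ⟨x, hx⟩ => absurd hx (by revert x; decide)⟩
      have h4 : ModularCurve.cuspCount 4 = 3 := by decide +kernel
      rw [ModularCurve.genusFormula, h1, h2, h3, h4]
      norm_num
    · have h1 : ModularCurve.dedekindPsi 9 = 12 := by decide +kernel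
      have h2 : ModularCurve.nuTwo 9 = 0 := by
        rw [ModularCurve.nuTwo, Nat.card_eq_zero]
        exact Or.inl ⟨fun ⟨x, hx⟩ => absurd hx (by revert x; decide)⟩
      have h3 : ModularCurve.nuThree 9 = 0 := by
        rw [ModularCurve.nuThree, Nat.card_eq_zero]
        exact Or.inl ⟨fun ⟨x, hx⟩ => absurd hx (by revert x; decide)⟩
      have h4 : ModularCurve.cuspCount 9 = 4 := by decide +kernel
      rw [ModularCurve.genusFormula, h1, h2, h3, h4]
      norm_num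
  rw [FLTA.Gamma0.homRank, h0]
  norm_num

theorem eq_zero_of_isParHom0 {L : ℕ} [NeZero L] (h0 : FLTA.Gamma0.homRank L = 0) {M : Type}
    [CommGroup M] (φ : Additive (Gamma0 L) →+ Additive M) (hφ : FLTA.Gamma0.IsParHom0 (Gamma0 L) φ) :
    φ = 0 := by
  have hz : FLTA.Gamma0.IsParHom0 (Gamma0 L) (0 : Additive (Gamma0 L) →+ Additive M) := fun γ _ => rfl
  exact FLTA.Gamma0.homPar0_ext L hφ hz fun i => absurd i.isLt (by omega)

/-- **Invariance.** -/
theorem tFun_smul (hL : IsHauptLevel L) {γ : SL(2, ℤ)} (hγ : γ ∈ Gamma0 L) (τ : ℍ) :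
    tFun L (γ • τ) = tFun L τ := by
  have h0 : ∀ x, multHom L hL x = 0 := fun x => DFunLike.congr_fun
    (eq_zero_of_isParHom0 (M := ℂˣ) (parRank_eq_zero L hL) (multHom L hL) (multHom_isParHom0 L hL)) x
  have h1 : mult L ⟨γ, hγ⟩ = 1 :=
    congrArg (fun x : Additive ℂˣ => ((x.toMul : ℂˣ) : ℂ))
      (h0 (Additive.ofMul ⟨γ, hγ⟩))
  rw [tFun_smul_eq_mult L hL ⟨γ, hγ⟩, h1, one_mul]

end FLTA.Carayol.Haupt
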