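import Fermat.Agent.Carayol.Haupt.RootProd
import Fermat.Agent.Carayol.Haupt.Hecke
import Fermat.Agent.Igusa.ModPolyAlgebra

/-!
# Existence of the modular equation of a Hauptmodul
-/

set_option autoImplicit false

noncomputable section

open HahnSeries ModularCurve

namespace FLTA.Carayol.Haupt

variable (L : ℕ) [NeZero L]

theorem psum_rootProd_roots (q : ℕ) [NeZero q] {ζ : ℂˣ} (hζ : IsPrimitiveRoot ζ q) (m : ℕ) :
    qExpand ℂ (q * q) (tOf L ℂ) ^ m +
        ∑ i ∈ Finset.range q, FLTA.Igusa.twist (ζ ^ i) (tOf L ℂ) ^ m =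
      qExpand ℂ q (FLTA.Igusa.uOp q (tOf L ℂ ^ m) + qExpand ℂ q (tOf L ℂ ^ m)) := by
  rw [Finset.sum_congr rfl fun i _ => (map_pow (FLTA.Igusa.twist (ζ ^ i)) (tOf L ℂ) m).symm,
    FLTA.Igusa.sum_twist_eq hζ, map_add, qExpand_qExpand, ← map_pow, add_comm]

theorem exists_map_evalTq_eq (hL : IsHauptLevel L) (q : ℕ) [Fact q.Prime] (hqL : ¬ q ∣ L)
    {ζ : ℂˣ} (hζ : IsPrimitiveRoot ζ q) :
    ∃ Φ : Polynomial (Polynomial ℤ), Φ.Monic ∧ Φ.natDegree = q + 1 ∧
      Φ.map (evalTq L ℂ q) = rootProd L ℂ q ζ := by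
  have hq : q.Prime := Fact.out
  set r : Fin (q + 1) → LaurentSeries ℂ := Fin.cons (qExpand ℂ (q * q) (tOf L ℂ))
    fun i => FLTA.Igusa.twist (ζ ^ (i : ℕ)) (tOf L ℂ) with hr
  have hprod : rootProd L ℂ q ζ = ∏ i, (Polynomial.X - Polynomial.C (r i)) :=
    rootProd_eq_prod q ζ
  have hpsum : ∀ m : ℕ, ∑ i, r i ^ m =
      qExpand ℂ q (FLTA.Igusa.uOp q (tOf L ℂ ^ m) + qExpand ℂ q (tOf L ℂ ^ m)) := fun m => by
    rw [← psum_rootProd_roots L q hζ, Fin.sum_univ_succ, hr]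
    simp only [Fin.cons_zero, Fin.cons_succ]
    rw [Fin.sum_univ_eq_sum_range (fun i => FLTA.Igusa.twist (ζ ^ i) (tOf L ℂ) ^ m) q]
  let φC : Polynomial ℂ →+* LaurentSeries ℂ :=
    (qExpand ℂ q).comp (Polynomial.aeval (R := ℂ) (tOf L ℂ)).toRingHom
  have hC : ∀ k, (rootProd L ℂ q ζ).coeff k ∈ φC.range := by
    intro k
    rw [hprod]
    refine FLTA.Igusa.coeff_prod_X_sub_C_mem_of_psum_mem _ (fun j hj => ?_) r (fun m => ?_) k
    · refine ⟨φC (Polynomial.C (j : ℂ)⁻¹), ⟨_, rfl⟩, ?_⟩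
      rw [← map_natCast φC, ← map_mul, ← map_natCast Polynomial.C, ← map_mul,
        inv_mul_cancel₀ (by exact_mod_cast hj), map_one, map_one]
    · obtain ⟨P, hP⟩ := uOp_add_qExpand_tOf_mem_range L hL q hq hqL m
      exact ⟨P, by rw [hpsum]; exact congrArg (qExpand ℂ q) hP⟩
  have hQ : ∀ k, (rootProd L ℂ q ζ).coeff k ∈ (coeffMap (algebraMap ℚ ℂ)).range := by
    intro k
    rw [hprod]
    refine FLTA.Igusa.coeff_prod_X_sub_C_mem_of_psum_mem _ (fun j hj => ?_) r (fun m => ?_) k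
    · refine ⟨coeffMap (algebraMap ℚ ℂ) (HahnSeries.C (j : ℚ)⁻¹), ⟨_, rfl⟩, ?_⟩
      rw [← map_natCast (coeffMap (algebraMap ℚ ℂ)), ← map_mul, ← map_natCast HahnSeries.C,
        ← map_mul, inv_mul_cancel₀ (by exact_mod_cast hj), map_one, map_one]
    · refine ⟨qExpand ℚ q (FLTA.Igusa.uOp q (tOf L ℚ ^ m) + qExpand ℚ q (tOf L ℚ ^ m)), ?_⟩
      rw [hpsum, coeffMap_qExpand, map_add, FLTA.Igusa.coeffMap_uOp, coeffMap_qExpand, map_pow,
        coeffMap_tOf L]
  have hζint : IsIntegral ℤ (ζ : ℂ) :=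
    (IsPrimitiveRoot.coe_units_iff.mpr hζ).isIntegral hq.pos
  let ζ₀ : integralClosure ℤ ℂ := ⟨(ζ : ℂ), hζint⟩
  have hζ₀ : ζ₀ ^ q = 1 := Subtype.ext (by
    simpa [ζ₀] using congrArg Units.val hζ.pow_eq_one)
  let ζ₁ : (integralClosure ℤ ℂ)ˣ := Units.ofPowEqOne ζ₀ q hζ₀ hq.ne_zero
  have hζ₁ : Units.map ((algebraMap (integralClosure ℤ ℂ) ℂ : integralClosure ℤ ℂ →+* ℂ) :
      integralClosure ℤ ℂ →* ℂ) ζ₁ = ζ := Units.ext rfl
  have hO : ∀ k n, IsIntegral ℤ (((rootProd L ℂ q ζ).coeff k).coeff n) := by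
    intro k n
    rw [← hζ₁, ← map_rootProd, Polynomial.coeff_map, coeffMap_coeff]
    exact (((rootProd L _ q ζ₁).coeff k).coeff n).2
  have hZ : rootProd L ℂ q ζ ∈ Polynomial.lifts (evalTq L ℂ q) := by
    rw [Polynomial.lifts_iff_coeff_lifts]
    intro k
    obtain ⟨P, hP⟩ := hC k
    obtain ⟨x, hx⟩ := hQ k
    have hint : ∀ n : ℤ, (Polynomial.aeval (tOf L ℂ) P).coeff n ∈ (Int.castRingHom ℂ).range := by
      intro n
      have h1 : (Polynomial.aeval (tOf L ℂ) P).coeff n =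
          ((rootProd L ℂ q ζ).coeff k).coeff (q * n) := by
        rw [← hP, RingHom.comp_apply, qExpand_coeff_mul]; rfl
      have h2 : IsIntegral ℤ (x.coeff (q * n)) := by
        refine (isIntegral_algebraMap_iff (algebraMap ℚ ℂ).injective).mp ?_
        rw [← coeffMap_coeff, hx]
        exact hO k _
      obtain ⟨z, hz⟩ := IsIntegrallyClosed.isIntegral_iff.mp h2
      exact ⟨z, by rw [h1, ← hx, coeffMap_coeff, ← hz, eq_intCast, eq_intCast, map_intCast]⟩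
    have hPint := coeff_mem_of_coeff_aeval_mem L (Int.castRingHom ℂ).range P hint
    obtain ⟨Q, hQ'⟩ : ∃ Q : Polynomial ℤ, Q.map (Int.castRingHom ℂ) = P :=
      (Polynomial.mem_lifts P).mp ((Polynomial.lifts_iff_coeff_lifts P).mpr hPint)
    refine ⟨Q, ?_⟩
    have hcomp : φC.comp (Polynomial.mapRingHom (Int.castRingHom ℂ)) = evalTq L ℂ q := by
      refine Polynomial.ringHom_ext' (RingHom.ext_int _ _) ?_
      simp [φC, evalTq]
    rw [← hcomp, RingHom.comp_apply, Polynomial.coe_mapRingHom, hQ', hP]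
  have hmonic : (rootProd L ℂ q ζ).Monic := by
    rw [hprod]; exact Polynomial.monic_prod_of_monic _ _ fun i _ => Polynomial.monic_X_sub_C _
  obtain ⟨Φ, hΦ, hdeg, hΦm⟩ := Polynomial.lifts_and_natDegree_eq_and_monic hZ hmonic
  refine ⟨Φ, hΦm, ?_, hΦ⟩
  rw [hdeg, hprod, Polynomial.natDegree_prod_of_monic _ _ fun i _ => Polynomial.monic_X_sub_C _]
  simp

/-- The modular equation exists. -/
theorem exists_isModEq' (hL : IsHauptLevel L) (q : ℕ) [NeZero q] (hq : q.Prime) (hqL : ¬ q ∣ L) :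
    ∃ Φ : Polynomial (Polynomial ℤ), IsModEq q L Φ := by
  have : Fact q.Prime := ⟨hq⟩
  have hprim := Complex.isPrimitiveRoot_exp q hq.ne_zero
  set ζ : ℂˣ := (hprim.isUnit hq.ne_zero).unit
  have hζ : IsPrimitiveRoot ζ q := IsPrimitiveRoot.coe_units_iff.mp hprim
  obtain ⟨Φ, hm, hd, hmap⟩ := exists_map_evalTq_eq L hL q hqL hζ
  have hinj : Function.Injective (coeffMap (Int.castRingHom ℂ)) := fun x y hxy => by
    ext n
    exact (Int.castRingHom ℂ).injective_int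
      (by rw [← coeffMap_coeff, ← coeffMap_coeff, hxy])
  have key : ∀ x : LaurentSeries ℂ, (Polynomial.X - Polynomial.C x) ∣ rootProd L ℂ q ζ →
      Φ.eval₂ (evalTq L ℂ q) x = 0 := fun x hx => by
    rw [← Polynomial.eval_map, hmap]
    exact Polynomial.dvd_iff_isRoot.mp hx
  refine ⟨Φ, hm, hd, ?_, ?_⟩
  · apply hinj
    rw [map_zero, Polynomial.hom_eval₂]
    have e : (coeffMap (Int.castRingHom ℂ)).comp
        (Polynomial.aeval (qExpand ℤ q (tSeries L))).toRingHom = evalTq L ℂ q := by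
      refine Polynomial.ringHom_ext' (RingHom.ext_int _ _) ?_
      simp [evalTq, coeffMap_qExpand, tOf]
    rw [e]
    refine key _ (dvd_mul_of_dvd_right ?_ _)
    refine (dvd_of_eq ?_).trans (Finset.dvd_prod_of_mem _ (Finset.mem_range.mpr hq.pos))
    simp [tOf]
  · apply hinj
    apply qExpand_injective q
    rw [map_zero, map_zero, Polynomial.hom_eval₂, Polynomial.hom_eval₂]
    have e : (qExpand ℂ q).comp ((coeffMap (Int.castRingHom ℂ)).comp
        (Polynomial.aeval (tSeries L)).toRingHom) = evalTq L ℂ q := by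
      refine Polynomial.ringHom_ext' (RingHom.ext_int _ _) ?_
      simp [evalTq, tOf]
    rw [e]
    refine key _ (dvd_mul_of_dvd_left ?_ _)
    rw [coeffMap_qExpand, qExpand_qExpand]
    rfl

end FLTA.Carayol.Haupt
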