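import Fermat.Agent.Carayol.Haupt.Series
import Fermat.Agent.Congruence.FrobeniusField
import Fermat.Agent.Bridge.JExpansion

/-!
# Elementary properties of the series `t`
-/

set_option autoImplicit false

noncomputable section

open Filter

namespace FLTA.Carayol.Haupt

theorem coeff_one_etaProd : PowerSeries.coeff 1 ModularCurve.etaProd = -1 := by
  obtain ⟨M, hM, hM1⟩ := ((FLTA.Bridge.eulerPartial_coeff_eventually 1).and
    (eventually_ge_atTop 1)).exists
  rw [← hM]
  clear hM
  induction M, hM1 using Nat.le_induction with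
  | base => simp [FLTA.Bridge.eulerPartial, Polynomial.coeff_one]
  | succ M hM ih =>
    rw [FLTA.Bridge.eulerPartial, Finset.prod_range_succ, mul_sub, mul_one,
      Polynomial.coeff_sub, Polynomial.coeff_mul_X_pow']
    rw [if_neg (by omega), sub_zero]
    exact ih

theorem one_lt_level {L : ℕ} (hL : IsHauptLevel L) : 1 < L := by
  rcases hL with rfl | rfl <;> norm_num

variable (L : ℕ) [NeZero L]

/-- The unit part of the series `t`. -/
def tUnit : PowerSeries ℤ :=
  ModularCurve.etaProd ^ etaExp L *
    PowerSeries.expand L (NeZero.ne L) (PowerSeries.invOfUnit (ModularCurve.etaProd ^ etaExp L) 1)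

omit [NeZero L] in
theorem constantCoeff_etaPow :
    PowerSeries.constantCoeff (ModularCurve.etaProd ^ etaExp L) = 1 := by
  rw [map_pow, ModularCurve.constantCoeff_etaProd, one_pow]

omit [NeZero L] in
theorem etaPow_mul_inv : ModularCurve.etaProd ^ etaExp L *
    PowerSeries.invOfUnit (ModularCurve.etaProd ^ etaExp L) 1 = 1 :=
  PowerSeries.mul_invOfUnit _ _ (by simpa using constantCoeff_etaPow L)

theorem constantCoeff_tUnit : PowerSeries.constantCoeff (tUnit L) = 1 := by
  simp [tUnit, constantCoeff_etaPow L, PowerSeries.constantCoeff_expand]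

theorem coeff_one_tUnit (hL : IsHauptLevel L) :
    PowerSeries.coeff 1 (tUnit L) = -(etaExp L : ℤ) := by
  have h1 : PowerSeries.coeff 1 (PowerSeries.expand L (NeZero.ne L)
      (PowerSeries.invOfUnit (ModularCurve.etaProd ^ etaExp L) 1)) = 0 :=
    PowerSeries.coeff_expand_of_not_dvd _ _ _ fun h => by
      have := Nat.le_of_dvd one_pos h
      have := one_lt_level hL
      omega
  rw [tUnit, PowerSeries.coeff_one_mul, h1, zero_mul, add_zero, PowerSeries.coeff_one_pow,
    ModularCurve.constantCoeff_etaProd, coeff_one_etaProd, PowerSeries.constantCoeff_expand,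
    PowerSeries.constantCoeff_invOfUnit]
  simp

theorem tSeries_eq :
    tSeries L = HahnSeries.single (-1 : ℤ) 1 * HahnSeries.ofPowerSeries ℤ ℤ (tUnit L) := by
  rw [tSeries, FLTA.Congruence.qExpand_ofPowerSeries, tUnit, map_mul, mul_assoc]

theorem coeff_tSeries (n : ℕ) :
    (tSeries L).coeff ((n : ℤ) - 1) = PowerSeries.coeff n (tUnit L) := by
  rw [tSeries_eq, HahnSeries.coeff_single_mul, one_mul, sub_neg_eq_add, sub_add_cancel,
    HahnSeries.ofPowerSeries_apply_coeff]

theorem coeff_tSeries_neg_one : (tSeries L).coeff (-1) = 1 := by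
  simpa [constantCoeff_tUnit L] using coeff_tSeries L 0

theorem coeff_tSeries_of_lt {n : ℤ} (hn : n < -1) : (tSeries L).coeff n = 0 := by
  rw [tSeries_eq, HahnSeries.coeff_single_mul, one_mul]
  exact ModularCurve.ofPowerSeries_coeff_of_neg _ (by omega)

theorem coeff_tSeries_zero (hL : IsHauptLevel L) : (tSeries L).coeff 0 = -(etaExp L : ℤ) := by
  simpa [coeff_one_tUnit L hL] using coeff_tSeries L 1

end FLTA.Carayol.Haupt
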