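import Fermat.Agent.Carayol.Haupt.Function
import Fermat.Agent.Carayol.Haupt.SeriesLemmas

/-!
# `t` as a holomorphic modular function for `Γ₀(L)`

The limits along the three types of representatives of the cusps, the `q`-expansion, and the
principle that a member of `ModHol L` bounded at every cusp is constant.
-/

set_option autoImplicit false

noncomputable section

open UpperHalfPlane Function CongruenceSubgroup FLTA.Bridge Filter
open scoped MatrixGroups Topology Manifold ModularForm

namespace FLTA.Carayol.Haupt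

/-! ### Limits -/

theorem tendsto_qFun : Tendsto qFun atImInfty (𝓝 0) :=
  UpperHalfPlane.qParam_tendsto_atImInfty (h := (1 : ℝ)) one_pos

theorem tendsto_eulerFun : Tendsto eulerFun atImInfty (𝓝 1) := by
  have := analyticAt_eulerProd.continuousAt.tendsto.comp tendsto_qFun
  rwa [eulerProd_zero] at this

theorem tendsto_vadd_atImInfty (x : ℝ) : Tendsto (fun τ : ℍ => x +ᵥ τ) atImInfty atImInfty := by
  simp only [atImInfty, tendsto_comap_iff]
  exact Tendsto.congr (fun τ => (vadd_im x τ).symm) tendsto_comap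

variable (L : ℕ) [NeZero L]

theorem im_scaleTau (τ : ℍ) : (scaleTau L τ).im = L * τ.im := by
  show (scaleTau L τ : ℂ).im = _
  simp [coe_scaleTau]

theorem tendsto_scaleTau : Tendsto (scaleTau L) atImInfty atImInfty := by
  simp only [atImInfty, tendsto_comap_iff]
  refine Tendsto.congr (fun τ => (im_scaleTau L τ).symm) ?_
  exact tendsto_comap.const_mul_atTop (by exact_mod_cast Nat.pos_of_ne_zero (NeZero.ne L))

/-- `τ ↦ τ / L`. -/
def divTau (τ : ℍ) : ℍ :=
  ⟨(τ : ℂ) / L, by
    rw [Complex.div_natCast_im]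
    exact div_pos τ.im_pos (by exact_mod_cast Nat.pos_of_ne_zero (NeZero.ne L))⟩

theorem scaleTau_divTau (τ : ℍ) : scaleTau L (divTau L τ) = τ := by
  apply UpperHalfPlane.ext
  rw [coe_scaleTau]
  show (L : ℂ) * ((τ : ℂ) / L) = τ
  have : (L : ℂ) ≠ 0 := by exact_mod_cast NeZero.ne L
  field_simp

theorem tendsto_divTau : Tendsto (divTau L) atImInfty atImInfty := by
  simp only [atImInfty, tendsto_comap_iff]
  refine Tendsto.congr (fun τ => ?_)
    (tendsto_comap.atTop_div_const (r := (L : ℝ))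
      (by exact_mod_cast Nat.pos_of_ne_zero (NeZero.ne L)))
  show τ.im / L = ((τ : ℂ) / L).im
  rw [Complex.div_natCast_im]
  rfl

theorem qFun_mul_tFun (τ : ℍ) :
    qFun τ * tFun L τ = eulerFun τ ^ etaExp L / eulerFun (scaleTau L τ) ^ etaExp L := by
  rw [tFun, ← mul_assoc, mul_inv_cancel₀ (qFun_ne_zero τ), one_mul]

theorem tendsto_qFun_mul_tFun : Tendsto (fun τ => qFun τ * tFun L τ) atImInfty (𝓝 1) := by
  have h := (tendsto_eulerFun.pow (etaExp L)).div
    ((tendsto_eulerFun.comp (tendsto_scaleTau L)).pow (etaExp L)) (by simp)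
  rw [one_pow, div_one] at h
  exact h.congr fun τ => (qFun_mul_tFun L τ).symm

theorem tendsto_tFun_inv : Tendsto (fun τ => (tFun L τ)⁻¹) atImInfty (𝓝 0) := by
  have h := tendsto_qFun.mul ((tendsto_qFun_mul_tFun L).inv₀ one_ne_zero)
  rw [zero_mul] at h
  refine h.congr fun τ => ?_
  have := qFun_ne_zero τ
  rw [mul_inv_rev, ← mul_assoc, mul_comm (qFun τ), mul_assoc, mul_inv_cancel₀ this, mul_one]

theorem tendsto_norm_tFun : Tendsto (fun τ => ‖tFun L τ‖) atImInfty atTop := by
  have h : Tendsto (fun τ => ‖(tFun L τ)⁻¹‖) atImInfty (𝓝[>] 0) :=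
    tendsto_nhdsWithin_iff.mpr ⟨by simpa using (tendsto_tFun_inv L).norm,
      Eventually.of_forall fun τ => by simpa using tFun_ne_zero L τ⟩
  exact (tendsto_inv_nhdsGT_zero.comp h).congr fun τ => by simp

theorem tFun_S_smul (hL : IsHauptLevel L) (τ : ℍ) :
    tFun L (ModularGroup.S • τ) = frickeConst L * (tFun L (divTau L τ))⁻¹ := by
  have h := tFun_fricke L hL (divTau L τ)
  rw [scaleTau_divTau] at h
  rw [← h, mul_inv_cancel_right₀ (tFun_ne_zero L _)]

/-- At the cusp `0` the function vanishes. -/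
theorem tendsto_tFun_S (hL : IsHauptLevel L) :
    Tendsto (fun τ => tFun L (ModularGroup.S • τ)) atImInfty (𝓝 0) := by
  have h := ((tendsto_tFun_inv L).comp (tendsto_divTau L)).const_mul (frickeConst L)
  rw [mul_zero] at h
  exact h.congr fun τ => (tFun_S_smul L hL τ).symm

/-- The value at a middle cusp. -/
theorem tendsto_tFun_mid (hL : IsHauptLevel L) {ℓ : ℕ} (hℓ : L = ℓ * ℓ) {i : ℤ} (hi : i * i = 1) :
    Tendsto (fun τ => tFun L (lowerU (ℓ * i) • τ)) atImInfty (𝓝 (midConst L ℓ i)) := by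
  have h := ((tendsto_eulerFun.pow (etaExp L)).const_mul (midConst L ℓ i)).div
    ((tendsto_eulerFun.comp (tendsto_vadd_atImInfty ((i : ℝ) / ℓ))).pow (etaExp L)) (by simp)
  rw [one_pow, mul_one, div_one] at h
  exact h.congr fun τ => (tFun_mid L hL hℓ hi τ).symm

theorem T_zpow_smul_tendsto (j : ℤ) :
    Tendsto (fun τ : ℍ => ModularGroup.T ^ j • τ) atImInfty atImInfty := by
  simpa only [T_zpow_smul_eq] using tendsto_vadd_atImInfty (j : ℝ)

/-- Away from the cusp `∞` the function has a finite limit. -/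
theorem exists_tendsto_tFun_smul (hL : IsHauptLevel L) {g : SL(2, ℤ)} (hg : g ∉ Gamma0 L) :
    ∃ c, Tendsto (fun τ => tFun L (g • τ)) atImInfty (𝓝 c) ∧
      (c = 0 ∨ ∃ ℓ : ℕ, ∃ i : ℤ, L = ℓ * ℓ ∧ i * i = 1 ∧ c = midConst L ℓ i) := by
  obtain ⟨ℓ, hℓp, hℓ, hℓL⟩ := hL.exists_sq
  rcases exists_rep L hℓp hℓ hℓL g with h | ⟨γ, hγ, j, rfl⟩ | ⟨γ, hγ, i, hi, rfl⟩
  · exact absurd h hg
  · refine ⟨0, ?_, Or.inl rfl⟩
    simpa only [mul_smul, tFun_smul L hL hγ] using! (tendsto_tFun_S L hL).comp (T_zpow_smul_tendsto j)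
  · refine ⟨_, ?_, Or.inr ⟨ℓ, i, hℓL, hi, rfl⟩⟩
    simpa only [mul_smul, tFun_smul L hL hγ] using tendsto_tFun_mid L hL hℓL hi

theorem isBoundedAtImInfty_tFun_smul (hL : IsHauptLevel L) {g : SL(2, ℤ)} (hg : g ∉ Gamma0 L) :
    IsBoundedAtImInfty (fun τ => tFun L (g • τ)) :=
  (exists_tendsto_tFun_smul L hL hg).choose_spec.1.isBigO_one ℝ

/-! ### Membership -/

theorem mdifferentiable_tFun : tFun L ∈ Hol := by
  rw [mem_hol_iff_differentiableOn]
  have hq : Differentiable ℂ (Periodic.qParam 1) := Periodic.differentiable_qParam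
  have hL' : (0 : ℝ) < L := by exact_mod_cast Nat.pos_of_ne_zero (NeZero.ne L)
  have hball : ∀ z : ℂ, 0 < z.im → Periodic.qParam 1 z ∈ Metric.ball (0 : ℂ) 1 := fun z hz => by
    simpa using Periodic.norm_qParam_lt_one one_pos hz
  have h1 : DifferentiableOn ℂ (fun z => eulerProd (Periodic.qParam 1 z)) upperHalfPlaneSet :=
    differentiableOn_eulerProd.comp hq.differentiableOn hball
  have h2 : DifferentiableOn ℂ (fun z => eulerProd (Periodic.qParam 1 ((L : ℂ) * z)))
      upperHalfPlaneSet :=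
    differentiableOn_eulerProd.comp ((hq.comp (differentiable_id.const_mul (L : ℂ))).differentiableOn)
      fun z hz => hball _ (by simpa using mul_pos hL' hz)
  refine ((hq.differentiableOn.inv fun z _ => Periodic.qParam_ne_zero z).mul
    ((h1.pow (etaExp L)).div (h2.pow (etaExp L)) fun z hz => pow_ne_zero _ ?_)).congr fun z hz => ?_
  · exact eulerFun_ne_zero (scaleTau L ⟨z, hz⟩)
  · simp only [comp_apply, ofComplex_apply_of_im_pos hz]
    rfl

theorem growthInfty_tFun_smul (hL : IsHauptLevel L) (g : SL(2, ℤ)) :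
    GrowthInfty (fun τ => tFun L (g • τ)) := by
  by_cases hg : g ∈ Gamma0 L
  · refine ⟨1, ?_⟩
    simp only [tFun_smul L hL hg, pow_one]
    exact (tendsto_qFun_mul_tFun L).isBigO_one ℝ
  · exact ⟨0, by simpa using isBoundedAtImInfty_tFun_smul L hL hg⟩

theorem tFun_mem_modHol (hL : IsHauptLevel L) : tFun L ∈ ModHol L :=
  ⟨mdifferentiable_tFun L, fun _ hγ τ => tFun_smul L hL hγ τ, growthInfty_tFun_smul L hL⟩

/-- `t` in `ModHol L`. -/
def tMod (hL : IsHauptLevel L) : ModHol L := ⟨tFun L, tFun_mem_modHol L hL⟩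

/-! ### The expansion -/

theorem expansionFun_qFun : expansionFun 1 qFun = HahnSeries.single (1 : ℤ) (1 : ℂ) := by
  have hm : qFun ∈ HolInfty 1 := by
    have := qParam_pow_mem_holInfty 1 1
    simp only [pow_one] at this
    exact this
  rw [expansionFun_of_bounded 1 hm (tendsto_qFun.isBigO_one ℝ)]
  simp [qExpansion_qFun, HahnSeries.ofPowerSeries_X]

theorem eulerFun_mem_holInfty : eulerFun ∈ HolInfty 1 := by
  refine ⟨?_, ?_, 0, by simp only [pow_zero, one_mul]; exact tendsto_eulerFun.isBigO_one ℝ⟩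
  · rw [mem_hol_iff_differentiableOn]
    refine (differentiableOn_eulerProd.comp Periodic.differentiable_qParam.differentiableOn
      fun z hz => by simpa using Periodic.norm_qParam_lt_one one_pos hz).congr fun z hz => ?_
    simp only [comp_apply, ofComplex_apply_of_im_pos hz]
    rfl
  · intro z
    by_cases hz : 0 < z.im
    · have hz' : 0 < (z + 1).im := by simpa using hz
      simp only [Nat.cast_one, comp_apply, ofComplex_apply_of_im_pos hz,
        ofComplex_apply_of_im_pos hz']
      exact (congrArg eulerFun (UpperHalfPlane.ext (by simp [add_comm]))).trans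
        (eulerFun_vadd_int 1 ⟨z, hz⟩)
    · have hz' : (z + 1).im ≤ 0 := by simpa using not_lt.mp hz
      simp only [Nat.cast_one, comp_apply, ofComplex_apply_of_im_nonpos hz',
        ofComplex_apply_of_im_nonpos (not_lt.mp hz)]

theorem expansionFun_eulerFun_pow (k : ℕ) :
    expansionFun 1 (eulerFun ^ k) = HahnSeries.ofPowerSeries ℤ ℂ
      ((ModularCurve.etaProd ^ k).map (Int.castRingHom ℂ)) := by
  rw [expansionFun_of_bounded 1 (pow_mem eulerFun_mem_holInfty k)
    ((tendsto_eulerFun.pow k).isBigO_one ℝ)]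
  simp [qExpansion_eulerFun_pow, qExpansion_eulerFun, map_pow]

theorem qexp_tMod (hL : IsHauptLevel L) :
    qexp L (tMod L hL) = ModularCurve.coeffMap (Int.castRingHom ℂ) (tSeries L) := by
  set k := etaExp L
  have hE := pow_mem eulerFun_mem_holInfty k
  have hG : (fun τ => (eulerFun ^ k) (scaleTau L τ)) ∈ HolInfty 1 := by
    refine ⟨?_, ?_, 0, by
      simp only [pow_zero, one_mul]
      exact ((tendsto_eulerFun.comp (tendsto_scaleTau L)).pow k).isBigO_one ℝ⟩
    · rw [mem_hol_iff_differentiableOn]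
      refine ((mem_hol_iff_differentiableOn.mp hE.1).comp
        (f := fun z : ℂ => (L : ℂ) * z) (by fun_prop) fun z hz => ?_).congr fun z hz => ?_
      · simpa using mul_pos (Nat.cast_pos.mpr (Nat.pos_of_ne_zero (NeZero.ne L))) hz
      · simp only [comp_apply, ofComplex_apply_of_im_pos hz]
        rw [show (L : ℂ) * z = ((scaleTau L ⟨z, hz⟩ : ℍ) : ℂ) from rfl, ofComplex_apply]
    · intro z
      by_cases hz : 0 < z.im
      · have hz' : 0 < (z + 1).im := by simpa using hz
        simp only [Nat.cast_one, comp_apply, ofComplex_apply_of_im_pos hz,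
          ofComplex_apply_of_im_pos hz', Pi.pow_apply]
        refine congrArg (· ^ k) ((congrArg eulerFun ?_).trans
          (eulerFun_vadd_int (L : ℤ) (scaleTau L ⟨z, hz⟩)))
        apply UpperHalfPlane.ext
        simp [coe_scaleTau]
        ring
      · have hz' : (z + 1).im ≤ 0 := by simpa using not_lt.mp hz
        simp only [Nat.cast_one, comp_apply, ofComplex_apply_of_im_nonpos hz',
          ofComplex_apply_of_im_nonpos (not_lt.mp hz)]
  have hq : qFun ∈ HolInfty 1 := by
    have := qParam_pow_mem_holInfty 1 1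
    simp only [pow_one] at this
    exact this
  have ht := mem_holInfty_one_of_mem_modHol L (tFun_mem_modHol L hL)
  have key : qFun * tFun L * (fun τ => (eulerFun ^ k) (scaleTau L τ)) = eulerFun ^ k := by
    funext τ
    simp only [Pi.mul_apply, Pi.pow_apply, qFun_mul_tFun, k]
    field_simp [eulerFun_ne_zero]
  have hexp := congrArg (expansionFun 1) key
  rw [expansionFun_mul 1 (mul_mem hq ht) hG, expansionFun_mul 1 hq ht,
    expansionFun_comp_scaleTau L hE hG, expansionFun_qFun, expansionFun_eulerFun_pow,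
    FLTA.Congruence.qExpand_ofPowerSeries, ← PowerSeries.map_expand] at hexp
  show expansionFun 1 (tFun L) = _
  set E := ModularCurve.etaProd ^ k
  set ι : PowerSeries ℤ →+* LaurentSeries ℂ :=
    (HahnSeries.ofPowerSeries ℤ ℂ).comp (PowerSeries.map (Int.castRingHom ℂ)) with hι
  have hone : ι (PowerSeries.expand L (NeZero.ne L) E) *
      ι (PowerSeries.expand L (NeZero.ne L) (PowerSeries.invOfUnit E 1)) = 1 := by
    rw [← map_mul, ← map_mul, etaPow_mul_inv L, map_one, map_one]
  rw [tSeries_eq, map_mul, ModularCurve.coeffMap_single, map_one,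
    ModularCurve.coeffMap_ofPowerSeries, tUnit, map_mul, map_mul]
  calc expansionFun 1 (tFun L)
      = HahnSeries.single (-1 : ℤ) 1 * ((HahnSeries.single (1 : ℤ) 1 * expansionFun 1 (tFun L) *
          ι (PowerSeries.expand L (NeZero.ne L) E)) *
            ι (PowerSeries.expand L (NeZero.ne L) (PowerSeries.invOfUnit E 1))) := by
        rw [mul_assoc _ _ (ι _), hone, mul_one, ← mul_assoc, HahnSeries.single_mul_single]
        simp
    _ = _ := by
        simp only [hι, RingHom.comp_apply]
        rw [hexp]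

/-! ### Bounded functions are constant -/

/-- A member of `ModHol L` which is bounded at every cusp is constant. -/
theorem exists_eq_const_of_bounded {F : ℍ → ℂ} (hF : F ∈ ModHol L)
    (hb : ∀ g : SL(2, ℤ), IsBoundedAtImInfty (fun τ => F (g • τ))) :
    ∃ c, ∀ τ, F τ = c := by
  have hsl : ∀ g : SL(2, ℤ), F ∣[(0 : ℤ)] g = fun τ => F (g • τ) := fun g => by
    funext τ
    rw [ModularForm.SL_slash_apply]
    simp
  obtain ⟨c, hc⟩ := FLTA.Dim.exists_eq_const_of_mem_MF_zero (Γ := Gamma0 L) (f := F)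
    ⟨hF.1, fun γ hγ => (hsl γ).trans (funext (hF.2.1 γ hγ)), fun g => by rw [hsl]; exact hb g⟩
  exact ⟨c, congrFun hc⟩

end FLTA.Carayol.Haupt
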