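import Mathlib.RingTheory.AdjoinRoot
import Mathlib.RingTheory.Norm.Defs
import Mathlib.LinearAlgebra.Vandermonde
import Mathlib.LinearAlgebra.Charpoly.ToMatrix
import Mathlib.LinearAlgebra.Matrix.Charpoly.Basic
import Mathlib.FieldTheory.Separable

/-!
# The characteristic polynomial of multiplication in `K[X]/(p)` through the roots of `p`
-/

set_option autoImplicit false

noncomputable section

open Polynomial

namespace FLTA.Carayol.Haupt

variable {F : Type*} [Field F] {p : F[X]} (hp : p.Monic)
include hp

/-- The power basis, indexed by the degree. -/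
def adjBasis : Module.Basis (Fin p.natDegree) F (AdjoinRoot p) :=
  (AdjoinRoot.powerBasis' hp).basis

theorem powerBasis'_apply (j : Fin p.natDegree) :
    (adjBasis hp) j = AdjoinRoot.root p ^ (j : ℕ) := by
  exact congrFun (AdjoinRoot.powerBasis' hp).coe_basis j

theorem charpoly_mulLeft_eq (x : AdjoinRoot p) [Module.Free F (AdjoinRoot p)]
    [Module.Finite F (AdjoinRoot p)] :
    (LinearMap.mulLeft F x).charpoly =
      (Algebra.leftMulMatrix (adjBasis hp) x).charpoly := by
  rw [← LinearMap.charpoly_toMatrix (LinearMap.mulLeft F x) (adjBasis hp)]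
  rfl

/-- Through the roots. -/
theorem map_charpoly_mulLeft {E : Type*} [Field E] (σ : F →+* E) (x : AdjoinRoot p)
    [Module.Free F (AdjoinRoot p)] [Module.Finite F (AdjoinRoot p)] {n : ℕ} (hn : p.natDegree = n)
    (r : Fin n → E) (hr : Function.Injective r) (hroot : ∀ i, p.eval₂ σ (r i) = 0) :
    (LinearMap.mulLeft F x).charpoly.map σ =
      ∏ i, (X - C (AdjoinRoot.lift σ (r i) (hroot i) x)) := by
  subst hn
  classical
  rw [charpoly_mulLeft_eq hp, ← Matrix.charpoly_map]
  set b := (adjBasis hp) with hb
  set M := (Algebra.leftMulMatrix b x).map σ with hM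
  change Fin p.natDegree → E at r
  have hV : (Matrix.vandermonde r).det ≠ 0 := Matrix.det_vandermonde_ne_zero_iff.mpr hr
  have hcomm : Matrix.vandermonde r * M =
      Matrix.diagonal (fun i => AdjoinRoot.lift σ (r i) (hroot i) x) * Matrix.vandermonde r := by
    ext i j
    rw [Matrix.diagonal_mul, Matrix.mul_apply, Matrix.vandermonde_apply]
    have e := congrArg (AdjoinRoot.lift σ (r i) (hroot i)) (b.sum_repr (x * b j))
    simp only [map_sum, map_mul, Algebra.smul_def, AdjoinRoot.algebraMap_eq, AdjoinRoot.lift_of,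
      hb, powerBasis'_apply hp, map_pow, AdjoinRoot.lift_root] at e
    rw [← e]
    refine Finset.sum_congr rfl fun l _ => ?_
    rw [Matrix.vandermonde_apply, hM, Matrix.map_apply, Algebra.leftMulMatrix_eq_repr_mul,
      powerBasis'_apply hp, mul_comm]
  obtain ⟨u, hu⟩ : IsUnit (Matrix.vandermonde r) :=
    (Matrix.isUnit_iff_isUnit_det _).mpr (isUnit_iff_ne_zero.mpr hV)
  have e : M = (↑u⁻¹ : Matrix _ _ E) *
      Matrix.diagonal (fun i => AdjoinRoot.lift σ (r i) (hroot i) x) *
      (↑u : Matrix _ _ E) := by
    rw [hu, mul_assoc, ← hcomm, ← mul_assoc, ← hu, Units.inv_mul, one_mul]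
  rw [e, Matrix.coe_units_inv, Matrix.charpoly_units_conj', Matrix.charpoly_diagonal]

/-- Base change. -/
theorem charpoly_mulLeft_map {K : Type*} [Field K] (g : F →+* K) (x : AdjoinRoot p)
    [Module.Free F (AdjoinRoot p)] [Module.Finite F (AdjoinRoot p)]
    [Module.Free K (AdjoinRoot (p.map g))] [Module.Finite K (AdjoinRoot (p.map g))] :
    (LinearMap.mulLeft K (AdjoinRoot.map g p (p.map g) dvd_rfl x)).charpoly =
      (LinearMap.mulLeft F x).charpoly.map g := by
  classical
  rw [charpoly_mulLeft_eq hp, charpoly_mulLeft_eq (hp.map g), ← Matrix.charpoly_map]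
  have hd : p.natDegree = (p.map g).natDegree := (hp.natDegree_map g).symm
  have e : Algebra.leftMulMatrix (adjBasis (hp.map g))
      (AdjoinRoot.map g p (p.map g) dvd_rfl x) =
      Matrix.reindex (finCongr hd) (finCongr hd)
        ((Algebra.leftMulMatrix (adjBasis hp) x).map g) := by
    refine Matrix.ext fun i j => ?_
    rw [Matrix.reindex_apply, Matrix.submatrix_apply, Matrix.map_apply,
      Algebra.leftMulMatrix_eq_repr_mul, Algebra.leftMulMatrix_eq_repr_mul]
    set bK := (adjBasis (hp.map g)) with hbK
    set bF := (adjBasis hp) with hbF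
    have key : AdjoinRoot.map g p (p.map g) dvd_rfl x * bK j =
        ∑ l, g (bF.repr (x * bF ((finCongr hd).symm j)) ((finCongr hd).symm l)) • bK l := by
      have h := congrArg (AdjoinRoot.map g p (p.map g) dvd_rfl)
        (bF.sum_repr (x * bF ((finCongr hd).symm j)))
      simp only [map_sum, map_mul, Algebra.smul_def, AdjoinRoot.algebraMap_eq, AdjoinRoot.map,
        AdjoinRoot.lift_of, RingHom.comp_apply, hbF, powerBasis'_apply hp, map_pow,
        AdjoinRoot.lift_root] at h
      simp only [Algebra.smul_def, AdjoinRoot.algebraMap_eq, hbK, powerBasis'_apply (hp.map g),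
        AdjoinRoot.map, hbF, powerBasis'_apply hp]
      rw [← Equiv.sum_comp (finCongr hd)]
      simp only [finCongr_apply, Fin.val_cast, finCongr_symm] at h ⊢
      exact h.symm
    rw [key, bK.repr_sum_self]
  rw [e, Matrix.charpoly_reindex]

end FLTA.Carayol.Haupt
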