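import Fermat.Agent.Carayol.Haupt.IsModEq
import Fermat.Agent.Carayol.Haupt.Poly
import Fermat.Agent.Igusa.Subst

/-!
# The roots of the modular equation over `T = t(e^q)`

In `R((e))`, `ζ ∈ R` a primitive `q`-th root of unity, they are `t(e^{q²})` and `t(ζ^i e)`.
-/

set_option autoImplicit false

noncomputable section

open HahnSeries ModularCurve

namespace FLTA.Carayol.Haupt

/-- The polynomial with these `q + 1` roots. -/
def rootProd (L : ℕ) [NeZero L] (R : Type*) [CommRing R] (q : ℕ) [NeZero q] (ζ : Rˣ) :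
    Polynomial (LaurentSeries R) :=
  (Polynomial.X - Polynomial.C (qExpand R (q * q) (tOf L R))) *
    ∏ i ∈ Finset.range q, (Polynomial.X - Polynomial.C (FLTA.Igusa.twist (ζ ^ i) (tOf L R)))

/-- Evaluation of integral polynomials at `T = t(e^q)`. -/
def evalTq (L : ℕ) [NeZero L] (R : Type*) [CommRing R] (q : ℕ) [NeZero q] :
    Polynomial ℤ →+* LaurentSeries R :=
  (Polynomial.aeval (R := ℤ) (qExpand R q (tOf L R))).toRingHom

variable {L : ℕ} [NeZero L] {R : Type*} [CommRing R]

theorem map_rootProd {S : Type*} [CommRing S] (φ : R →+* S) (q : ℕ) [NeZero q] (ζ : Rˣ) :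
    (rootProd L R q ζ).map (coeffMap φ) = rootProd L S q (Units.map (φ : R →* S) ζ) := by
  simp only [rootProd, Polynomial.map_mul, Polynomial.map_prod, Polynomial.map_sub,
    Polynomial.map_X, Polynomial.map_C, coeffMap_qExpand, coeffMap_tOf L,
    FLTA.Igusa.coeffMap_twist, map_pow]

theorem coeffMap_comp_evalTq {S : Type*} [CommRing S] (φ : R →+* S) (q : ℕ) [NeZero q] :
    (coeffMap φ).comp (evalTq L R q) = evalTq L S q := by
  refine Polynomial.ringHom_ext' (RingHom.ext_int _ _) ?_
  simp [evalTq, coeffMap_qExpand, coeffMap_tOf L]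

variable (q : ℕ) [hq : Fact q.Prime]

theorem twist_evalTq {ζ : Rˣ} (hζ : ζ ^ q = 1) (i : ℕ) :
    (FLTA.Igusa.twist (ζ ^ i)).comp (evalTq L R q) = evalTq L R q := by
  refine Polynomial.ringHom_ext' (RingHom.ext_int _ _) ?_
  simp only [evalTq, RingHom.comp_apply, AlgHom.toRingHom_eq_coe, RingHom.coe_coe,
    Polynomial.aeval_X]
  rw [FLTA.Igusa.twist_qExpand, ← pow_mul, mul_comm, pow_mul, hζ, one_pow,
    FLTA.Igusa.twist_one_apply]

theorem root_hom {Φ : Polynomial (Polynomial ℤ)} (f g : LaurentSeries ℤ →+* LaurentSeries R)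
    (a b : LaurentSeries ℤ) (h : Φ.eval₂ (Polynomial.aeval (R := ℤ) b).toRingHom a = 0)
    (hf : f b = g b) : Φ.eval₂ (Polynomial.aeval (R := ℤ) (g b)).toRingHom (f a) = 0 := by
  have e : f.comp (Polynomial.aeval (R := ℤ) b).toRingHom =
      (Polynomial.aeval (R := ℤ) (g b)).toRingHom := by
    refine Polynomial.ringHom_ext' (RingHom.ext_int _ _) ?_
    simp [hf]
  have := congrArg f h
  rwa [map_zero, Polynomial.hom_eval₂, e] at this

theorem IsModEq.roots {Φ : Polynomial (Polynomial ℤ)} (h : IsModEq q L Φ) {ζ : Rˣ}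
    (hζ : ζ ^ q = 1) :
    (Φ.map (evalTq L R q)).IsRoot (qExpand R (q * q) (tOf L R)) ∧
      ∀ i : ℕ, (Φ.map (evalTq L R q)).IsRoot (FLTA.Igusa.twist (ζ ^ i) (tOf L R)) := by
  have he : evalTq L R q = (Polynomial.aeval (qExpand R q (tOf L R))).toRingHom := rfl
  refine ⟨?_, fun i => ?_⟩
  · rw [Polynomial.IsRoot, Polynomial.eval_map, he]
    have := root_hom ((qExpand R q).comp (coeffMap (Int.castRingHom R)))
      ((qExpand R q).comp (coeffMap (Int.castRingHom R))) _ _ h.root_swap rfl
    simpa [RingHom.comp_apply, tOf, coeffMap_qExpand, qExpand_qExpand] using this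
  · have h1 : (Φ.map (evalTq L R q)).IsRoot (tOf L R) := by
      rw [Polynomial.IsRoot, Polynomial.eval_map, he]
      have := root_hom (coeffMap (Int.castRingHom R)) (coeffMap (Int.castRingHom R)) _ _ h.root rfl
      simpa [tOf, coeffMap_qExpand] using this
    rw [Polynomial.IsRoot, Polynomial.eval_map] at h1 ⊢
    have := congrArg (FLTA.Igusa.twist (ζ ^ i)) h1
    rwa [map_zero, Polynomial.hom_eval₂, twist_evalTq q hζ] at this

theorem coeff_twist_tOf_neg_one (c : Rˣ) :
    (FLTA.Igusa.twist c (tOf L R)).coeff (-1) = ((c⁻¹ : Rˣ) : R) := by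
  rw [FLTA.Igusa.twist_coeff, tOf, coeffMap_coeff, coeff_tSeries_neg_one]
  simp

theorem coeff_qExpand_sq_tOf_neg_one :
    (qExpand R (q * q) (tOf L R)).coeff (-1) = 0 := by
  refine qExpand_coeff_of_not_dvd _ _ fun h => ?_
  have h2 : ((q * q : ℕ) : ℤ) ∣ (1 : ℕ) := by simpa using (dvd_neg.mpr h)
  have := Nat.le_of_dvd one_pos (Int.natCast_dvd_natCast.mp h2)
  nlinarith [hq.out.two_le]

theorem rootProd_separable_roots [IsDomain R] {ζ : Rˣ} (hζ : IsPrimitiveRoot ζ q) :
    Function.Injective (Fin.cons (qExpand R (q * q) (tOf L R))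
      fun i : Fin q => FLTA.Igusa.twist (ζ ^ (i : ℕ)) (tOf L R) : Fin (q + 1) → LaurentSeries R) := by
  rw [Fin.cons_injective_iff]
  refine ⟨?_, fun i j hij => ?_⟩
  · rintro ⟨i, hi⟩
    have := congrArg (fun x : LaurentSeries R => x.coeff (-1)) hi
    simp only [coeff_twist_tOf_neg_one, coeff_qExpand_sq_tOf_neg_one q] at this
    exact Units.ne_zero _ this
  · have := congrArg (fun x : LaurentSeries R => x.coeff (-1)) hij
    simp only [coeff_twist_tOf_neg_one] at this
    exact Fin.ext (hζ.pow_inj i.2 j.2 (inv_injective (Units.ext this)))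

theorem rootProd_eq_prod (ζ : Rˣ) :
    rootProd L R q ζ = ∏ i : Fin (q + 1), (Polynomial.X - Polynomial.C
      ((Fin.cons (qExpand R (q * q) (tOf L R))
        fun i : Fin q => FLTA.Igusa.twist (ζ ^ (i : ℕ)) (tOf L R) : Fin (q + 1) → LaurentSeries R) i)) := by
  rw [rootProd, Fin.prod_univ_succ]
  simp only [Fin.cons_zero, Fin.cons_succ]
  rw [Fin.prod_univ_eq_prod_range
    (fun i => Polynomial.X - Polynomial.C (FLTA.Igusa.twist (ζ ^ i) (tOf L R))) q]

/-- The modular equation splits into the known roots. -/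
theorem IsModEq.map_eq_rootProd [IsDomain R] {Φ : Polynomial (Polynomial ℤ)} (h : IsModEq q L Φ)
    {ζ : Rˣ} (hζ : IsPrimitiveRoot ζ q) : Φ.map (evalTq L R q) = rootProd L R q ζ := by
  classical
  obtain ⟨h0, hi⟩ := h.roots q hζ.pow_eq_one
  rw [rootProd_eq_prod]
  set r : Fin (q + 1) → LaurentSeries R := Fin.cons (qExpand R (q * q) (tOf L R))
    fun i : Fin q => FLTA.Igusa.twist (ζ ^ (i : ℕ)) (tOf L R) with hr
  have hinj : Function.Injective r := rootProd_separable_roots q hζ
  have hne : Φ.map (evalTq L R q) ≠ 0 := (h.monic.map _).ne_zero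
  have hle : Finset.univ.val.map r ≤ (Φ.map (evalTq L R q)).roots := by
    rw [Multiset.le_iff_subset (Finset.univ.nodup.map hinj)]
    intro x hx
    obtain ⟨i, -, rfl⟩ := Multiset.mem_map.mp hx
    rw [Polynomial.mem_roots hne]
    induction i using Fin.cases with
    | zero => simpa [hr] using h0
    | succ i => simpa [hr] using hi i
  have hdvd := (Multiset.prod_dvd_prod_of_le (Multiset.map_le_map
    (f := fun x => Polynomial.X - Polynomial.C x) hle)).trans
    (Φ.map (evalTq L R q)).prod_multiset_X_sub_C_dvd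
  rw [Multiset.map_map] at hdvd
  refine Polynomial.eq_of_monic_of_dvd_of_natDegree_le
    (Polynomial.monic_prod_of_monic _ _ fun i _ => Polynomial.monic_X_sub_C _) (h.monic.map _)
    hdvd ?_
  rw [h.monic.natDegree_map, h.natDegree, Polynomial.natDegree_prod_of_monic _ _
    fun i _ => Polynomial.monic_X_sub_C _]
  simp

end FLTA.Carayol.Haupt
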