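import Fermat.Agent.Carayol.Haupt.VIntegral

/-!
# Reduction of `v` mod `q` and the supersingular values

Mod `q` the roots are `0` and `(θt)^(1-q)`; the inverse `ρ` of `r = (θt)^(q-1)` satisfies
`ρ R₀ = D²` with `D = T^(q²) - T`, so its zeros are roots of `D` where `H ≠ 0`.
-/

set_option autoImplicit false

noncomputable section

open Polynomial ModularCurve

namespace FLTA.Carayol.Haupt

open FLTA.Igusa (theta twist)

variable (q : ℕ) [hq : Fact q.Prime] (L : ℕ) [NeZero L]

omit hq in
theorem laurent_natCast_q (k : Type*) [CommRing k] [CharP k q] : (q : LaurentSeries k) = 0 := by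
  rw [← map_natCast HahnSeries.C, CharP.cast_eq_zero, map_zero]

theorem zElt_eq_pow (k : Type*) [CommRing k] [IsDomain k] [CharP k q] :
    zElt q L k = theta (tOf L k) ^ q := by
  have : ExpChar k q := ExpChar.prime hq.out
  have e : theta (tOf L k) = coeffMap (Int.castRingHom k) (theta (tSeries L)) :=
    (FLTA.Igusa.coeffMap_theta _ _).symm
  rw [zElt, e, coeffMap_frobenius_intCast q k]

/-- The value of `v` at the inseparable branch. -/
theorem exists_rho {χ : (TRing L)[X]} {ζ : OCˣ}
    (hζ : ζ ^ q = 1) (hmap : χ.map (psiQ q L OC) = vProd q L ζ) :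
    C (q : TRing L) ∣ χ - X * (X ^ q - C (-χ.coeff 1)) ∧
      ∀ (k : Type) [Field k] [CharP k q], ∀ φ : OC →+* k, Units.map (φ : OC →* k) ζ = 1 →
        psi L k (-χ.coeff 1) * theta (tOf L k) ^ q = theta (tOf L k) := by
  have key : ∀ (k : Type) [Field k] [CharP k q], ∀ φ : OC →+* k,
      Units.map (φ : OC →* k) ζ = 1 → ∃ w : LaurentSeries k,
        w * theta (tOf L k) ^ q = theta (tOf L k) ∧
          χ.map (psiQ q L k) = X * (X ^ q - C (qExpand k q w)) := by
    intro k _ _ φ hφ
    have : ExpChar k q := ExpChar.prime hq.out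
    have : ExpChar (Polynomial (LaurentSeries k)) q := by
      have : CharP (LaurentSeries k) q :=
        charP_of_injective_algebraMap (algebraMap k _).injective q
      exact ExpChar.prime hq.out
    refine ⟨theta (tOf L k) * Ring.inverse (zElt q L k), ?_, ?_⟩
    · rw [← zElt_eq_pow q L k, mul_assoc, Ring.inverse_mul_cancel _ (isUnit_zElt q L), mul_one]
    rw [← coeffMap_comp_psiQ q L φ, ← Polynomial.map_map, hmap, map_vProd, hφ, vProd,
      Fin.prod_univ_succ]
    simp only [vVec, numVec, Fin.cons_zero, Fin.cons_succ, one_pow, FLTA.Igusa.twist_one_apply,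
      Finset.prod_const, Finset.card_univ, Fintype.card_fin, Nat.cast_mul, laurent_natCast_q q k,
      zero_mul, map_zero, sub_zero]
    rw [sub_pow_expChar, ← map_pow C]
    have hw : theta (tOf L k) * Ring.inverse (zElt q L k) = coeffMap (Int.castRingHom k)
        (theta (tSeries L) * Ring.inverse (zElt q L ℤ)) := by
      rw [map_mul, map_inverse_zElt, FLTA.Igusa.coeffMap_theta]
      rfl
    rw [hw, coeffMap_frobenius_intCast q k]
  have hρ : ∀ (k : Type) [Field k] [CharP k q], ∀ φ : OC →+* k,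
      Units.map (φ : OC →* k) ζ = 1 → ∃ w : LaurentSeries k,
        w * theta (tOf L k) ^ q = theta (tOf L k) ∧
          χ.map (psiQ q L k) = X * (X ^ q - C (qExpand k q w)) ∧
          psi L k (-χ.coeff 1) = w := by
    intro k _ _ φ hφ
    obtain ⟨w, hw, hmk⟩ := key k φ hφ
    refine ⟨w, hw, hmk, qExpand_injective q ?_⟩
    have h1 := congrArg (fun p => p.coeff 1) hmk
    simp only [coeff_map, coeff_X_mul, coeff_sub, coeff_X_pow, coeff_C_zero,
      hq.out.ne_zero.symm, if_false, zero_sub] at h1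
    rw [show qExpand k q (psi L k (-χ.coeff 1)) = psiQ q L k (-χ.coeff 1) from rfl, map_neg, h1,
      neg_neg]
  refine ⟨?_, fun k _ _ φ hφ => ?_⟩
  · obtain ⟨k, _, _, φ, hφ⟩ := exists_charP_field q
    obtain ⟨w, -, hmk, hw⟩ := hρ k φ (hφ ζ hζ)
    rw [C_dvd_iff_dvd_coeff]
    intro i
    refine dvd_of_psi_eq_zero L q k (qExpand_injective q ?_)
    rw [map_zero]
    show psiQ q L k _ = 0
    rw [← coeff_map]
    simp only [Polynomial.map_sub, Polynomial.map_mul, Polynomial.map_pow, map_X, map_C, hmk]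
    rw [show psiQ q L k (-χ.coeff 1) = qExpand k q w from congrArg (qExpand k q) hw, sub_self,
      coeff_zero]
  · obtain ⟨w, hw, -, hwρ⟩ := hρ k φ hφ
    rw [hwρ, hw]

/-- The polynomial `T^(q²) - T`. -/
def dPoly : ℤ[X] := X ^ (q * q) - X

variable {q L}

theorem IsModEq.supersingular {Φ H : ℤ[X][X]} (h : IsModEq q L Φ)
    (hH : Φ = (X ^ q - C X) * (X - C (X ^ q)) + (q : ℤ[X][X]) * H) {ρ : TRing L}
    {k₀ : Type} [Field k₀] [CharP k₀ q]
    (hρ : psi L k₀ ρ * theta (tOf L k₀) ^ q = theta (tOf L k₀))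
    (k : Type) [Field k] [CharP k q] (f : TRing L →+* k) (hf : f ρ = 0) :
    f (toT L X) ^ (q * q) = f (toT L X) ∧
      H.eval₂ (aeval (f (toT L X) ^ q)).toRingHom (f (toT L X)) ≠ 0 := by
  classical
  set t := tSeries L
  set T' := qExpand ℤ q t
  -- `T' = t^q + q δ`
  obtain ⟨δ, hδ⟩ : ∃ δ, T' - t ^ q = (q : LaurentSeries ℤ) * δ := by
    refine exists_eq_natCast_mul q _ fun n => ?_
    have : ExpChar (ZMod q) q := ExpChar.prime hq.out
    have hz : coeffMap (Int.castRingHom (ZMod q)) (T' - t ^ q) = 0 := by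
      rw [map_sub, map_pow, coeffMap_frobenius_intCast q (ZMod q), coeffMap_qExpand, sub_self]
    have := congrArg (fun x : LaurentSeries (ZMod q) => x.coeff n) hz
    simp only [coeffMap_coeff, HahnSeries.coeff_zero, eq_intCast] at this
    exact (ZMod.intCast_zmod_eq_zero_iff_dvd _ q).mp this
  have hq0 : (q : LaurentSeries ℤ) ≠ 0 := by
    rw [← map_natCast HahnSeries.C]
    exact (map_ne_zero_iff _ HahnSeries.C_injective).mpr (by exact_mod_cast hq.out.ne_zero)
  have hHval : H.eval₂ (aeval T').toRingHom t = δ * (t - T' ^ q) := by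
    have h1 := h.root
    rw [hH] at h1
    simp only [eval₂_add, eval₂_mul, eval₂_sub, eval₂_pow, map_pow C, eval₂_C, eval₂_X, eval₂_natCast,
      AlgHom.toRingHom_eq_coe, RingHom.coe_coe, aeval_X] at h1
    refine mul_left_cancel₀ hq0 ?_
    simp only [T', t, AlgHom.toRingHom_eq_coe] at hδ ⊢
    linear_combination h1 + (t - T' ^ q) * hδ
  have hθ : theta δ = qExpand ℤ q (theta t) - t ^ (q - 1) * theta t := by
    refine mul_left_cancel₀ hq0 ?_
    have e := congrArg theta hδ
    rw [map_sub, FLTA.Igusa.theta_qExpand, theta_pow, FLTA.Igusa.theta_mul,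
      ← map_natCast HahnSeries.C, FLTA.Igusa.theta_C, zero_mul, zero_add, map_natCast] at e
    linear_combination -e
  -- the polynomials
  set hp : ℤ[X] := H.eval₂ (aeval (R := ℤ) (X ^ q : ℤ[X])).toRingHom X with hhp
  set D := dPoly q with hD
  set R₀ : ℤ[X] := -(D * derivative hp) + X ^ (q - 1) * D ^ 2 - hp with hR₀
  -- in characteristic `q`
  have hF : tOf L k₀ ^ q = qExpand k₀ q (tOf L k₀) := by
    have : ExpChar k₀ q := ExpChar.prime hq.out
    exact coeffMap_frobenius_intCast q k₀ t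
  set δ₀ := coeffMap (Int.castRingHom k₀) δ
  have h0 : (q : LaurentSeries k₀) = 0 := laurent_natCast_q q k₀
  have hh₀ : psiBase L k₀ hp = δ₀ * (tOf L k₀ - tOf L k₀ ^ (q * q)) := by
    have e := congrArg (coeffMap (Int.castRingHom k₀)) hHval
    rw [Polynomial.hom_eval₂, map_mul, map_sub, map_pow, coeffMap_qExpand] at e
    rw [hhp, Polynomial.hom_eval₂, psiBase_X, pow_mul, hF]
    refine (congrArg (fun g => H.eval₂ g _) ?_).trans e
    refine Polynomial.ringHom_ext' (RingHom.ext_int _ _) ?_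
    simp only [RingHom.comp_apply, psiBase, AlgHom.toRingHom_eq_coe, RingHom.coe_coe, aeval_X,
      map_pow, T', coeffMap_qExpand]
    exact hF
  have hδ₀ : theta δ₀ = theta (tOf L k₀) ^ q - tOf L k₀ ^ (q - 1) * theta (tOf L k₀) := by
    rw [← zElt_eq_pow q L k₀, zElt, ← FLTA.Igusa.coeffMap_theta, hθ, map_sub, map_mul, map_pow,
      coeffMap_qExpand, FLTA.Igusa.coeffMap_theta]
    rfl
  have hR : psiBase L k₀ R₀ * theta (tOf L k₀) =
      psiBase L k₀ D ^ 2 * theta (tOf L k₀) ^ q := by
    have hDv : psiBase L k₀ D = tOf L k₀ ^ (q * q) - tOf L k₀ := by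
      rw [hD, dPoly, map_sub, map_pow, psiBase_X]
    have hder : psiBase L k₀ (derivative hp) * theta (tOf L k₀) =
        theta δ₀ * (tOf L k₀ - tOf L k₀ ^ (q * q)) + δ₀ * theta (tOf L k₀) := by
      have e := theta_aevalInt (tOf L k₀) hp
      rw [show aeval (tOf L k₀) hp = psiBase L k₀ hp from rfl, hh₀, FLTA.Igusa.theta_mul, map_sub,
        theta_pow, Nat.cast_mul, h0] at e
      rw [show psiBase L k₀ (derivative hp) = aeval (tOf L k₀) (derivative hp) from rfl, ← e]
      ring
    rw [hR₀, map_sub, map_add, map_neg, map_mul, map_mul, map_pow, map_pow, psiBase_X, hDv, hh₀]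
    linear_combination (tOf L k₀ - tOf L k₀ ^ (q * q)) * hder +
      (tOf L k₀ - tOf L k₀ ^ (q * q)) ^ 2 * hδ₀
  obtain ⟨Q, N, hQ⟩ := exists_toT_eq L ρ
  -- `R₀ Q = D² P^N` mod `q`
  have hid : (R₀ * Q - D ^ 2 * cuspPoly L ^ N).map (Int.castRingHom k) = 0 := by
    have h1 : (R₀ * Q - D ^ 2 * cuspPoly L ^ N).map (Int.castRingHom k₀) = 0 := by
      rw [← psiBase_eq_zero_iff L, map_sub, sub_eq_zero, map_mul, map_mul, map_pow, map_pow,
        ← psi_toT L k₀ Q, ← hQ, map_mul, map_pow, psi_toT]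
      refine ((isUnit_theta_tOf L).pow q).mul_right_cancel ?_
      linear_combination psiBase L k₀ R₀ * (psiBase L k₀ (cuspPoly L)) ^ N * hρ +
        (psiBase L k₀ (cuspPoly L)) ^ N * hR
    refine Polynomial.ext fun i => ?_
    have h2 := congrArg (fun p => p.coeff i) h1
    simp only [coeff_map, coeff_zero] at h2 ⊢
    exact (CharP.intCast_eq_zero_iff k q _).mpr ((CharP.intCast_eq_zero_iff k₀ q _).mp h2)
  set s := f (toT L X) with hs
  have hev : ∀ A : ℤ[X], f (toT L A) = (A.map (Int.castRingHom k)).eval s := fun A => by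
    rw [eval_map]
    have : f.comp (toT L) = eval₂RingHom (Int.castRingHom k) s :=
      Polynomial.ringHom_ext' (RingHom.ext_int _ _) (by simp [hs])
    exact RingHom.congr_fun this A
  have hQs : (Q.map (Int.castRingHom k)).eval s = 0 := by
    rw [← hev, ← hQ, map_mul, hf, zero_mul]
  have hPs : ((cuspPoly L).map (Int.castRingHom k)).eval s ≠ 0 := by
    rw [← hev]; exact ((isUnit_toT_cuspPoly L).map f).ne_zero
  rw [Polynomial.map_sub, sub_eq_zero, Polynomial.map_mul, Polynomial.map_mul, Polynomial.map_pow,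
    Polynomial.map_pow] at hid
  set Q' := Q.map (Int.castRingHom k)
  set D' := D.map (Int.castRingHom k) with hD'
  set P' := (cuspPoly L).map (Int.castRingHom k)
  set R' := R₀.map (Int.castRingHom k) with hR'
  set p' := hp.map (Int.castRingHom k)
  have hDs : D'.eval s = 0 := by
    have := congrArg (eval s) hid
    rw [eval_mul, hQs, mul_zero, eval_mul, eval_pow, eval_pow, eq_comm, mul_eq_zero] at this
    exact pow_eq_zero_iff two_ne_zero |>.mp (this.resolve_right (pow_ne_zero _ hPs))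
  have hDeq : D' = X ^ (q * q) - X := by rw [hD', hD, dPoly]; simp
  have hfirst : s ^ (q * q) = s := by
    rw [hDeq] at hDs
    simpa [sub_eq_zero] using hDs
  refine ⟨hfirst, fun hH0 => ?_⟩
  have hps : p'.eval s = 0 := by
    rw [← hev, ← RingHom.comp_apply f, hhp, Polynomial.hom_eval₂, ← hH0]
    refine congrArg₂ (fun g y => H.eval₂ g y) ?_ rfl
    refine Polynomial.ringHom_ext' (RingHom.ext_int _ _) ?_
    simp [hs]
  have hD1 : (derivative D').eval s = -1 := by
    rw [hDeq, derivative_sub, derivative_X_pow, Nat.cast_mul, CharP.cast_eq_zero k q]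
    simp
  have hR'eq : R' = -(D' * derivative p') + X ^ (q - 1) * D' ^ 2 - p' := by
    simp [hR', hR₀, hD', p', derivative_map]
  obtain ⟨E, hE⟩ := dvd_iff_isRoot.mpr hDs
  obtain ⟨B, hB⟩ := dvd_iff_isRoot.mpr hQs
  obtain ⟨A, hA⟩ := dvd_iff_isRoot.mpr (show R'.IsRoot s by
    rw [IsRoot, hR'eq]; simp [hDs, hps])
  have hA0 : A.eval s = 0 := by
    have e := congrArg (fun p => (derivative p).eval s) hA
    rw [hR'eq] at e
    simpa [derivative_pow, hDs, hD1] using e.symm
  obtain ⟨A', hA'⟩ := dvd_iff_isRoot.mpr hA0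
  have hE1 : E.eval s = -1 := by
    rw [← hD1, hE]; simp
  rw [hA, hA', hB, hE] at hid
  have hid' : (X - C s) * A' * B = E ^ 2 * P' ^ N := by
    refine mul_left_cancel₀ (pow_ne_zero 2 (X_sub_C_ne_zero s)) ?_
    linear_combination hid
  have := congrArg (eval s) hid'
  simp [hE1] at this
  exact pow_ne_zero _ hPs this.symm

end FLTA.Carayol.Haupt
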