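import Fermat.Agent.Carayol.Haupt.VProd
import Fermat.Agent.Carayol.Haupt.Deriv
import Fermat.Agent.Carayol.Haupt.Kronecker

/-!
# The characteristic polynomial of `v` has coefficients in `ℤ[T, 1/P]`

Poles can only come from zeros of `Dt`, which lie over the cusp values; vertically the series
are integral.
-/

set_option autoImplicit false

noncomputable section

open Polynomial ModularCurve UpperHalfPlane FLTA.Bridge

namespace FLTA.Carayol.Haupt

open FLTA.Igusa (theta twist)

/-- Clearing of the denominators away from the roots of `P`. -/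
theorem exists_clear_denominator {E : Type*} [CommRing E] [IsDomain E] (φ : ℂ[X] →+* E)
    (hφ : Function.Injective φ) (P : ℂ[X]) :
    ∀ (n : ℕ) (c : E),
      (∀ (a b : ℂ[X]) (r : ℂ), c * φ b = φ a → b.eval r = 0 → P.eval r ≠ 0 → a.eval r = 0) →
      ∀ a b : ℂ[X], b ≠ 0 → b.natDegree ≤ n → c * φ b = φ a →
        ∃ (Q : ℂ[X]) (N : ℕ), c * φ P ^ N = φ Q := by
  have hconst : ∀ (c : E) (a b : ℂ[X]), b ≠ 0 → b.natDegree = 0 → c * φ b = φ a →
      ∃ (Q : ℂ[X]) (N : ℕ), c * φ P ^ N = φ Q := by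
    intro c a b hb hd h
    obtain ⟨u, rfl⟩ : ∃ u, b = C u := ⟨_, eq_C_of_natDegree_eq_zero hd⟩
    have hu : u ≠ 0 := fun h0 => hb (by simp [h0])
    refine ⟨a * C u⁻¹, 0, ?_⟩
    rw [pow_zero, mul_one, map_mul, ← h, mul_assoc, ← map_mul, ← C_mul, mul_inv_cancel₀ hu, C_1,
      map_one, mul_one]
  intro n
  induction n with
  | zero => exact fun c _ a b hb hd => hconst c a b hb (Nat.le_zero.mp hd)
  | succ n ih =>
    intro c hzero a b hb hd h
    rcases Nat.eq_zero_or_pos b.natDegree with hd0 | hd0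
    · exact hconst c a b hb hd0 h
    obtain ⟨r, hr⟩ := IsAlgClosed.exists_root b (fun h0 => by
      rw [degree_eq_natDegree hb] at h0
      exact hd0.ne' (by exact_mod_cast h0))
    obtain ⟨b', rfl⟩ := dvd_iff_isRoot.mpr hr
    have hb' : b' ≠ 0 := right_ne_zero_of_mul hb
    have hd' : b'.natDegree ≤ n := by
      rw [natDegree_mul (X_sub_C_ne_zero r) hb', natDegree_X_sub_C] at hd
      omega
    have hne : φ (X - C r) ≠ 0 := (map_ne_zero_iff φ hφ).mpr (X_sub_C_ne_zero r)
    by_cases hPr : P.eval r = 0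
    · obtain ⟨P', hP'⟩ := dvd_iff_isRoot.mpr hPr
      obtain ⟨Q, N, hQ⟩ := ih (c * φ P) (fun a' b'' r' h' hb'' hr' => hzero a' (P * b'') r'
        (by rw [map_mul, ← mul_assoc]; exact h') (by simp [hb'']) hr') (a * P') b' hb' hd'
        (by
          rw [map_mul φ a, ← h, map_mul φ (X - C r), mul_assoc, mul_assoc, mul_assoc]
          congr 1
          rw [mul_comm (φ P), mul_left_comm, ← map_mul φ (X - C r) P', ← hP', mul_comm])
      exact ⟨Q, N + 1, by rw [pow_succ', ← mul_assoc]; exact hQ⟩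
    · obtain ⟨a', rfl⟩ := dvd_iff_isRoot.mpr (hzero a _ r h hr hPr)
      refine ih c hzero a' b' hb' hd' (mul_left_cancel₀ hne ?_)
      rw [map_mul, map_mul] at h
      rw [mul_left_comm]
      exact h

variable (q : ℕ) [hq : Fact q.Prime] (L : ℕ) [NeZero L]

/-- `exp (2 π i / q)`. -/
def zetaC : ℂˣ := expUnit (1 / q)

theorem isPrimitiveRoot_zetaC : IsPrimitiveRoot (zetaC q) q := by
  refine IsPrimitiveRoot.coe_units_iff.mp ?_
  convert Complex.isPrimitiveRoot_exp q hq.out.ne_zero using 1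
  rw [zetaC, expUnit, Units.val_mk0]
  congr 1
  push_cast
  ring

theorem exists_zetaOC : ∃ ζ : OCˣ, IsPrimitiveRoot ζ q ∧
    Units.map ((algebraMap OC ℂ : OC →+* ℂ) : OC →* ℂ) ζ = zetaC q := by
  have h : IsPrimitiveRoot ((zetaC q : ℂˣ) : ℂ) q :=
    IsPrimitiveRoot.coe_units_iff.mpr (isPrimitiveRoot_zetaC q)
  let z : OC := ⟨_, h.isIntegral hq.out.pos⟩
  have hz : IsPrimitiveRoot z q :=
    IsPrimitiveRoot.of_map_of_injective (f := algebraMap OC ℂ) h Subtype.val_injective
  exact ⟨(hz.isUnit hq.out.ne_zero).unit, IsPrimitiveRoot.coe_units_iff.mp hz, Units.ext rfl⟩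

omit hq in
theorem expUnit_nat_div (i : ℕ) : expUnit ((i : ℝ) / q) = zetaC q ^ i := by
  refine Units.ext ?_
  rw [zetaC, expUnit, expUnit, Units.val_mk0, Units.val_pow_eq_pow_val, Units.val_mk0,
    ← Complex.exp_nat_mul]
  congr 1
  push_cast
  ring

/-- The functions with expansions `numVec`. -/
def numFun : Fin (q + 1) → ℍ → ℂ :=
  Fin.cons (fun w => ((q * q : ℕ) : ℂ) * dtFun L (scaleTau (q * q) w))
    fun i : Fin q => fun w => dtFun L ((((i : ℕ) : ℝ) / q) +ᵥ w)

theorem numFun_spec (hL : IsHauptLevel L) (i : Fin (q + 1)) :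
    numFun q L i ∈ HolInfty 1 ∧
      expansionFun 1 (numFun q L i) = numVec q L (zetaC q) i := by
  obtain ⟨hd, hde⟩ := dtFun_mem_holInfty_and_expansion L hL
  induction i using Fin.cases with
  | zero =>
    have h1 := comp_scaleTau_mem_holInfty (q * q) hd
    have e : (fun w => ((q * q : ℕ) : ℂ) * dtFun L (scaleTau (q * q) w)) =
        algebraMap ℂ (ℍ → ℂ) ((q * q : ℕ) : ℂ) * fun w => dtFun L (scaleTau (q * q) w) := rfl
    simp only [numFun, numVec, Fin.cons_zero]
    rw [e]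
    refine ⟨mul_mem (Subalgebra.algebraMap_mem _ _) h1, ?_⟩
    rw [expansionFun_mul 1 (Subalgebra.algebraMap_mem _ _) h1, expansionFun_const,
      expansionFun_comp_scaleTau (q * q) hd h1, hde, map_natCast]
  | succ i =>
    simp only [numFun, numVec, Fin.cons_succ]
    refine ⟨comp_vadd_mem_holInfty _ hd, ?_⟩
    rw [expansionFun_comp_vadd _ hd, hde, expUnit_nat_div]

theorem map_coeff_prod {A B : Type*} [CommRing A] [CommRing B] (e : A →+* B) {ι : Type*}
    [Fintype ι] (num : ι → A) (val : ι → B) (h : ∀ i, e (num i) = val i) (k : ℕ) :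
    e ((∏ i, (X - C (num i))).coeff k) = (∏ i, (X - C (val i))).coeff k := by
  rw [← coeff_map, Polynomial.map_prod]
  simp only [Polynomial.map_sub, map_X, map_C, h]

/-- Where a denominator vanishes off the cusp values, so does the numerator. -/
theorem eval_eq_zero_of_coeff (hL : IsHauptLevel L) (k : ℕ) (a b : ℂ[X]) (r : ℂ)
    (h : (vProd q L (zetaC q)).coeff k * aeval (qExpand ℂ q (tOf L ℂ)) b =
      aeval (qExpand ℂ q (tOf L ℂ)) a)
    (hb : b.eval r = 0) (hr : ((cuspPoly L).map (Int.castRingHom ℂ)).eval r ≠ 0) :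
    a.eval r = 0 := by
  obtain ⟨hd, hde⟩ := dtFun_mem_holInfty_and_expansion L hL
  have ht := tFun_mem_holInfty L hL
  let T : HolInfty 1 := ⟨_, comp_scaleTau_mem_holInfty q ht⟩
  let Z : HolInfty 1 := ⟨_, comp_scaleTau_mem_holInfty q hd⟩
  let num : Fin (q + 1) → HolInfty 1 := fun i => ⟨_, (numFun_spec q L hL i).1⟩
  have hT : expansion 1 T = qExpand ℂ q (tOf L ℂ) :=
    (expansionFun_comp_scaleTau q ht T.2).trans (by rw [expansionFun_tFun L hL])
  have hZ : expansion 1 Z = zElt q L ℂ :=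
    (expansionFun_comp_scaleTau q hd Z.2).trans (by rw [hde]; rfl)
  have hnum := map_coeff_prod (expansion 1).toRingHom num (numVec q L (zetaC q))
    (fun i => (numFun_spec q L hL i).2) k
  simp only [AlgHom.toRingHom_eq_coe, RingHom.coe_coe] at hnum
  have key : (∏ i, (X - C (num i))).coeff k * aeval T b = aeval T a * Z ^ (q + 1 - k) := by
    apply expansion_injective 1
    rw [map_mul, map_mul, map_pow, ← aeval_algHom_apply, ← aeval_algHom_apply, hT, hZ, ← h,
      hnum, coeff_prod_numVec]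
    ring
  obtain ⟨τ, hτ⟩ := exists_tFun_eq L hL hr
  set w := divTau q τ
  have hw : scaleTau q w = τ := scaleTau_divTau q τ
  have hTw : ∀ p : ℂ[X], ((aeval T p : HolInfty 1) : ℍ → ℂ) w = p.eval r := fun p => by
    rw [aeval_subalgebra_coe, aeval_pi_apply₂, coe_aeval_eq_eval]
    show p.eval (tFun L (scaleTau q w)) = _
    rw [hw, hτ]
  have hk := congrArg (fun F : HolInfty 1 => (F : ℍ → ℂ) w) key
  simp only [Subalgebra.coe_mul, Subalgebra.coe_pow, Pi.mul_apply, Pi.pow_apply, hTw, hb,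
    mul_zero] at hk
  refine (mul_eq_zero.mp hk.symm).resolve_right (pow_ne_zero _ ?_)
  show dtFun L (scaleTau q w) ≠ 0
  rw [hw]
  exact dtFun_ne_zero L hL τ (by rwa [hτ])

/-- `T ↦ t(e^q)` on `ℤ[T, 1/P]`. -/
def psiQ (R : Type*) [CommRing R] : TRing L →+* LaurentSeries R := (qExpand R q).comp (psi L R)

theorem psiQ_toT (R : Type*) [CommRing R] (A : ℤ[X]) : psiQ q L R (toT L A) = evalTq L R q A := by
  rw [psiQ, RingHom.comp_apply, psi_toT, evalTq_eq, RingHom.comp_apply]

theorem coeffMap_comp_psiQ {R S : Type*} [CommRing R] [CommRing S] (φ : R →+* S) :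
    (coeffMap φ).comp (psiQ q L R) = psiQ q L S := by
  ext c
  simp only [psiQ, RingHom.comp_apply, coeffMap_qExpand]
  rw [← RingHom.comp_apply (coeffMap φ), coeffMap_comp_psi]

theorem exists_lift_fractionRing {A : Type*} [CommRing A] [IsDomain A] {E : Type*} [Field E]
    (φ : A →+* E) (hφ : Function.Injective φ) :
    ∃ σ : FractionRing A →+* E, σ.comp (algebraMap A (FractionRing A)) = φ :=
  ⟨IsFractionRing.lift hφ, RingHom.ext fun a => IsFractionRing.lift_algebraMap hφ a⟩

theorem comp_eq_of_comp_algebraMap {A : Type*} [CommRing A] [IsDomain A] {E E' : Type*} [Field E]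
    [Field E'] {σ : FractionRing A →+* E} {σ' : FractionRing A →+* E'} (ψ : E' →+* E)
    (h : ψ.comp (σ'.comp (algebraMap A (FractionRing A))) = σ.comp (algebraMap A (FractionRing A))) :
    ψ.comp σ' = σ :=
  IsLocalization.ringHom_ext (nonZeroDivisors A) (by rwa [RingHom.comp_assoc])

variable {q L}

/-- The coefficients of `vProd` lie in `ℤ[T, 1/P]`. -/
theorem IsModEq.coeff_vProd_mem {Φ : ℤ[X][X]} (h : IsModEq q L Φ) (hL : IsHauptLevel L) (k : ℕ) :
    (vProd q L (zetaC q)).coeff k ∈ (psiQ q L ℂ).range := by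
  have hζ := isPrimitiveRoot_zetaC q
  let F := FractionRing ℤ[X]
  let f : ℤ[X] →+* F := algebraMap ℤ[X] F
  have hf : Function.Injective f := IsFractionRing.injective ℤ[X] F
  obtain ⟨σ, hσ⟩ := exists_lift_fractionRing (evalTq L ℂ q) (evalTq_injective q L ℂ)
  have : Module.Finite F (AdjoinRoot (Φ.map f)) := (h.monic.map f).finite_adjoinRoot
  have hchar := h.map_charpoly_vElt hζ f hf σ hσ
  obtain ⟨a, b, hb, hab⟩ := IsFractionRing.div_surjective (A := ℤ[X])
    ((LinearMap.mulLeft F (vElt q Φ f)).charpoly.coeff k)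
  set c := (vProd q L (zetaC q)).coeff k with hc
  have hb0 : b ≠ 0 := nonZeroDivisors.ne_zero hb
  have hcf : c = σ (f a / f b) := by rw [hc, ← hchar, coeff_map]; exact congrArg σ hab.symm
  have hmul : c * evalTq L ℂ q b = evalTq L ℂ q a := by
    rw [hcf, ← hσ, RingHom.comp_apply, RingHom.comp_apply, ← map_mul,
      div_mul_cancel₀ _ ((map_ne_zero_iff f hf).mpr hb0)]
  -- the coefficients are rational
  have hQ : ∀ n, c.coeff n ∈ (algebraMap ℚ ℂ).range := by
    obtain ⟨σQ, hσQ⟩ := exists_lift_fractionRing (evalTq L ℚ q) (evalTq_injective q L ℚ)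
    have e : (coeffMap (algebraMap ℚ ℂ)).comp σQ = σ :=
      comp_eq_of_comp_algebraMap _ (by rw [hσQ, hσ, coeffMap_comp_evalTq])
    intro n
    rw [hcf, ← e, RingHom.comp_apply, coeffMap_coeff]
    exact ⟨_, rfl⟩
  -- and integral
  obtain ⟨ζ₁, -, hζ₁⟩ := exists_zetaOC q
  have hZ : ∀ n, c.coeff n ∈ (Int.castRingHom ℂ).range := by
    intro n
    obtain ⟨x, hx⟩ := hQ n
    have hint : IsIntegral ℤ x := by
      refine (isIntegral_algebraMap_iff (algebraMap ℚ ℂ).injective).mp ?_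
      rw [hx, hc, ← hζ₁, ← map_vProd, coeff_map, coeffMap_coeff]
      exact (((vProd q L ζ₁).coeff k).coeff n).2
    obtain ⟨z, hz⟩ := IsIntegrallyClosed.isIntegral_iff.mp hint
    exact ⟨z, by rw [← hx, ← hz, eq_intCast, eq_intCast, map_intCast]⟩
  -- clear the denominator
  let φ : ℂ[X] →+* LaurentSeries ℂ :=
    (qExpand ℂ q).comp (aeval (R := ℂ) (tOf L ℂ)).toRingHom
  have hφ : Function.Injective φ := (qExpand_injective q).comp (aeval_tOf_injective L)
  have hφZ : ∀ A : ℤ[X], φ (A.map (Int.castRingHom ℂ)) = evalTq L ℂ q A := fun A => by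
    rw [evalTq_eq, RingHom.comp_apply, RingHom.comp_apply, psiBase_eq]; rfl
  have hφa : ∀ p : ℂ[X], φ p = aeval (qExpand ℂ q (tOf L ℂ)) p := by
    intro p
    induction p using Polynomial.induction_on' with
    | add p p' hp hp' => simp only [map_add, hp, hp']
    | monomial n u =>
      rw [aeval_monomial, RingHom.comp_apply]
      simp only [AlgHom.toRingHom_eq_coe, RingHom.coe_coe, aeval_monomial, map_mul, map_pow]
      congr 1
      rw [algebraMap_laurentSeries_eq_single, qExpand_single, mul_zero]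
  obtain ⟨Q, N, hQN⟩ := exists_clear_denominator φ hφ ((cuspPoly L).map (Int.castRingHom ℂ))
    (b.map (Int.castRingHom ℂ)).natDegree c
    (fun a b r h => eval_eq_zero_of_coeff q L hL k a b r (by rwa [← hφa, ← hφa]))
    (a.map (Int.castRingHom ℂ)) (b.map (Int.castRingHom ℂ))
    ((Polynomial.map_ne_zero_iff (Int.castRingHom ℂ).injective_int).mpr hb0) le_rfl
    (by rw [hφZ, hφZ, hmul])
  obtain ⟨B, hB⟩ : ∃ B : ℤ[X], B.map (Int.castRingHom ℂ) = Q := by
    refine (mem_lifts Q).mp ((lifts_iff_coeff_lifts Q).mpr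
      (coeff_mem_of_coeff_aeval_mem L (Int.castRingHom ℂ).range Q fun n => ?_))
    have e : (aeval (tOf L ℂ) Q).coeff n = (c * φ ((cuspPoly L).map (Int.castRingHom ℂ)) ^ N).coeff (q * n) := by
      rw [hQN]
      exact (qExpand_coeff_mul q (aeval (tOf L ℂ) Q) n).symm
    rw [e, HahnSeries.coeff_mul]
    refine sum_mem fun ij _ => mul_mem (hZ _) ?_
    rw [hφZ, ← map_pow, ← coeffMap_comp_evalTq (Int.castRingHom ℂ), RingHom.comp_apply,
      coeffMap_coeff]
    exact ⟨_, rfl⟩
  obtain ⟨u, hu⟩ := (isUnit_toT_cuspPoly L).pow N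
  refine ⟨toT L B * ↑u⁻¹, ?_⟩
  have hu' := congrArg (psiQ q L ℂ) (Units.inv_mul u)
  rw [map_mul, hu, map_pow, psiQ_toT, map_one] at hu'
  rw [hφZ, ← hB, hφZ] at hQN
  rw [map_mul, psiQ_toT, ← hQN, mul_assoc, mul_comm (evalTq L ℂ q (cuspPoly L) ^ N), hu', mul_one]

/-- The integral characteristic polynomial. -/
theorem IsModEq.exists_chi {Φ : ℤ[X][X]} (h : IsModEq q L Φ) (hL : IsHauptLevel L) :
    ∃ χ : (TRing L)[X], χ.Monic ∧ χ.natDegree = q + 1 ∧
      χ.map (psiQ q L ℂ) = vProd q L (zetaC q) := by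
  have hl : vProd q L (zetaC q) ∈ lifts (psiQ q L ℂ) :=
    (lifts_iff_coeff_lifts _).mpr fun k => h.coeff_vProd_mem hL k
  obtain ⟨χ, hχ, hd, hm⟩ := lifts_and_natDegree_eq_and_monic hl (monic_vProd q L _)
  exact ⟨χ, hm, hd.trans (natDegree_vProd q L _), hχ⟩

end FLTA.Carayol.Haupt
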