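import Fermat.Agent.Carayol.Haupt.RootProd
import Fermat.Agent.Carayol.Haupt.Laurent
import Fermat.Agent.Carayol.Haupt.RootCharpoly

/-!
# The roots of the characteristic polynomial of `v = -q Φ_T/Φ_X`

At the root `x` over `T = t(e^q)` one has `v = θ x / (θ t)(e^q)`.
-/

set_option autoImplicit false

noncomputable section

open Polynomial ModularCurve

namespace FLTA.Carayol.Haupt

open FLTA.Igusa (theta twist)

variable (q : ℕ) (L : ℕ) [NeZero q] [NeZero L] {R : Type*} [CommRing R]

/-- The roots over `T = t(e^q)`, indexed. -/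
def rootVec (ζ : Rˣ) : Fin (q + 1) → LaurentSeries R :=
  Fin.cons (qExpand R (q * q) (tOf L R)) fun i : Fin q => twist (ζ ^ (i : ℕ)) (tOf L R)

/-- `θ` of the roots. -/
def numVec (ζ : Rˣ) : Fin (q + 1) → LaurentSeries R :=
  Fin.cons (((q * q : ℕ) : LaurentSeries R) * qExpand R (q * q) (theta (tOf L R)))
    fun i : Fin q => twist (ζ ^ (i : ℕ)) (theta (tOf L R))

/-- `(θ t)(e^q)`. -/
def zElt (R : Type*) [CommRing R] : LaurentSeries R := qExpand R q (theta (tOf L R))

theorem isUnit_zElt : IsUnit (zElt q L R) := (isUnit_theta_tOf L).map _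

/-- The values of `v`. -/
def vVec (ζ : Rˣ) (i : Fin (q + 1)) : LaurentSeries R :=
  numVec q L ζ i * Ring.inverse (zElt q L R)

/-- The polynomial with the values of `v` as roots. -/
def vProd (ζ : Rˣ) : (LaurentSeries R)[X] := ∏ i, (X - C (vVec q L ζ i))

theorem monic_vProd (ζ : Rˣ) : (vProd q L ζ).Monic :=
  monic_prod_of_monic _ _ fun _ _ => monic_X_sub_C _

theorem natDegree_vProd [Nontrivial R] (ζ : Rˣ) : (vProd q L ζ).natDegree = q + 1 := by
  rw [vProd, natDegree_prod_of_monic _ _ fun i _ => monic_X_sub_C _]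
  simp

theorem theta_rootVec (ζ : Rˣ) (i : Fin (q + 1)) :
    theta (rootVec q L ζ i) = numVec q L ζ i := by
  induction i using Fin.cases with
  | zero => simp only [rootVec, numVec, Fin.cons_zero, FLTA.Igusa.theta_qExpand]
  | succ i => simp only [rootVec, numVec, Fin.cons_succ, theta_twist]

theorem map_zElt {S : Type*} [CommRing S] (φ : R →+* S) :
    coeffMap φ (zElt q L R) = zElt q L S := by
  rw [zElt, zElt, coeffMap_qExpand, FLTA.Igusa.coeffMap_theta, coeffMap_tOf L]

theorem map_inverse_zElt {S : Type*} [CommRing S] (φ : R →+* S) :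
    coeffMap φ (Ring.inverse (zElt q L R)) = Ring.inverse (zElt q L S) := by
  have h1 := congrArg (coeffMap φ) (Ring.mul_inverse_cancel _ (isUnit_zElt q L (R := R)))
  rw [map_mul, map_one, map_zElt] at h1
  exact (isUnit_zElt q L (R := S)).mul_left_cancel (h1.trans (Ring.mul_inverse_cancel _ (isUnit_zElt q L)).symm)

theorem map_vVec {S : Type*} [CommRing S] (φ : R →+* S) (ζ : Rˣ) (i : Fin (q + 1)) :
    coeffMap φ (vVec q L ζ i) = vVec q L (Units.map (φ : R →* S) ζ) i := by
  rw [vVec, vVec, map_mul, map_inverse_zElt]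
  congr 1
  induction i using Fin.cases with
  | zero =>
    simp only [numVec, Fin.cons_zero, map_mul, map_natCast, coeffMap_qExpand,
      FLTA.Igusa.coeffMap_theta, coeffMap_tOf L]
  | succ i =>
    simp only [numVec, Fin.cons_succ, FLTA.Igusa.coeffMap_twist, FLTA.Igusa.coeffMap_theta,
      coeffMap_tOf L, map_pow]

theorem map_vProd {S : Type*} [CommRing S] (φ : R →+* S) (ζ : Rˣ) :
    (vProd q L ζ).map (coeffMap φ) = vProd q L (Units.map (φ : R →* S) ζ) := by
  simp only [vProd, Polynomial.map_prod, Polynomial.map_sub, map_X, map_C, map_vVec]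

theorem evalTq_eq (R : Type*) [CommRing R] :
    evalTq L R q = (qExpand R q).comp (psiBase L R) := by
  refine Polynomial.ringHom_ext' (RingHom.ext_int _ _) ?_
  simp [evalTq, psiBase]

theorem evalTq_injective (R : Type*) [CommRing R] [CharZero R] :
    Function.Injective (evalTq L R q) := by
  rw [evalTq_eq]
  exact (qExpand_injective q).comp (psiBase_injective L R)

theorem scaleRoots_prod {S : Type*} [CommRing S] [IsDomain S] {ι : Type*} [DecidableEq ι]
    (z : S) (a : ι → S) (s : Finset ι) :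
    ∏ i ∈ s, (X - C (z * a i)) = (∏ i ∈ s, (X - C (a i))).scaleRoots z := by
  induction s using Finset.induction_on with
  | empty => simp [one_scaleRoots]
  | insert j s hj ih =>
    rw [Finset.prod_insert hj, Finset.prod_insert hj, ih, mul_scaleRoots']
    · congr 1
      ext n
      rw [coeff_scaleRoots, natDegree_X_sub_C]
      rcases n with _ | _ | n <;> simp [coeff_X, mul_comm]
    · rw [(monic_prod_X_sub_C a s).leadingCoeff, leadingCoeff_X_sub_C, one_mul]
      exact one_ne_zero

theorem coeff_prod_numVec [IsDomain R] (ζ : Rˣ) (k : ℕ) :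
    (∏ i, (X - C (numVec q L ζ i))).coeff k =
      (vProd q L ζ).coeff k * zElt q L R ^ (q + 1 - k) := by
  classical
  have e : ∀ i, numVec q L ζ i = zElt q L R * vVec q L ζ i := fun i => by
    rw [vVec, mul_left_comm, Ring.mul_inverse_cancel _ (isUnit_zElt q L), mul_one]
  simp only [e]
  rw [scaleRoots_prod (zElt q L R) (vVec q L ζ) Finset.univ, coeff_scaleRoots, ← vProd,
    natDegree_vProd]

theorem separable_map_of_injective {A : Type*} [CommRing A] [IsDomain A] {E K : Type*} [Field E]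
    [Field K] {Ψ : A[X]} {φ : A →+* E} (hφ : Function.Injective φ) {f : A →+* K}
    (hf : Function.Injective f) (h : (Ψ.map φ).Separable) : (Ψ.map f).Separable := by
  let g : FractionRing A →+* K := IsFractionRing.lift hf
  let σ : FractionRing A →+* E := IsFractionRing.lift hφ
  have e : g.comp (algebraMap A _) = f := RingHom.ext fun a => IsFractionRing.lift_algebraMap hf a
  have eσ : σ.comp (algebraMap A _) = φ := RingHom.ext fun a => IsFractionRing.lift_algebraMap hφ a
  rw [← eσ, ← Polynomial.map_map, separable_map] at h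
  rw [← e, ← Polynomial.map_map]
  exact h.map

section Charpoly

variable [Fact q.Prime] {q L}

theorem IsModEq.eval₂_rootVec [IsDomain R] {Φ : ℤ[X][X]} (h : IsModEq q L Φ) {ζ : Rˣ}
    (hζ : ζ ^ q = 1) (i : Fin (q + 1)) : Φ.eval₂ (evalTq L R q) (rootVec q L ζ i) = 0 := by
  obtain ⟨h0, hi⟩ := h.roots q hζ
  rw [← eval_map]
  induction i using Fin.cases with
  | zero => exact h0
  | succ i => exact hi i

theorem injective_rootVec [IsDomain R] {ζ : Rˣ} (hζ : IsPrimitiveRoot ζ q) :
    Function.Injective (rootVec q L ζ) := rootProd_separable_roots q hζ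

theorem IsModEq.separable_map {K : Type*} [Field K] [CharZero K] {Φ : ℤ[X][X]}
    (h : IsModEq q L Φ) {f : ℤ[X] →+* K} (hf : Function.Injective f) {ζ : ℂˣ}
    (hζ : IsPrimitiveRoot ζ q) : (Φ.map f).Separable := by
  refine separable_map_of_injective (evalTq_injective q L ℂ) hf ?_
  rw [h.map_eq_rootProd q hζ, rootProd_eq_prod]
  exact separable_prod_X_sub_C_iff.mpr (injective_rootVec hζ)

omit [NeZero q] [Fact q.Prime] in
theorem map_vElt {F K : Type*} [Field F] [Field K] (g : F →+* K) {Φ : ℤ[X][X]}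
    (f : ℤ[X] →+* F) (hsep : (Φ.map f).Separable) :
    AdjoinRoot.map g (Φ.map f) ((Φ.map f).map g) dvd_rfl (vElt q Φ f) =
      -(q : AdjoinRoot ((Φ.map f).map g)) *
        AdjoinRoot.mk _ (((innerDeriv Φ).map f).map g) *
          Ring.inverse (AdjoinRoot.mk _ (((derivative Φ).map f).map g)) := by
  have hmk : ∀ P : F[X], AdjoinRoot.map g (Φ.map f) ((Φ.map f).map g) dvd_rfl
      (AdjoinRoot.mk _ P) = AdjoinRoot.mk _ (P.map g) := fun P => by
    rw [AdjoinRoot.map, AdjoinRoot.lift_mk, ← eval₂_map, ← AdjoinRoot.aeval_eq, aeval_def,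
      AdjoinRoot.algebraMap_eq]
  have hu : IsUnit (AdjoinRoot.mk (Φ.map f) ((derivative Φ).map f)) := by
    obtain ⟨a, b, hab⟩ := hsep
    refine IsUnit.of_mul_eq_one (AdjoinRoot.mk _ b) ?_
    rw [← derivative_map, ← map_mul, ← map_one (AdjoinRoot.mk (Φ.map f)), ← hab, map_add,
      map_mul (AdjoinRoot.mk (Φ.map f)) a, AdjoinRoot.mk_self, mul_zero, zero_add, mul_comm]
  rw [vElt, map_mul, map_mul, map_neg, map_natCast, hmk]
  congr 1
  rw [← hmk]
  have hu' := hu.map (AdjoinRoot.map g (Φ.map f) ((Φ.map f).map g) dvd_rfl)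
  refine hu'.mul_left_cancel ?_
  rw [← map_mul, Ring.mul_inverse_cancel _ hu, map_one, Ring.mul_inverse_cancel _ hu']

/-- The characteristic polynomial of `v` over `ℚ(T)` is `vProd`. -/
theorem IsModEq.map_charpoly_vElt {Φ : ℤ[X][X]} (h : IsModEq q L Φ) {ζ : ℂˣ}
    (hζ : IsPrimitiveRoot ζ q) {F : Type*} [Field F] [CharZero F] (f : ℤ[X] →+* F)
    (hf : Function.Injective f) (σ : F →+* LaurentSeries ℂ) (hσ : σ.comp f = evalTq L ℂ q)
    [Module.Free F (AdjoinRoot (Φ.map f))] [Module.Finite F (AdjoinRoot (Φ.map f))] :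
    (LinearMap.mulLeft F (vElt q Φ f)).charpoly.map σ = vProd q L ζ := by
  have hsep := h.separable_map hf hζ
  have hroot : ∀ i, (Φ.map f).eval₂ σ (rootVec q L ζ i) = 0 := fun i => by
    rw [eval₂_map, hσ]; exact h.eval₂_rootVec hζ.pow_eq_one i
  rw [map_charpoly_mulLeft (h.monic.map f) σ _ ((h.monic.natDegree_map f).trans h.natDegree)
    (rootVec q L ζ) (injective_rootVec hζ) hroot, vProd]
  refine Finset.prod_congr rfl fun i _ => ?_
  congr 2
  set x := rootVec q L ζ i with hx
  set ev := AdjoinRoot.lift σ x (hroot i) with hev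
  have hd : ∀ P : ℤ[X][X], ev (AdjoinRoot.mk _ (P.map f)) = P.eval₂ (evalTq L ℂ q) x := fun P => by
    rw [hev, AdjoinRoot.lift_mk, eval₂_map, hσ]
  -- differentiate `Φ(x, T) = 0`
  have hchain := theta_eval₂ Φ (qExpand ℂ q (tOf L ℂ)) x
  rw [show (aeval (qExpand ℂ q (tOf L ℂ))).toRingHom = evalTq L ℂ q from rfl,
    h.eval₂_rootVec hζ.pow_eq_one i, map_zero, hx, theta_rootVec,
    FLTA.Igusa.theta_qExpand, ← zElt] at hchain
  have hDne : (derivative Φ).eval₂ (evalTq L ℂ q) x ≠ 0 := by
    obtain ⟨a, b, hab⟩ := hsep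
    intro h0
    have := congrArg (eval₂ σ x) hab
    rw [eval₂_add, eval₂_mul, eval₂_mul, hroot i, mul_zero, zero_add, derivative_map, eval₂_map,
      hσ, h0, mul_zero, eval₂_one] at this
    exact zero_ne_one this
  have hu : IsUnit (AdjoinRoot.mk (Φ.map f) ((derivative Φ).map f)) := by
    obtain ⟨a, b, hab⟩ := hsep
    refine IsUnit.of_mul_eq_one (AdjoinRoot.mk _ b) ?_
    rw [← derivative_map, ← map_mul, ← map_one (AdjoinRoot.mk (Φ.map f)), ← hab, map_add,
      map_mul (AdjoinRoot.mk (Φ.map f)) a, AdjoinRoot.mk_self, mul_zero, zero_add, mul_comm]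
  have hinv := congrArg ev (Ring.mul_inverse_cancel _ hu)
  rw [map_mul, map_one, hd] at hinv
  refine mul_left_cancel₀ hDne ?_
  rw [vElt, map_mul, map_mul, map_neg, map_natCast, hd, vVec,
    mul_left_comm, hinv, mul_one]
  refine (isUnit_zElt q L).mul_right_cancel ?_
  rw [mul_assoc ((derivative Φ).eval₂ _ x), mul_assoc (numVec q L ζ i),
    Ring.inverse_mul_cancel _ (isUnit_zElt q L), mul_one]
  linear_combination hchain

end Charpoly

end FLTA.Carayol.Haupt
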